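import Mathlib

set_option autoImplicit false

/-! # Unfolding with weights -/

namespace Fermat.Agent.LT.Theta

open MeasureTheory
open scoped ENNReal

section abstr

variable {G Z T : Type*} [Group G] [Countable G] [Countable Z] [MulAction G Z]
  [AddGroup T] [MeasurableSpace T] [MeasurableAdd T] (μ : Measure T) [μ.IsAddRightInvariant]
  (ell : G → T)

/-- weights for the action `g (z, τ) = (g z, τ + ell g)` -/
structure IsWgt (w : Z → T → ℝ≥0∞) : Prop where
  meas : ∀ z, Measurable (w z)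
  sum : ∀ z τ, ∑' g : G, w (g • z) (τ + ell g) = 1

variable {ell} {w : Z → T → ℝ≥0∞}

omit [Countable G] [Countable Z] [MeasurableAdd T] in
theorem IsWgt.le_one (hw : IsWgt ell w) (z : Z) (τ : T) (g : G) : w (g • z) (τ + ell g) ≤ 1 := by
  rw [← hw.sum z τ]
  exact ENNReal.le_tsum g

omit [Countable G] [Countable Z] [MeasurableAdd T] in
theorem IsWgt.ne_top (hw : IsWgt ell w) (z : Z) (τ : T) : w z τ ≠ ∞ := by
  have h := hw.le_one z (τ - ell 1) 1
  rw [one_smul, sub_add_cancel] at h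
  exact ne_top_of_le_ne_top ENNReal.one_ne_top h

/-- orbit representatives -/
noncomputable def rep (o : MulAction.orbitRel.Quotient G Z) : Z := Quotient.out o

/-- for a free action `Z` is `orbits × G` -/
noncomputable def freeEquiv (free : ∀ (g : G) (z : Z), g • z = z → g = 1) :
    (MulAction.orbitRel.Quotient G Z) × G ≃ Z :=
  Equiv.ofBijective (fun p => p.2 • rep p.1) (by
    constructor
    · rintro ⟨o, g⟩ ⟨o', g'⟩ h
      simp only at h
      have h1 : o = o' := by
        have e1 : (Quotient.mk _ (g • rep o) : MulAction.orbitRel.Quotient G Z) = o := by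
          rw [← Quotient.out_eq o]
          apply Quotient.sound
          rw [Quotient.out_eq]
          exact MulAction.orbitRel_apply.mpr ⟨g, rfl⟩
        have e2 : (Quotient.mk _ (g' • rep o') : MulAction.orbitRel.Quotient G Z) = o' := by
          rw [← Quotient.out_eq o']
          apply Quotient.sound
          rw [Quotient.out_eq]
          exact MulAction.orbitRel_apply.mpr ⟨g', rfl⟩
        rw [← e1, ← e2, h]
      subst h1
      have h2 : (g'⁻¹ * g) • rep o = rep o := by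
        rw [mul_smul, h, inv_smul_smul]
      have h3 := free _ _ h2
      have : g = g' := by
        rw [inv_mul_eq_one] at h3
        exact h3.symm
      rw [this]
    · intro z
      have h : (MulAction.orbitRel G Z).r z
          (rep (G := G) (Quotient.mk (MulAction.orbitRel G Z) z)) := by
        apply Quotient.exact
        exact (Quotient.out_eq _).symm
      obtain ⟨g, hg⟩ := MulAction.orbitRel_apply.mp h
      exact ⟨⟨Quotient.mk _ z, g⟩, hg⟩)

omit [Countable G] [Countable Z] in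
theorem freeEquiv_apply (free : ∀ (g : G) (z : Z), g • z = z → g = 1)
    (o : MulAction.orbitRel.Quotient G Z) (g : G) : freeEquiv free (o, g) = g • rep o := rfl

instance countable_orbits : Countable (MulAction.orbitRel.Quotient G Z) :=
  Quotient.countable

theorem lintegral_unfold (hw : IsWgt ell w) (free : ∀ (g : G) (z : Z), g • z = z → g = 1)
    {H : Z → T → ℝ≥0∞} (hH : ∀ z, Measurable (H z))
    (hinv : ∀ (g : G) z τ, H (g • z) (τ + ell g) = H z τ) :
    ∑' z, ∫⁻ τ, w z τ * H z τ ∂μ = ∑' o : MulAction.orbitRel.Quotient G Z, ∫⁻ τ, H (rep o) τ ∂μ := by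
  rw [← (freeEquiv free).tsum_eq, ENNReal.tsum_prod']
  apply tsum_congr
  intro o
  have h1 : ∀ g : G, ∫⁻ τ, w (freeEquiv free (o, g)) τ * H (freeEquiv free (o, g)) τ ∂μ =
      ∫⁻ τ, w (g • rep o) (τ + ell g) * H (rep o) τ ∂μ := by
    intro g
    rw [freeEquiv_apply, ← lintegral_add_right_eq_self _ (ell g)]
    simp only [hinv]
  simp only [h1]
  rw [← lintegral_tsum]
  · apply lintegral_congr
    intro τ
    rw [ENNReal.tsum_mul_right, hw.sum, one_mul]
  · intro g
    exact (((hw.meas _).comp (measurable_add_const _)).mul (hH _)).aemeasurable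

theorem tsum_unfold (hw : IsWgt ell w) (free : ∀ (g : G) (z : Z), g • z = z → g = 1)
    {h : Z → T → ℂ} (hm : ∀ z, Measurable (h z))
    (hinv : ∀ (g : G) z τ, h (g • z) (τ + ell g) = h z τ)
    (hfin : ∑' o : MulAction.orbitRel.Quotient G Z, ∫⁻ τ, ‖h (rep o) τ‖ₑ ∂μ ≠ ∞) :
    HasSum (fun z => ∫ τ, ((w z τ).toReal : ℂ) * h z τ ∂μ)
      (∑' o : MulAction.orbitRel.Quotient G Z, ∫ τ, h (rep o) τ ∂μ) := by
  have hnorm : ∀ z τ, ‖((w z τ).toReal : ℂ) * h z τ‖ₑ = w z τ * ‖h z τ‖ₑ := by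
    intro z τ
    rw [enorm_mul]
    congr 1
    rw [← ofReal_norm, Complex.norm_real, Real.norm_eq_abs,
      abs_of_nonneg ENNReal.toReal_nonneg, ENNReal.ofReal_toReal (hw.ne_top z τ)]
  have htot : ∑' z, ∫⁻ τ, ‖((w z τ).toReal : ℂ) * h z τ‖ₑ ∂μ ≠ ∞ := by
    simp only [hnorm]
    rw [lintegral_unfold μ hw free (H := fun z τ => ‖h z τ‖ₑ) (fun z => (hm z).enorm)
      (fun g z τ => by rw [hinv])]
    exact hfin
  have hsumm : Summable (fun z => ∫ τ, ((w z τ).toReal : ℂ) * h z τ ∂μ) := by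
    have h2 : Summable (fun z => (∫⁻ τ, ‖((w z τ).toReal : ℂ) * h z τ‖ₑ ∂μ).toReal) :=
      ENNReal.summable_toReal htot
    refine Summable.of_norm_bounded h2 (fun z => ?_)
    have := norm_integral_le_lintegral_norm (μ := μ) (fun τ => ((w z τ).toReal : ℂ) * h z τ)
    refine this.trans (le_of_eq ?_)
    congr 1
    apply lintegral_congr
    intro τ
    rw [ofReal_norm]
  have hprod := ((freeEquiv free).summable_iff.mpr hsumm).tsum_prod
  rw [hsumm.hasSum_iff, ← (freeEquiv free).tsum_eq]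
  refine hprod.trans ?_
  apply tsum_congr
  intro o
  have h1 : ∀ g : G, ∫ τ, ((w (freeEquiv free (o, g)) τ).toReal : ℂ) *
      h (freeEquiv free (o, g)) τ ∂μ =
      ∫ τ, ((w (g • rep o) (τ + ell g)).toReal : ℂ) * h (rep o) τ ∂μ := by
    intro g
    rw [freeEquiv_apply, ← integral_add_right_eq_self _ (ell g)]
    simp only [hinv]
  simp only [Function.comp_apply, h1]
  have hfo : ∑' g : G, ∫⁻ τ, ‖((w (g • rep o) (τ + ell g)).toReal : ℂ) * h (rep o) τ‖ₑ ∂μ ≠ ∞ := by
    have e : ∀ g : G, ∫⁻ τ, ‖((w (g • rep o) (τ + ell g)).toReal : ℂ) * h (rep o) τ‖ₑ ∂μ =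
        ∫⁻ τ, w (g • rep o) (τ + ell g) * ‖h (rep o) τ‖ₑ ∂μ := by
      intro g
      apply lintegral_congr
      intro τ
      rw [← hinv g (rep o) τ, hnorm]
    simp only [e]
    rw [← lintegral_tsum]
    · have : ∀ τ, ∑' g : G, w (g • rep o) (τ + ell g) * ‖h (rep o) τ‖ₑ = ‖h (rep o) τ‖ₑ := by
        intro τ
        rw [ENNReal.tsum_mul_right, hw.sum, one_mul]
      simp only [this]
      exact ne_top_of_le_ne_top hfin (ENNReal.le_tsum o)
    · intro g
      exact (((hw.meas _).comp (measurable_add_const _)).mul (hm _).enorm).aemeasurable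
  rw [← integral_tsum]
  · apply integral_congr_ae
    refine Filter.Eventually.of_forall fun τ => ?_
    simp only
    rw [tsum_mul_right]
    have e2 : ∑' g : G, ((w (g • rep o) (τ + ell g)).toReal : ℂ) = 1 := by
      rw [← Complex.ofReal_tsum, ← ENNReal.tsum_toReal_eq, hw.sum]
      · simp
      · intro g; exact hw.ne_top _ _
    rw [e2, one_mul]
  · intro g
    exact (((Complex.measurable_ofReal.comp
      ((hw.meas _).comp (measurable_add_const _)).ennreal_toReal).mul (hm _))).aestronglyMeasurable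
  · exact hfo

end abstr

section prod

variable {G S X T : Type*} [Group G] [Countable G] [Countable S] [Countable X] [MulAction G S]
  [MulAction G X] [AddGroup T] [MeasurableSpace T] [MeasurableAdd T] (μ : Measure T)
  [μ.IsAddRightInvariant] {ell : G → T} {w : S → T → ℝ≥0∞}

/-- **Unfolding.** -/
theorem unfold_prod (hw : IsWgt ell w) (free : ∀ (g : G) (x : X), g • x = x → g = 1)
    {h : S → X → T → ℂ} (hm : ∀ s x, Measurable (h s x))
    (hinv : ∀ (g : G) s x τ, h (g • s) (g • x) (τ + ell g) = h s x τ)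
    (hfin : ∑' o : MulAction.orbitRel.Quotient G (S × X),
      ∫⁻ τ, ‖h (rep o).1 (rep o).2 τ‖ₑ ∂μ ≠ ∞) :
    HasSum (fun s => ∫ τ, ((w s τ).toReal : ℂ) * ∑' x, h s x τ ∂μ)
      (∑' o : MulAction.orbitRel.Quotient G (S × X), ∫ τ, h (rep o).1 (rep o).2 τ ∂μ) := by
  have hw' : IsWgt (G := G) ell (fun (z : S × X) => w z.1) :=
    ⟨fun z => hw.meas z.1, fun z τ => hw.sum z.1 τ⟩
  have free' : ∀ (g : G) (z : S × X), g • z = z → g = 1 := fun g z hz =>
    free g z.2 (congrArg Prod.snd hz)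
  have key := tsum_unfold μ hw' free' (h := fun z => h z.1 z.2) (fun z => hm z.1 z.2)
    (fun g z τ => hinv g z.1 z.2 τ) hfin
  have hnorm : ∀ (z : S × X) τ, ‖((w z.1 τ).toReal : ℂ) * h z.1 z.2 τ‖ₑ =
      w z.1 τ * ‖h z.1 z.2 τ‖ₑ := by
    intro z τ
    rw [enorm_mul]
    congr 1
    rw [← ofReal_norm, Complex.norm_real, Real.norm_eq_abs,
      abs_of_nonneg ENNReal.toReal_nonneg, ENNReal.ofReal_toReal (hw.ne_top z.1 τ)]
  have htot : ∑' z : S × X, ∫⁻ τ, ‖((w z.1 τ).toReal : ℂ) * h z.1 z.2 τ‖ₑ ∂μ ≠ ∞ := by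
    simp only [hnorm]
    rw [lintegral_unfold μ hw' free' (H := fun z τ => ‖h z.1 z.2 τ‖ₑ) (fun z => (hm z.1 z.2).enorm)
      (fun g z τ => by
        show ‖h (g • z.1) (g • z.2) (τ + ell g)‖ₑ = _
        rw [hinv])]
    exact hfin
  have h2 := key.prod_fiberwise (fun s => (key.summable.prod_factor s).hasSum)
  convert h2 using 1
  funext s
  have hs : ∑' x, ∫⁻ τ, ‖((w s τ).toReal : ℂ) * h s x τ‖ₑ ∂μ ≠ ∞ := by
    have h3 : ∑' x, ∫⁻ τ, ‖((w s τ).toReal : ℂ) * h s x τ‖ₑ ∂μ ≤
        ∑' z : S × X, ∫⁻ τ, ‖((w z.1 τ).toReal : ℂ) * h z.1 z.2 τ‖ₑ ∂μ := by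
      rw [ENNReal.tsum_prod']
      exact ENNReal.le_tsum (f := fun s => ∑' x, ∫⁻ τ, ‖((w s τ).toReal : ℂ) * h s x τ‖ₑ ∂μ) s
    exact ne_top_of_le_ne_top htot h3
  rw [← integral_tsum]
  · apply integral_congr_ae
    refine Filter.Eventually.of_forall fun τ => ?_
    simp only
    rw [tsum_mul_left]
  · intro x
    exact ((Complex.measurable_ofReal.comp (hw.meas s).ennreal_toReal).mul
      (hm s x)).aestronglyMeasurable
  · exact hs

end prod

end Fermat.Agent.LT.Theta
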