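import Fermat.Agent.LT.Theta.Bessel
import Fermat.Agent.LT.Theta.Unfold

set_option autoImplicit false

/-! # Weights, and the unfolded theta integral -/

namespace Fermat.Agent.LT.Theta

open Complex MeasureTheory NumberField Module Matrix
open scoped Real ComplexConjugate ENNReal

set_option linter.unusedSectionVars false

section ell

variable {E L : Type*} [Field E] [NumberField E] [Field L] [NumberField L] [Algebra E L]
  [IsTotallyComplex E] (q : QD E L)

theorem QD.ell_mul {u u' : L} (hu : u ≠ 0) (hu' : u' ≠ 0) :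
    q.ell (u * u') = q.ell u + q.ell u' := by
  funext v
  unfold QD.ell
  have h1 : ‖q.τ v u‖ ≠ 0 := by rw [norm_ne_zero_iff, map_ne_zero]; exact hu
  have h2 : ‖q.τ v u'‖ ≠ 0 := by rw [norm_ne_zero_iff, map_ne_zero]; exact hu'
  have h3 : ‖q.τ v (q.c u)‖ ≠ 0 := by
    rw [norm_ne_zero_iff, map_ne_zero, map_ne_zero_iff _ q.c.injective]; exact hu
  have h4 : ‖q.τ v (q.c u')‖ ≠ 0 := by
    rw [norm_ne_zero_iff, map_ne_zero, map_ne_zero_iff _ q.c.injective]; exact hu'
  rw [Pi.add_apply]
  simp only [map_mul, norm_mul]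
  rw [Real.log_mul h1 h2, Real.log_mul h3 h4]
  ring

theorem QD.ell_one : q.ell 1 = 0 := by
  funext v
  simp [QD.ell]

theorem QD.norm_mul_eq_one {u : L} (hu : Algebra.norm E u = 1) (v : InfinitePlace E) :
    ‖q.τ v u‖ * ‖q.τ v (q.c u)‖ = 1 := by
  rw [← norm_mul, q.τ_norm, hu, map_one, norm_one]

theorem QD.exp_ell {u : L} (hu : Algebra.norm E u = 1) (v : InfinitePlace E) :
    Real.exp (2 * q.ell u v) = ‖q.τ v u‖ ^ 2 ∧ Real.exp (-(2 * q.ell u v)) = ‖q.τ v (q.c u)‖ ^ 2 := by
  have h := q.norm_mul_eq_one hu v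
  have h1 : 0 < ‖q.τ v u‖ := by
    rcases (norm_nonneg (q.τ v u)).lt_or_eq with h' | h'
    · exact h'
    · rw [← h', zero_mul] at h; exact absurd h zero_ne_one
  have h2 : 0 < ‖q.τ v (q.c u)‖ := by
    rcases (norm_nonneg (q.τ v (q.c u))).lt_or_eq with h' | h'
    · exact h'
    · rw [← h', mul_zero] at h; exact absurd h zero_ne_one
  unfold QD.ell
  constructor
  · rw [show 2 * ((Real.log ‖q.τ v u‖ - Real.log ‖q.τ v (q.c u)‖) / 2) =
      Real.log ‖q.τ v u‖ - Real.log ‖q.τ v (q.c u)‖ by ring, Real.exp_sub, Real.exp_log h1,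
      Real.exp_log h2, div_eq_iff h2.ne', pow_two, mul_assoc, h, mul_one]
  · rw [show -(2 * ((Real.log ‖q.τ v u‖ - Real.log ‖q.τ v (q.c u)‖) / 2)) =
      Real.log ‖q.τ v (q.c u)‖ - Real.log ‖q.τ v u‖ by ring, Real.exp_sub, Real.exp_log h1,
      Real.exp_log h2, div_eq_iff h1.ne', pow_two, mul_assoc, mul_comm ‖q.τ v (q.c u)‖ ‖q.τ v u‖,
      h, mul_one]

/-- the Gaussian majorant used for the weight -/
noncomputable def ga (τ : InfinitePlace E → ℝ) (u : V E) : ℂ :=
  (Real.exp (-(∑ v, (‖(u v).1‖ ^ 2 * Real.exp (2 * τ v) + ‖(u v).2‖ ^ 2 * Real.exp (-(2 * τ v))))) : ℝ)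

theorem gaussBdd_ga (τ : InfinitePlace E → ℝ) : GaussBdd (ga τ : V E → ℂ) := by
  obtain ⟨m1, hm1, h1⟩ := exists_pos_le_all (fun v => Real.exp (2 * τ v))
    (fun v => Real.exp_pos _)
  obtain ⟨m2, hm2, h2⟩ := exists_pos_le_all (fun v => Real.exp (-(2 * τ v)))
    (fun v => Real.exp_pos _)
  refine gaussBdd_of_norm_le (m := min m1 m2) (lt_min hm1 hm2) (fun u => ?_)
  unfold ga
  rw [Complex.norm_real, Real.norm_eq_abs, Real.abs_exp]
  apply Real.exp_le_exp.mpr
  rw [neg_le_neg_iff, Finset.mul_sum]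
  apply Finset.sum_le_sum
  intro v _
  have e1 : min m1 m2 ≤ Real.exp (2 * τ v) := (min_le_left _ _).trans (h1 v)
  have e2 : min m1 m2 ≤ Real.exp (-(2 * τ v)) := (min_le_right _ _).trans (h2 v)
  have e3 := mul_le_mul_of_nonneg_right e1 (sq_nonneg ‖(u v).1‖)
  have e4 := mul_le_mul_of_nonneg_right e2 (sq_nonneg ‖(u v).2‖)
  nlinarith

theorem ga_ell {u : L} (hu : Algebra.norm E u = 1) (τ : InfinitePlace E → ℝ) :
    (ga τ (q.ι u) : ℂ) = (Real.exp (-(∑ v, (Real.exp (2 * (τ + q.ell u) v) +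
      Real.exp (-(2 * (τ + q.ell u) v))))) : ℝ) := by
  unfold ga
  congr 3
  apply Finset.sum_congr rfl
  intro v _
  obtain ⟨h1, h2⟩ := q.exp_ell hu v
  simp only [QD.ι_fst, QD.ι_snd, Pi.add_apply]
  rw [mul_add, Real.exp_add, h1, neg_add, Real.exp_add, h2]
  ring

/-- indicator of `n⁻¹ 𝓞` -/
noncomputable def indO (n : ℕ) (x : L) : ℂ := by
  classical
  exact if IsIntegral ℤ ((n : L) * x) then 1 else 0

theorem SB_indO {n : ℕ} (hn : 0 < n) : SB (indO n : L → ℂ) := by
  classical
  refine ⟨n, hn, fun x hx => ?_, fun x y hy => ?_⟩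
  · by_contra h
    apply hx
    unfold indO
    rw [if_neg h]
  · unfold indO
    have : IsIntegral ℤ ((n : L) * (x + n * y)) ↔ IsIntegral ℤ ((n : L) * x) := by
      have hny : IsIntegral ℤ ((n : L) * (n * y)) :=
        isIntegral_natCast_mul n (isIntegral_natCast_mul n hy)
      rw [mul_add]
      constructor
      · intro h
        have := h.sub hny
        rwa [add_sub_cancel_right] at this
      · intro h
        exact h.add hny
    simp only [this]

end ell

section weight

variable {E L : Type*} [Field E] [NumberField E] [Field L] [NumberField L] [Algebra E L]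
  [IsTotallyComplex E] (q : QD E L) {G S : Type*} [Group G] [Countable G] [Countable S]
  [MulAction G S] (i : G →* Lˣ)

/-- the translation attached to `g` -/
noncomputable def eg (g : G) : InfinitePlace E → ℝ := q.ell (i g : L)

theorem eg_mul (g h : G) : eg q i (g * h) = eg q i g + eg q i h := by
  unfold eg
  rw [map_mul, Units.val_mul, q.ell_mul (Units.ne_zero _) (Units.ne_zero _)]

theorem eg_one : eg q i (1 : G) = 0 := by
  unfold eg
  rw [map_one, Units.val_one, q.ell_one]

/-- **Existence of weights.** -/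
theorem exists_wgt (hi : Function.Injective i) (hnorm : ∀ g, Algebra.norm E (i g : L) = 1)
    (hst : ∀ s : S, ∃ n : ℕ, 0 < n ∧ ∀ g : G, g • s = s → IsIntegral ℤ ((n : L) * (i g : L))) :
    ∃ w : S → (InfinitePlace E → ℝ) → ℝ≥0∞, IsWgt (G := G) (eg q i) w := by
  classical
  let f : (InfinitePlace E → ℝ) → ℝ≥0∞ := fun τ =>
    ENNReal.ofReal (Real.exp (-(∑ v, (Real.exp (2 * τ v) + Real.exp (-(2 * τ v))))))
  have hfpos : ∀ τ, f τ ≠ 0 := fun τ => by
    simp only [f, ne_eq, ENNReal.ofReal_eq_zero, not_le]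
    exact Real.exp_pos _
  have hfm : Measurable f := by
    apply ENNReal.measurable_ofReal.comp
    fun_prop
  let r : S → S := fun s => rep (G := G) (Quotient.mk (MulAction.orbitRel G S) s)
  have hr : ∀ (g : G) s, r (g • s) = r s := by
    intro g s
    show rep (Quotient.mk (MulAction.orbitRel G S) (g • s)) =
      rep (Quotient.mk (MulAction.orbitRel G S) s)
    congr 1
    apply Quotient.sound
    exact MulAction.orbitRel_apply.mpr ⟨g, rfl⟩
  have hrep : ∀ s, ∃ g : G, g • s = r s := by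
    intro s
    have h : (MulAction.orbitRel G S).r (rep (G := G) (Quotient.mk (MulAction.orbitRel G S) s)) s := by
      apply Quotient.exact
      exact Quotient.out_eq _
    obtain ⟨g, hg⟩ := MulAction.orbitRel_apply.mp h
    exact ⟨g, hg⟩
  let w0 : S → (InfinitePlace E → ℝ) → ℝ≥0∞ := fun s τ => if s = r s then f τ else 0
  have hw0m : ∀ s, Measurable (w0 s) := by
    intro s
    by_cases h : s = r s
    · have : w0 s = f := funext fun τ => if_pos h
      rw [this]; exact hfm
    · have : w0 s = fun _ => 0 := funext fun τ => if_neg h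
      rw [this]; exact measurable_const
  let W : S → (InfinitePlace E → ℝ) → ℝ≥0∞ := fun s τ => ∑' g : G, w0 (g • s) (τ + eg q i g)
  have hWm : ∀ s, Measurable (W s) := fun s =>
    Measurable.tsum fun g => (hw0m _).comp (measurable_add_const _)
  have hWinv : ∀ (g : G) s τ, W (g • s) (τ + eg q i g) = W s τ := by
    intro g s τ
    show ∑' h : G, w0 (h • g • s) (τ + eg q i g + eg q i h) = ∑' h : G, w0 (h • s) (τ + eg q i h)
    rw [← (Equiv.mulRight g).tsum_eq (fun h => w0 (h • s) (τ + eg q i h))]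
    apply tsum_congr
    intro h
    simp only [Equiv.coe_mulRight]
    rw [mul_smul, eg_mul, add_assoc, add_comm (eg q i h)]
  have hWpos : ∀ s τ, W s τ ≠ 0 := by
    intro s τ h0
    obtain ⟨g, hg⟩ := hrep s
    have h1 := (ENNReal.tsum_eq_zero.mp h0) g
    have h2 : w0 (g • s) (τ + eg q i g) = f (τ + eg q i g) := by
      show (if g • s = r (g • s) then _ else _) = _
      rw [hr, hg, if_pos rfl]
    rw [h2] at h1
    exact hfpos _ h1
  have hWfin : ∀ s τ, W s τ ≠ ∞ := by
    intro s τ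
    obtain ⟨g0, hg0⟩ := hrep s
    obtain ⟨n, hn, hint⟩ := hst (r s)
    have e1 : W s τ = ∑' h : G, w0 (h • r s) (τ + eg q i g0 + eg q i h) := by
      have := hWinv g0 s τ
      rw [hg0] at this
      exact this.symm
    rw [e1]
    have hsum := summable_SB q (SB_indO (L := L) hn) (gaussBdd_ga (τ + eg q i g0))
    have hsum2 : Summable (fun h : G => ‖(indO n ((i h : Lˣ) : L) : ℂ) *
        ga (τ + eg q i g0) (q.ι ((i h : Lˣ) : L))‖) := by
      refine (hsum.norm.comp_injective (i := fun h : G => ((i h : Lˣ) : L)) ?_)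
      intro h h' hh
      exact hi (Units.ext hh)
    have hle : ∀ h : G, w0 (h • r s) (τ + eg q i g0 + eg q i h) ≤
        ENNReal.ofReal ‖(indO n ((i h : Lˣ) : L) : ℂ) *
        ga (τ + eg q i g0) (q.ι ((i h : Lˣ) : L))‖ := by
      intro h
      by_cases hh : h • r s = r (h • r s)
      · have hrr : r (h • r s) = r s := by
          rw [hr]
          obtain ⟨g, hg⟩ := hrep s
          rw [← hg, hr]
          exact hg.symm ▸ rfl
        have hh' : h • r s = r s := hh.trans hrr
        have e2 : w0 (h • r s) (τ + eg q i g0 + eg q i h) = f (τ + eg q i g0 + eg q i h) := if_pos hh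
        rw [e2]
        have e3 : (indO n ((i h : Lˣ) : L) : ℂ) = 1 := by
          unfold indO; exact if_pos (hint h hh')
        rw [e3, one_mul, ga_ell q (hnorm h), Complex.norm_real, Real.norm_eq_abs, Real.abs_exp]
        exact le_refl _
      · have e2 : w0 (h • r s) (τ + eg q i g0 + eg q i h) = 0 := if_neg hh
        rw [e2]
        exact zero_le
    refine ne_top_of_le_ne_top ?_ (ENNReal.tsum_le_tsum hle)
    exact hsum2.tsum_ofReal_ne_top
  refine ⟨fun s τ => w0 s τ / W s τ, ⟨fun s => (hw0m s).div (hWm s), fun s τ => ?_⟩⟩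
  simp only [hWinv]
  simp only [div_eq_mul_inv]
  rw [ENNReal.tsum_mul_right]
  exact ENNReal.mul_inv_cancel (hWpos s τ) (hWfin s τ)

end weight

section unfold

variable {E L : Type*} [Field E] [NumberField E] [Field L] [NumberField L] [Algebra E L]
  [IsTotallyComplex E] (q : QD E L) {G S : Type*} [Group G] [Countable G] [Countable S]
  [MulAction G S] (i : G →* Lˣ)

/-- the group `L^*` with the action `g x = i(g)⁻¹ x` -/
def XL (_i : G →* Lˣ) : Type _ := Lˣ

noncomputable instance : MulAction G (XL i) where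
  smul g x := (show Lˣ from (i g)⁻¹ * (show Lˣ from x))
  one_smul x := by
    show (i 1)⁻¹ * (show Lˣ from x) = x
    rw [map_one, inv_one, one_mul]
  mul_smul g h x := by
    show (i (g * h))⁻¹ * (show Lˣ from x) = (i g)⁻¹ * ((i h)⁻¹ * (show Lˣ from x))
    rw [map_mul, _root_.mul_inv_rev, mul_assoc, ← mul_assoc, ← mul_assoc]
    congr 1
    exact mul_comm _ _

/-- the underlying element of `L` -/
def XL.val {i : G →* Lˣ} (x : XL i) : L := ((show Lˣ from x : Lˣ) : L)

theorem XL.smul_val (g : G) (x : XL i) : (g • x).val = ((i g : Lˣ) : L)⁻¹ * x.val := by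
  show (((i g)⁻¹ * (show Lˣ from x) : Lˣ) : L) = _
  rw [Units.val_mul, Units.val_inv_eq_inv_val]
  rfl

theorem XL.val_ne (x : XL i) : x.val ≠ 0 := Units.ne_zero (show Lˣ from x)

instance : Countable (XL i) := by
  have : Countable L :=
    Countable.of_equiv (IB L → ℚ) ((integralBasis L).equivFun).toEquiv.symm
  exact (Units.val_injective (α := L)).countable

/-- the orbits of `G` on `S × L^*` -/
abbrev Orb (_i : G →* Lˣ) (S : Type*) [MulAction G S] := MulAction.orbitRel.Quotient G (S × XL _i)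

/-- the Whittaker function `∏ y_v e(2Re z_v ξ_v) K₀(4π|ξ_v|y_v)` -/
noncomputable def bw (p : HF E) (ξ : E) : ℂ :=
  ∏ v, (((p v).y * bK0 (4 * π * ((p v).y * ‖v.embedding ξ‖)) : ℝ) : ℂ) *
    cexp (4 * π * I * (((p v).z * v.embedding ξ).re : ℂ))

/-- its absolute value -/
noncomputable def bwn (p : HF E) (ξ : E) : ℝ :=
  ∏ v, ((p v).y * bK0 (4 * π * ((p v).y * ‖v.embedding ξ‖)))

theorem norm_bw (p : HF E) (ξ : E) : ‖bw p ξ‖ = bwn p ξ := by
  unfold bw bwn
  rw [norm_prod]
  apply Finset.prod_congr rfl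
  intro v _
  have h1 : ‖cexp (4 * π * I * (((p v).z * v.embedding ξ).re : ℂ))‖ = 1 := by
    rw [show 4 * π * I * (((p v).z * v.embedding ξ).re : ℂ) =
      ((4 * π * ((p v).z * v.embedding ξ).re : ℝ) : ℂ) * I by push_cast; ring,
      Complex.norm_exp_ofReal_mul_I]
  rw [norm_mul, h1, mul_one, Complex.norm_real, Real.norm_eq_abs,
    abs_of_nonneg (mul_nonneg (p v).pos.le (bK0_nonneg _))]

theorem τ_ne {x : L} (hx : x ≠ 0) (v : InfinitePlace E) : q.τ v x ≠ 0 := by
  rw [map_ne_zero]; exact hx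

theorem τc_ne {x : L} (hx : x ≠ 0) (v : InfinitePlace E) : q.τ v (q.c x) ≠ 0 := by
  rw [map_ne_zero, map_ne_zero_iff _ q.c.injective]; exact hx

theorem integral_gf_ι (p : HF E) {x : L} (hx : x ≠ 0) :
    (ht p : ℂ) * ∫ τ, gf p τ (q.ι x) = bw p (Algebra.norm E x) := by
  rw [integral_gf p (fun v => τ_ne q hx v) (fun v => τc_ne q hx v)]
  unfold ht bw
  rw [ofReal_prod, ← Finset.prod_mul_distrib]
  apply Finset.prod_congr rfl
  intro v _
  have h1 : (p v).z * (q.ι x v).1 * (q.ι x v).2 = (p v).z * v.embedding (Algebra.norm E x) := by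
    rw [← q.τ_norm, ← mul_assoc]; rfl
  have h2 : ‖(q.ι x v).1‖ * ‖(q.ι x v).2‖ = ‖v.embedding (Algebra.norm E x)‖ := by
    rw [← q.τ_norm, norm_mul]; rfl
  rw [h1, h2]
  push_cast
  ring

theorem lintegral_gf_ι (p : HF E) {x : L} (hx : x ≠ 0) :
    ENNReal.ofReal (ht p) * ∫⁻ τ, ‖gf p τ (q.ι x)‖ₑ =
      ENNReal.ofReal (bwn p (Algebra.norm E x)) := by
  rw [lintegral_gf p (fun v => τ_ne q hx v) (fun v => τc_ne q hx v),
    ← ENNReal.ofReal_mul (ht_pos p).le]
  congr 1
  unfold ht bwn
  rw [← Finset.prod_mul_distrib]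
  apply Finset.prod_congr rfl
  intro v _
  have h2 : ‖(q.ι x v).1‖ * ‖(q.ι x v).2‖ = ‖v.embedding (Algebra.norm E x)‖ := by
    rw [← q.τ_norm, norm_mul]; rfl
  rw [h2]

/-- **The series**: the unfolded theta integral -/
noncomputable def ser (i : G →* Lˣ) (Ψ : S → L → ℂ) (p : HF E) : ℂ :=
  ∑' o : Orb i S, Ψ (rep o).1 (rep o).2.val * bw p (Algebra.norm E (rep o).2.val)

/-- absolute convergence of the series -/
def SerConv (i : G →* Lˣ) (Ψ : S → L → ℂ) (p : HF E) : Prop :=
  Summable (fun o : Orb i S => ‖Ψ (rep o).1 (rep o).2.val‖ * bwn p (Algebra.norm E (rep o).2.val))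

/-- **Unfolding of the theta integral.** -/
theorem th_unfold (hi : Function.Injective i) (hnorm : ∀ g, Algebra.norm E (i g : L) = 1)
    {w : S → (InfinitePlace E → ℝ) → ℝ≥0∞} (hw : IsWgt (G := G) (eg q i) w)
    {Ψ : S → L → ℂ} (h0 : ∀ s, Ψ s 0 = 0)
    (hΨ : ∀ (g : G) s x, Ψ (g • s) x = Ψ s ((i g : L) * x)) (p : HF E)
    (hc : SerConv i Ψ p) :
    HasSum (fun s => ∫ τ, ((w s τ).toReal : ℂ) * th q (Ψ s) p τ) (ser i Ψ p) := by
  have key := unfold_prod (G := G) (S := S) (X := XL i) (μ := volume) (ell := eg q i) hw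
    (fun g x hx => by
      apply hi
      have h1 : (i g)⁻¹ * (show Lˣ from x) = (show Lˣ from x) := hx
      rw [map_one]
      have h2 : (i g)⁻¹ = 1 := mul_eq_right.mp h1
      rwa [inv_eq_one] at h2)
    (h := fun s x τ => (ht p : ℂ) * (Ψ s x.val * gf p τ (q.ι x.val)))
    (fun s x => by
      have : Continuous (fun τ => gf p τ (q.ι x.val)) := by
        simp only [gf_eq_prod]
        exact continuous_finsetProd _ fun v _ =>
          (continuous_gfv _ (p v).pos _).comp (continuous_apply v)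
      exact ((this.measurable.const_mul _).const_mul _))
    (fun g s x τ => by
      have h1 : (g • x).val = ((i g : Lˣ) : L)⁻¹ * x.val := XL.smul_val i g x
      have hne : ((i g : Lˣ) : L) ≠ 0 := Units.ne_zero _
      have h2 : ((i g : Lˣ) : L) * (g • x).val = x.val := by
        rw [h1, mul_inv_cancel_left₀ hne]
      rw [hΨ, h2]
      congr 2
      have h3 := gf_mul q (i g) p τ (g • x).val
      have h4 : q.nu (i g) = 1 := Units.ext (hnorm g)
      rw [h4, aMat_one_smul, h2] at h3
      exact h3.symm)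
    (by
      have e : ∀ o : Orb i S, ∫⁻ τ, ‖(ht p : ℂ) * (Ψ (rep o).1 (rep o).2.val *
          gf p τ (q.ι (rep o).2.val))‖ₑ =
          ENNReal.ofReal (‖Ψ (rep o).1 (rep o).2.val‖ *
            bwn p (Algebra.norm E (rep o).2.val)) := by
        intro o
        have hv := XL.val_ne i (rep o).2
        simp only [enorm_mul]
        rw [lintegral_const_mul' _ _ enorm_ne_top, lintegral_const_mul' _ _ enorm_ne_top,
          ENNReal.ofReal_mul (norm_nonneg _), ← lintegral_gf_ι q p hv, ofReal_norm]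
        have : ‖(ht p : ℂ)‖ₑ = ENNReal.ofReal (ht p) := by
          rw [← ofReal_norm, Complex.norm_real, Real.norm_eq_abs, abs_of_pos (ht_pos p)]
        rw [this]
        ring
      simp only [e]
      exact hc.tsum_ofReal_ne_top)
  unfold ser
  convert key using 1
  · funext s
    congr 1
    funext τ
    congr 1
    unfold th
    rw [tsum_mul_left]
    congr 1
    -- sum over units
    have hinj : Function.Injective (fun x : XL i => x.val) := Units.val_injective
    refine (hinj.tsum_eq (f := fun x => Ψ s x * gf p τ (q.ι x)) ?_).symm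
    intro x hx
    have hx0 : x ≠ 0 := by
      rintro rfl
      apply hx
      simp only [h0, zero_mul]
    exact ⟨(show XL i from Units.mk0 x hx0), rfl⟩
  · apply tsum_congr
    intro o
    have hv := XL.val_ne i (rep o).2
    rw [integral_const_mul, integral_const_mul, ← integral_gf_ι q p hv]
    ring

/-- **Automorphy under the Weyl element.** -/
theorem ser_wMat {S' : Type*} [Countable S'] [MulAction G S'] (hi : Function.Injective i)
    (hnorm : ∀ g, Algebra.norm E (i g : L) = 1)
    (hst : ∀ s : S, ∃ n : ℕ, 0 < n ∧ ∀ g : G, g • s = s → IsIntegral ℤ ((n : L) * (i g : L)))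
    {Ψ : S → L → ℂ} {Ψ' : S' → L → ℂ} (hSB : ∀ s, SB (Ψ s))
    (h0 : ∀ s, Ψ s 0 = 0) (h0' : ∀ s, Ψ' s 0 = 0)
    (hΨ : ∀ (g : G) s x, Ψ (g • s) x = Ψ s ((i g : L) * x))
    (hΨ' : ∀ (g : G) s x, Ψ' (g • s) x = Ψ' s ((i g : L) * x))
    (e : S ≃ S') (he : ∀ (g : G) s, e (g • s) = g • e s) (c : ℂ)
    (hff : ∀ s x, q.ff (Ψ s) x = c * Ψ' (e s) x) (p : HF E)
    (hc : SerConv i Ψ p) (hc' : SerConv i Ψ' (wMat E • p)) :
    ser i Ψ p = q.cst * c * ser i Ψ' (wMat E • p) := by
  obtain ⟨w, hw⟩ := exists_wgt q i hi hnorm hst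
  have h1 := th_unfold q i hi hnorm hw h0 hΨ p hc
  have hw' : IsWgt (G := G) (eg q i) (fun s' => w (e.symm s')) := by
    refine ⟨fun s' => hw.meas _, fun s' τ => ?_⟩
    have : ∀ g : G, e.symm (g • s') = g • e.symm s' := by
      intro g
      apply e.injective
      rw [e.apply_symm_apply, he, e.apply_symm_apply]
    simp only [this]
    exact hw.sum _ _
  have h2 := th_unfold q i hi hnorm hw' h0' hΨ' (wMat E • p) hc'
  have h3 := (e.hasSum_iff.mpr h2).mul_left (q.cst * c : ℂ)
  suffices h5 : (fun s => ∫ τ, ((w s τ).toReal : ℂ) * th q (Ψ s) p τ) = fun s =>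
      (q.cst * c : ℂ) * ((fun s' => ∫ τ, ((w (e.symm s') τ).toReal : ℂ) *
        th q (Ψ' s') (wMat E • p) τ) ∘ e) s by
    rw [h5] at h1
    exact h1.unique h3
  funext s
  simp only [Function.comp_apply, e.symm_apply_apply]
  rw [← integral_const_mul]
  apply integral_congr_ae
  refine Filter.Eventually.of_forall fun τ => ?_
  simp only
  rw [th_wMat q (hSB s)]
  have : q.ff (Ψ s) = fun x => c * Ψ' (e s) x := funext fun x => hff s x
  rw [this]
  unfold th
  have e4 : ∑' x, c * Ψ' (e s) x * gf (wMat E • p) τ (q.ι x) =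
      c * ∑' x, Ψ' (e s) x * gf (wMat E • p) τ (q.ι x) := by
    rw [← tsum_mul_left]
    exact tsum_congr fun x => by ring
  rw [e4]
  ring

end unfold

end Fermat.Agent.LT.Theta
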