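import Fermat.Agent.LT.Theta.Gauss

set_option autoImplicit false

/-! # Quadratic extensions of totally complex fields: embeddings and traces -/

namespace Fermat.Agent.LT.Theta

open Complex MeasureTheory NumberField
open scoped Real ComplexConjugate

/-- the trace of a totally complex field as a sum over places -/
theorem trace_eq_sum_places {E : Type*} [Field E] [NumberField E] [IsTotallyComplex E] (a : E) :
    ((Algebra.trace ℚ E a : ℚ) : ℂ) = ∑ v : InfinitePlace E, ((2 * (v.embedding a).re : ℝ) : ℂ) := by
  classical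
  have h := trace_eq_sum_embeddings (K := ℚ) (L := E) (E := ℂ) (x := a)
  rw [eq_ratCast] at h
  rw [h]
  have e1 : ∑ σ : E →ₐ[ℚ] ℂ, σ a = ∑ φ : E →+* ℂ, φ a := by
    refine Fintype.sum_equiv (RingHom.equivRatAlgHom (R := E) (S := ℂ)).symm _ _ fun σ => ?_
    rfl
  rw [e1, ← Finset.sum_fiberwise_of_maps_to (s := Finset.univ) (t := Finset.univ)
    (g := InfinitePlace.mk) (fun _ _ => Finset.mem_univ _)]
  apply Finset.sum_congr rfl
  intro v _
  have hv : v.IsComplex := IsTotallyComplex.isComplex v
  have hne : v.embedding ≠ ComplexEmbedding.conjugate v.embedding := by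
    intro h
    exact (InfinitePlace.isComplex_iff.mp hv) h.symm
  have e2 : (Finset.univ.filter fun φ : E →+* ℂ => InfinitePlace.mk φ = v) =
      {v.embedding, ComplexEmbedding.conjugate v.embedding} := by
    ext φ
    simp only [Finset.mem_filter, Finset.mem_univ, true_and, Finset.mem_insert,
      Finset.mem_singleton]
    constructor
    · intro hφ
      rw [← hφ]
      rcases InfinitePlace.embedding_mk_eq φ with h | h
      · left; exact h.symm
      · right; rw [h]; simp
    · rintro (h | h)
      · rw [h, InfinitePlace.mk_embedding]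
      · rw [h, InfinitePlace.mk_conjugate_eq, InfinitePlace.mk_embedding]
  rw [e2, Finset.sum_pair hne, ComplexEmbedding.conjugate_coe_eq, Complex.add_conj]

/-- A quadratic extension `L/E` with its conjugation `c` and, for each infinite place `v` of `E`,
one of the two embeddings of `L` above it. -/
structure QD (E L : Type*) [Field E] [Field L] [Algebra E L] where
  c : L ≃ₐ[E] L
  c_ne : ∃ x, c x ≠ x
  two : Module.finrank E L = 2
  τ : InfinitePlace E → (L →+* ℂ)
  hτ : ∀ v, (τ v).comp (algebraMap E L) = v.embedding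

namespace QD

variable {E L : Type*} [Field E] [Field L] [Algebra E L] (q : QD E L)

include q in
theorem finDim : FiniteDimensional E L := by
  apply FiniteDimensional.of_finrank_pos
  rw [q.two]; norm_num

theorem cases_aut (g : L ≃ₐ[E] L) : g = 1 ∨ g = q.c := by
  classical
  have := q.finDim
  have hc : q.c ≠ 1 := by
    intro h
    obtain ⟨x, hx⟩ := q.c_ne
    apply hx
    rw [h]; rfl
  by_contra hg
  push Not at hg
  have h3 : ({1, q.c, g} : Finset (L ≃ₐ[E] L)).card = 3 := by
    rw [Finset.card_insert_of_notMem, Finset.card_insert_of_notMem, Finset.card_singleton]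
    · simpa using Ne.symm hg.2
    · simp only [Finset.mem_insert, Finset.mem_singleton, not_or]
      exact ⟨Ne.symm hc, Ne.symm hg.1⟩
  have h4 : ({1, q.c, g} : Finset (L ≃ₐ[E] L)).card ≤ Fintype.card (L ≃ₐ[E] L) :=
    Finset.card_le_univ _
  have h5 : Fintype.card (L ≃ₐ[E] L) ≤ Module.finrank E L := AlgEquiv.card_le
  rw [q.two] at h5
  omega

theorem c_c (x : L) : q.c (q.c x) = x := by
  rcases q.cases_aut (q.c * q.c) with h | h
  · exact congrArg (fun f : L ≃ₐ[E] L => f x) h
  · have : q.c = 1 := by simpa using h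
    rw [this]; rfl

include q in
theorem isGalois : IsGalois E L := by
  classical
  have := q.finDim
  apply IsGalois.of_card_aut_eq_finrank
  rw [Nat.card_eq_fintype_card]
  apply le_antisymm AlgEquiv.card_le
  rw [q.two]
  have hc : q.c ≠ 1 := by
    intro h
    obtain ⟨x, hx⟩ := q.c_ne
    apply hx
    rw [h]; rfl
  have : ({1, q.c} : Finset (L ≃ₐ[E] L)).card = 2 := Finset.card_pair (Ne.symm hc)
  rw [← this]
  exact Finset.card_le_univ _

theorem univ_aut [DecidableEq (L ≃ₐ[E] L)] [Fintype (L ≃ₐ[E] L)] :
    (Finset.univ : Finset (L ≃ₐ[E] L)) = {1, q.c} := by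
  ext g
  simp only [Finset.mem_univ, Finset.mem_insert, Finset.mem_singleton, true_iff]
  exact q.cases_aut g

theorem one_ne_c : (1 : L ≃ₐ[E] L) ≠ q.c := by
  intro h
  obtain ⟨x, hx⟩ := q.c_ne
  apply hx
  rw [← h]; rfl

/-- the relative norm -/
theorem norm_eq (x : L) : algebraMap E L (Algebra.norm E x) = x * q.c x := by
  classical
  have := q.finDim
  have := q.isGalois
  rw [Algebra.norm_eq_prod_automorphisms, q.univ_aut, Finset.prod_pair q.one_ne_c]
  rfl

/-- the relative trace -/
theorem trace_eq (x : L) : algebraMap E L (Algebra.trace E L x) = x + q.c x := by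
  classical
  have := q.finDim
  have := q.isGalois
  rw [trace_eq_sum_automorphisms, q.univ_aut, Finset.sum_pair q.one_ne_c]
  rfl

/-- the archimedean coordinates `(x₁, x₂)` of `x ∈ L` -/
noncomputable def ι (x : L) (v : InfinitePlace E) : ℂ × ℂ := (q.τ v x, q.τ v (q.c x))

@[simp] theorem ι_fst (x : L) (v : InfinitePlace E) : (q.ι x v).1 = q.τ v x := rfl
@[simp] theorem ι_snd (x : L) (v : InfinitePlace E) : (q.ι x v).2 = q.τ v (q.c x) := rfl

theorem τ_algebraMap (v : InfinitePlace E) (a : E) : q.τ v (algebraMap E L a) = v.embedding a := by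
  rw [← q.hτ v]; rfl

theorem τ_norm (v : InfinitePlace E) (x : L) :
    q.τ v x * q.τ v (q.c x) = v.embedding (Algebra.norm E x) := by
  rw [← q.τ_algebraMap, q.norm_eq, map_mul]

theorem τ_trace (v : InfinitePlace E) (x : L) :
    q.τ v x + q.τ v (q.c x) = v.embedding (Algebra.trace E L x) := by
  rw [← q.τ_algebraMap, q.trace_eq, map_add]

/-- the bilinear form `Tr_{L/ℚ}(x c(η))` -/
noncomputable def bil [NumberField L] (x η : L) : ℚ := Algebra.trace ℚ L (x * q.c η)

theorem bil_add_left [NumberField L] (x x' η : L) : q.bil (x + x') η = q.bil x η + q.bil x' η := by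
  unfold bil; rw [add_mul, map_add]

theorem bil_add_right [NumberField L] (x η η' : L) : q.bil x (η + η') = q.bil x η + q.bil x η' := by
  unfold bil; rw [map_add, mul_add, map_add]

theorem trace_comm [NumberField L] (x : L) : Algebra.trace ℚ L (q.c x) = Algebra.trace ℚ L x := by
  let c' : L ≃ₐ[ℚ] L := AlgEquiv.ofRingEquiv (f := q.c.toRingEquiv) (fun r => by
    simp)
  have := Algebra.trace_eq_of_algEquiv c' x
  exact this

theorem bil_comm [NumberField L] (x η : L) : q.bil x η = q.bil η x := by
  unfold bil
  rw [← q.trace_comm (x * q.c η), map_mul, q.c_c, mul_comm]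

theorem bil_eq [NumberField E] [NumberField L] [IsTotallyComplex E] (x η : L) :
    ((q.bil x η : ℚ) : ℂ) = ∑ v, ((2 * ((q.ι x v).1 * (q.ι η v).2 +
      (q.ι x v).2 * (q.ι η v).1).re : ℝ) : ℂ) := by
  have := q.finDim
  unfold bil
  rw [← Algebra.trace_trace (S := E), trace_eq_sum_places]
  apply Finset.sum_congr rfl
  intro v _
  rw [← q.τ_trace, map_mul, map_mul, map_mul, q.c_c]
  simp only [ι_fst, ι_snd]

theorem bil_nondeg [NumberField L] {x : L} (h : ∀ η, q.bil x η = 0) : x = 0 := by
  by_contra hx
  have h1 := traceForm_nondegenerate ℚ L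
  have h2 : ∀ η, Algebra.traceForm ℚ L x η = 0 := by
    intro η
    rw [Algebra.traceForm_apply]
    have := h (q.c η)
    unfold bil at this
    rwa [q.c_c] at this
  exact hx (h1.1 x h2)

end QD

end Fermat.Agent.LT.Theta
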