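import Mathlib

set_option autoImplicit false

/-! # Sums of periodic functions over `ℤ^d / N` -/

namespace Fermat.Agent.LT.Theta

set_option linter.unusedSectionVars false

variable {d : Type*} [Fintype d] [DecidableEq d]

/-- the sum of `F` over the box `[0, N)^d` -/
noncomputable def boxSum (N : ℕ) (F : (d → ℤ) → ℂ) : ℂ := ∑ r : d → Fin N, F (fun i => ((r i : ℕ) : ℤ))

theorem boxSum_congr (N : ℕ) {F G : (d → ℤ) → ℂ} (h : ∀ k, F k = G k) : boxSum N F = boxSum N G := by
  unfold boxSum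
  exact Finset.sum_congr rfl fun r _ => h _

theorem boxSum_add (N : ℕ) (F G : (d → ℤ) → ℂ) :
    boxSum N (fun k => F k + G k) = boxSum N F + boxSum N G := Finset.sum_add_distrib

theorem boxSum_mul (N : ℕ) (c : ℂ) (F : (d → ℤ) → ℂ) :
    boxSum N (fun k => c * F k) = c * boxSum N F := (Finset.mul_sum _ _ _).symm

/-- `N`-periodic functions -/
def Per (N : ℕ) (F : (d → ℤ) → ℂ) : Prop := ∀ k l : d → ℤ, F (k + (N : ℤ) • l) = F k

theorem Per.eq_of_cast {N : ℕ} {F : (d → ℤ) → ℂ} (hF : Per N F) {k k' : d → ℤ}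
    (h : ∀ i, ((k i : ℤ) : ZMod N) = (k' i : ZMod N)) : F k = F k' := by
  have : ∀ i, ∃ l : ℤ, k i = k' i + N * l := by
    intro i
    have h1 := (ZMod.intCast_eq_intCast_iff_dvd_sub _ _ _).mp (h i).symm
    obtain ⟨l, hl⟩ := h1
    exact ⟨l, by linarith⟩
  choose l hl using this
  have e : k = k' + (N : ℤ) • l := by
    funext i
    rw [Pi.add_apply, Pi.smul_apply, smul_eq_mul]
    exact hl i
  rw [e, hF]

theorem boxSum_eq_zmod {N : ℕ} [NeZero N] (F : (d → ℤ) → ℂ) :
    boxSum N F = ∑ r : d → ZMod N, F (fun i => ((r i).val : ℤ)) := by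
  unfold boxSum
  refine Fintype.sum_equiv (Equiv.piCongrRight fun _ => (ZMod.finEquiv N).toEquiv) _ _ fun r => ?_
  congr 1
  funext i
  simp only [Equiv.piCongrRight_apply, Pi.map_apply]
  have : ((ZMod.finEquiv N).toEquiv (r i)).val = (r i : ℕ) := by
    obtain ⟨n, hn⟩ : ∃ n, N = n + 1 := ⟨N - 1, by have := NeZero.pos N; omega⟩
    subst hn
    rfl
  rw [this]

theorem boxSum_shift {N : ℕ} [NeZero N] {F : (d → ℤ) → ℂ} (hF : Per N F) (k : d → ℤ) :
    boxSum N (fun r => F (r + k)) = boxSum N F := by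
  rw [boxSum_eq_zmod, boxSum_eq_zmod]
  refine Fintype.sum_equiv (Equiv.addRight (fun i => ((k i : ℤ) : ZMod N))) _ _ fun r => ?_
  apply hF.eq_of_cast
  intro i
  simp

theorem boxSum_refine {N m : ℕ} {F : (d → ℤ) → ℂ} (hF : Per N F) :
    boxSum (m * N) F = (m : ℂ) ^ (Fintype.card d) * boxSum N F := by
  unfold boxSum
  have e : (∑ r : d → Fin (m * N), F (fun i => ((r i : ℕ) : ℤ))) =
      ∑ p : (d → Fin m) × (d → Fin N), F (fun i => ((p.2 i : ℕ) : ℤ)) := by
    refine (Fintype.sum_equiv ((Equiv.arrowProdEquivProdArrow d (fun _ => Fin m)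
      (fun _ => Fin N)).symm.trans
      (Equiv.piCongrRight fun _ => finProdFinEquiv)) _ _ fun p => ?_).symm
    have : (fun i => ((((Equiv.arrowProdEquivProdArrow d (fun _ => Fin m)
      (fun _ => Fin N)).symm.trans
      (Equiv.piCongrRight fun _ => finProdFinEquiv)) p i : ℕ) : ℤ)) =
      (fun i => ((p.2 i : ℕ) : ℤ)) + (N : ℤ) • (fun i => ((p.1 i : ℕ) : ℤ)) := by
      funext i
      simp [Equiv.arrowProdEquivProdArrow, finProdFinEquiv]
    rw [this, hF]
  rw [e, Fintype.sum_prod_type]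
  simp

theorem boxSum_supp {N m : ℕ} (hm : 0 < m) {F : (d → ℤ) → ℂ}
    (hF : ∀ k, F k ≠ 0 → ∀ i, (m : ℤ) ∣ k i) :
    boxSum (N * m) F = boxSum N (fun k => F ((m : ℤ) • k)) := by
  have : NeZero m := ⟨hm.ne'⟩
  unfold boxSum
  have e : (∑ r : d → Fin (N * m), F (fun i => ((r i : ℕ) : ℤ))) =
      ∑ p : (d → Fin N) × (d → Fin m),
        F ((m : ℤ) • (fun i => ((p.1 i : ℕ) : ℤ)) + (fun i => ((p.2 i : ℕ) : ℤ))) := by
    refine (Fintype.sum_equiv ((Equiv.arrowProdEquivProdArrow d (fun _ => Fin N)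
      (fun _ => Fin m)).symm.trans
      (Equiv.piCongrRight fun _ => finProdFinEquiv)) _ _ fun p => ?_).symm
    congr 1
    funext i
    simp [Equiv.arrowProdEquivProdArrow, finProdFinEquiv]
    ring
  rw [e, Fintype.sum_prod_type]
  apply Finset.sum_congr rfl
  intro r _
  rw [Finset.sum_eq_single (fun _ => (0 : Fin m))]
  · congr 1
  · intro x _ hx
    by_contra h
    apply hx
    funext i
    have h1 := hF _ h i
    simp only [Pi.add_apply, Pi.smul_apply, smul_eq_mul] at h1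
    have h2 : (m : ℤ) ∣ ((x i : ℕ) : ℤ) := (Int.dvd_add_right (Dvd.intro _ rfl)).mp h1
    have h3 : m ∣ (x i : ℕ) := by exact_mod_cast h2
    have h4 := Nat.eq_zero_of_dvd_of_lt h3 (x i).2
    exact Fin.ext (by simpa using h4)
  · intro h
    exact absurd (Finset.mem_univ _) h

/-- splitting `ℤ^d` into residue classes modulo `N` -/
noncomputable def splitEquiv (N : ℕ) [NeZero N] : (d → ℤ) ≃ (d → ℤ) × (d → Fin N) :=
  (Equiv.piCongrRight fun _ => Int.divModEquiv N).trans
    (Equiv.arrowProdEquivProdArrow d (fun _ => ℤ) (fun _ => Fin N))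

theorem splitEquiv_symm_apply (N : ℕ) [NeZero N] (p : (d → ℤ) × (d → Fin N)) :
    (splitEquiv N).symm p = (N : ℤ) • p.1 + (fun i => ((p.2 i : ℕ) : ℤ)) := by
  funext i
  simp [splitEquiv, Int.divModEquiv, Equiv.arrowProdEquivProdArrow]
  ring

theorem tsum_split {N : ℕ} [NeZero N] {F : (d → ℤ) → ℂ} (hF : Summable F) :
    ∑' k, F k = boxSum N (fun r => ∑' k : d → ℤ, F (r + (N : ℤ) • k)) := by
  have h1 : Summable (fun p : (d → ℤ) × (d → Fin N) => F ((splitEquiv N).symm p)) :=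
    (splitEquiv N).symm.summable_iff.mpr hF
  have h2 : Summable (fun p : (d → Fin N) × (d → ℤ) => F ((splitEquiv N).symm (p.2, p.1))) :=
    (Equiv.prodComm _ _).summable_iff.mpr h1
  rw [← (splitEquiv N).symm.tsum_eq F, ← (Equiv.prodComm (d → Fin N) (d → ℤ)).tsum_eq]
  simp only [Equiv.prodComm_apply, Prod.swap]
  rw [h2.tsum_prod' (fun r => h2.prod_factor r), tsum_fintype]
  unfold boxSum
  apply Finset.sum_congr rfl
  intro r _
  apply tsum_congr
  intro k
  rw [splitEquiv_symm_apply, add_comm]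

end Fermat.Agent.LT.Theta
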