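import Fermat.Agent.LT.Theta.Lattice
import Fermat.Agent.LT.Theta.Mean

set_option autoImplicit false

/-! # Schwartz–Bruhat functions on a number field, their mean and their Fourier transform -/

namespace Fermat.Agent.LT.Theta

open Complex MeasureTheory NumberField Module
open scoped Real ComplexConjugate

set_option linter.unusedSectionVars false

section mean

variable {L : Type*} [Field L] [NumberField L]

/-- index type of the integral basis -/
abbrev IB (L : Type*) [Field L] [NumberField L] := Free.ChooseBasisIndex ℤ (𝓞 L)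

/-- the integral element with coordinates `k` -/
noncomputable def el0 (k : IB L → ℤ) : L := ∑ i, (k i) • integralBasis L i

theorem isIntegral_el0 (k : IB L → ℤ) : IsIntegral ℤ (el0 k : L) := by
  apply IsIntegral.sum
  intro i _
  rw [zsmul_eq_mul]
  exact (isIntegral_algebraMap (R := ℤ) (x := k i)).mul (by
    rw [integralBasis_apply]; exact RingOfIntegers.isIntegral_coe _)

theorem exists_el0 {x : L} (hx : IsIntegral ℤ x) : ∃ k : IB L → ℤ, el0 k = x := by
  refine ⟨fun i => (RingOfIntegers.basis L).repr ⟨x, hx⟩ i, ?_⟩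
  have h := (RingOfIntegers.basis L).sum_repr (⟨x, hx⟩ : 𝓞 L)
  have h2 : algebraMap (𝓞 L) L (∑ i, (RingOfIntegers.basis L).repr ⟨x, hx⟩ i •
      RingOfIntegers.basis L i) = x := by rw [h]; rfl
  rw [map_sum] at h2
  unfold el0
  refine Eq.trans (Finset.sum_congr rfl fun i _ => ?_) h2
  rw [integralBasis_apply, zsmul_eq_mul, zsmul_eq_mul, map_mul, map_intCast]

theorem el0_injective : Function.Injective (el0 : (IB L → ℤ) → L) := by
  intro k k' h
  unfold el0 at h
  have h2 : ∑ i, ((k i : ℚ) - (k' i : ℚ)) • integralBasis L i = 0 := by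
    have : ∀ (k : IB L → ℤ), ∑ i, (k i) • integralBasis L i = ∑ i, (k i : ℚ) • integralBasis L i := by
      intro k
      refine Finset.sum_congr rfl fun i _ => ?_
      rw [← Int.cast_smul_eq_zsmul ℚ]
    rw [this, this] at h
    simp only [sub_smul, Finset.sum_sub_distrib, h, sub_self]
  have h3 := Fintype.linearIndependent_iff.mp (integralBasis L).linearIndependent _ h2
  funext i
  have := h3 i
  have h4 : (k i : ℚ) = (k' i : ℚ) := by linarith
  exact_mod_cast h4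

theorem el0_add (k l : IB L → ℤ) : (el0 (k + l) : L) = el0 k + el0 l := by
  unfold el0
  rw [← Finset.sum_add_distrib]
  exact Finset.sum_congr rfl fun i _ => by rw [Pi.add_apply, add_smul]

theorem el0_smul (m : ℤ) (k : IB L → ℤ) : (el0 (m • k) : L) = m * el0 k := by
  unfold el0
  rw [Finset.mul_sum]
  exact Finset.sum_congr rfl fun i _ => by
    rw [Pi.smul_apply, smul_eq_mul, mul_smul, zsmul_eq_mul]

/-- Schwartz–Bruhat functions supported on `n⁻¹ 𝓞` and periodic modulo `n 𝓞` -/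
def SBn (n : ℕ) (Ψ : L → ℂ) : Prop :=
  (∀ x, Ψ x ≠ 0 → IsIntegral ℤ ((n : L) * x)) ∧ ∀ x y, IsIntegral ℤ y → Ψ (x + n * y) = Ψ x

theorem isIntegral_natCast_mul (m : ℕ) {x : L} (hx : IsIntegral ℤ x) :
    IsIntegral ℤ ((m : L) * x) :=
  IsIntegral.mul (by
    have := isIntegral_algebraMap (R := ℤ) (A := L) (x := (m : ℤ))
    simpa using this) hx

theorem SBn.mul {n : ℕ} {Ψ : L → ℂ} (h : SBn n Ψ) (m : ℕ) : SBn (m * n) Ψ := by
  refine ⟨fun x hx => ?_, fun x y hy => ?_⟩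
  · push_cast
    rw [mul_assoc]
    exact isIntegral_natCast_mul m (h.1 x hx)
  · have := h.2 x (m * y) (isIntegral_natCast_mul m hy)
    rw [← this]
    congr 1
    push_cast
    ring

theorem SBn.mul_right {n : ℕ} {Ψ : L → ℂ} (h : SBn n Ψ) (m : ℕ) : SBn (n * m) Ψ := by
  rw [mul_comm]; exact h.mul m

/-- Schwartz–Bruhat functions -/
def SB (Ψ : L → ℂ) : Prop := ∃ n : ℕ, 0 < n ∧ SBn n Ψ

/-- the mean, computed with the denominator `n` -/
noncomputable def meanN (n : ℕ) (Ψ : L → ℂ) : ℂ :=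
  ((n : ℂ) ^ finrank ℚ L)⁻¹ * boxSum (n ^ 2) (fun k : IB L → ℤ => Ψ (el0 k / n))

theorem card_IB : Fintype.card (IB L) = finrank ℚ L := by
  rw [finrank_eq_card_basis (integralBasis L)]

theorem SBn.per {n : ℕ} (hn : 0 < n) {Ψ : L → ℂ} (h : SBn n Ψ) :
    Per (n ^ 2) (fun k : IB L → ℤ => Ψ (el0 k / n)) := by
  intro k l
  have hn' : (n : L) ≠ 0 := by exact_mod_cast hn.ne'
  have : (el0 (k + ((n ^ 2 : ℕ) : ℤ) • l) : L) / n = el0 k / n + n * el0 l := by
    rw [el0_add, el0_smul]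
    push_cast
    field_simp
  show Ψ (el0 (k + ((n ^ 2 : ℕ) : ℤ) • l) / n) = Ψ (el0 k / n)
  rw [this]
  exact h.2 _ _ (isIntegral_el0 l)

theorem meanN_mul {n m : ℕ} (hn : 0 < n) (hm : 0 < m) {Ψ : L → ℂ} (h : SBn n Ψ) :
    meanN (m * n) Ψ = meanN n Ψ := by
  have hn' : (n : L) ≠ 0 := by exact_mod_cast hn.ne'
  have hm' : (m : L) ≠ 0 := by exact_mod_cast hm.ne'
  have hnc : (n : ℂ) ≠ 0 := by exact_mod_cast hn.ne'
  have hmc : (m : ℂ) ≠ 0 := by exact_mod_cast hm.ne'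
  unfold meanN
  have e1 : (m * n) ^ 2 = (m * n ^ 2) * m := by ring
  rw [e1, boxSum_supp hm, boxSum_refine]
  · have e2 : ∀ k : IB L → ℤ, Ψ (el0 ((m : ℤ) • k) / ((m * n : ℕ) : L)) = Ψ (el0 k / n) := by
      intro k
      congr 1
      rw [el0_smul]
      push_cast
      field_simp
    rw [boxSum_congr _ e2, card_IB]
    push_cast
    rw [mul_pow]
    field_simp
  · intro k l
    have : (el0 ((m : ℤ) • (k + ((n ^ 2 : ℕ) : ℤ) • l)) : L) / ((m * n : ℕ) : L) =
        el0 ((m : ℤ) • k) / ((m * n : ℕ) : L) + n * el0 l := by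
      rw [el0_smul, el0_add, el0_smul, el0_smul]
      push_cast
      field_simp
    show Ψ (el0 ((m : ℤ) • (k + ((n ^ 2 : ℕ) : ℤ) • l)) / ((m * n : ℕ) : L)) = _
    rw [this]
    exact h.2 _ _ (isIntegral_el0 l)
  · intro k hk
    have h1 := h.1 _ hk
    have e3 : (n : L) * (el0 k / ((m * n : ℕ) : L)) = el0 k / m := by
      push_cast; field_simp
    rw [e3] at h1
    obtain ⟨l, hl⟩ := exists_el0 h1
    have e4 : (el0 k : L) = el0 ((m : ℤ) • l) := by
      rw [el0_smul, hl]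
      push_cast
      field_simp
    have e5 := el0_injective e4
    intro i
    rw [e5]
    exact Dvd.intro _ rfl

/-- the invariant mean of a Schwartz–Bruhat function, normalised by `mean 1_𝓞 = 1` -/
noncomputable def mean (Ψ : L → ℂ) : ℂ := by
  classical
  exact if h : SB Ψ then meanN h.choose Ψ else 0

theorem mean_eq {n : ℕ} (hn : 0 < n) {Ψ : L → ℂ} (h : SBn n Ψ) : mean Ψ = meanN n Ψ := by
  classical
  have hs : SB Ψ := ⟨n, hn, h⟩
  unfold mean
  rw [dif_pos hs]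
  have h1 := hs.choose_spec
  rw [← meanN_mul h1.1 hn h1.2, mul_comm, meanN_mul hn h1.1 h]

theorem SBn.add {n : ℕ} {Ψ Φ : L → ℂ} (h : SBn n Ψ) (h' : SBn n Φ) : SBn n (fun x => Ψ x + Φ x) := by
  refine ⟨fun x hx => ?_, fun x y hy => ?_⟩
  · by_cases h0 : Ψ x = 0
    · apply h'.1
      intro h1
      apply hx
      show Ψ x + Φ x = 0
      rw [h0, h1, add_zero]
    · exact h.1 x h0
  · show Ψ _ + Φ _ = Ψ _ + Φ _
    rw [h.2 x y hy, h'.2 x y hy]

theorem SBn.const_mul {n : ℕ} {Ψ : L → ℂ} (h : SBn n Ψ) (c : ℂ) : SBn n (fun x => c * Ψ x) := by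
  refine ⟨fun x hx => ?_, fun x y hy => ?_⟩
  · apply h.1
    intro h0
    apply hx
    show c * Ψ x = 0
    rw [h0, mul_zero]
  · show c * Ψ _ = c * Ψ _
    rw [h.2 x y hy]

theorem SB.add {Ψ Φ : L → ℂ} (h : SB Ψ) (h' : SB Φ) : SB (fun x => Ψ x + Φ x) := by
  obtain ⟨n, hn, h⟩ := h
  obtain ⟨m, hm, h'⟩ := h'
  exact ⟨m * n, Nat.mul_pos hm hn, (h.mul m).add (h'.mul_right n)⟩

theorem SB.const_mul {Ψ : L → ℂ} (h : SB Ψ) (c : ℂ) : SB (fun x => c * Ψ x) := by
  obtain ⟨n, hn, h⟩ := h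
  exact ⟨n, hn, h.const_mul c⟩

theorem SB_zero : SB (fun _ : L => (0 : ℂ)) :=
  ⟨1, one_pos, fun _ h => absurd rfl h, fun _ _ _ => rfl⟩

theorem SB.sum {κ : Type*} (s : Finset κ) {Ψ : κ → L → ℂ} (h : ∀ i ∈ s, SB (Ψ i)) :
    SB (fun x => ∑ i ∈ s, Ψ i x) := by
  classical
  induction s using Finset.induction_on with
  | empty => simpa using SB_zero
  | insert i s hi ih =>
    simp only [Finset.sum_insert hi]
    exact (h i (Finset.mem_insert_self _ _)).add (ih fun j hj => h j (Finset.mem_insert_of_mem hj))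

theorem mean_add {Ψ Φ : L → ℂ} (h : SB Ψ) (h' : SB Φ) :
    mean (fun x => Ψ x + Φ x) = mean Ψ + mean Φ := by
  obtain ⟨n, hn, h⟩ := h
  obtain ⟨m, hm, h'⟩ := h'
  have hp := Nat.mul_pos hm hn
  rw [mean_eq hp ((h.mul m).add (h'.mul_right n)), mean_eq hp (h.mul m),
    mean_eq hp (h'.mul_right n)]
  unfold meanN
  rw [boxSum_add]
  ring

theorem mean_const_mul {Ψ : L → ℂ} (h : SB Ψ) (c : ℂ) : mean (fun x => c * Ψ x) = c * mean Ψ := by
  obtain ⟨n, hn, h⟩ := h
  rw [mean_eq hn (h.const_mul c), mean_eq hn h]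
  unfold meanN
  rw [boxSum_mul]
  ring

theorem mean_zero : mean (fun _ : L => (0 : ℂ)) = 0 := by
  have := mean_const_mul (SB_zero (L := L)) 0
  simpa using this

theorem mean_sum {κ : Type*} (s : Finset κ) {Ψ : κ → L → ℂ} (h : ∀ i ∈ s, SB (Ψ i)) :
    mean (fun x => ∑ i ∈ s, Ψ i x) = ∑ i ∈ s, mean (Ψ i) := by
  classical
  induction s using Finset.induction_on with
  | empty => simpa using mean_zero
  | insert i s hi ih =>
    simp only [Finset.sum_insert hi]
    rw [mean_add (h i (Finset.mem_insert_self _ _))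
      (SB.sum s fun j hj => h j (Finset.mem_insert_of_mem hj)),
      ih fun j hj => h j (Finset.mem_insert_of_mem hj)]

theorem exists_nat_mul_isIntegral (a : L) : ∃ m : ℕ, 0 < m ∧ IsIntegral ℤ ((m : L) * a) := by
  have hal : IsAlgebraic ℤ a :=
    (IsFractionRing.isAlgebraic_iff ℤ ℚ L).mpr (Algebra.IsAlgebraic.isAlgebraic (R := ℚ) a)
  obtain ⟨y, hy, h⟩ := hal.exists_integral_multiple
  refine ⟨y.natAbs, Int.natAbs_pos.mpr hy, ?_⟩
  rcases Int.natAbs_eq y with e | e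
  · rw [e, natCast_zsmul, nsmul_eq_mul] at h
    exact h
  · rw [e, neg_smul, natCast_zsmul, nsmul_eq_mul] at h
    simpa using h.neg

theorem SBn.comp_add {n m : ℕ} {Ψ : L → ℂ} (h : SBn n Ψ) {a : L}
    (ha : IsIntegral ℤ ((m : L) * a)) : SBn (m * n) (fun x => Ψ (x + a)) := by
  refine ⟨fun x hx => ?_, fun x y hy => ?_⟩
  · have h1 := h.1 _ hx
    have h2 : ((m * n : ℕ) : L) * x = m * (n * (x + a)) - n * (m * a) := by push_cast; ring
    rw [h2]
    exact (isIntegral_natCast_mul m h1).sub (isIntegral_natCast_mul n ha)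
  · have := h.2 (x + a) (m * y) (isIntegral_natCast_mul m hy)
    show Ψ (x + _ + a) = Ψ (x + a)
    rw [← this]
    congr 1
    push_cast
    ring

theorem SB.comp_add {Ψ : L → ℂ} (h : SB Ψ) (a : L) : SB (fun x => Ψ (x + a)) := by
  obtain ⟨n, hn, h⟩ := h
  obtain ⟨m, hm, ha⟩ := exists_nat_mul_isIntegral a
  exact ⟨m * n, Nat.mul_pos hm hn, h.comp_add ha⟩

theorem mean_comp_add {Ψ : L → ℂ} (h : SB Ψ) (a : L) : mean (fun x => Ψ (x + a)) = mean Ψ := by
  obtain ⟨n, hn, h⟩ := h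
  obtain ⟨m, hm, ha⟩ := exists_nat_mul_isIntegral a
  have hp := Nat.mul_pos hm hn
  rw [mean_eq hp (h.comp_add ha), mean_eq hp (h.mul m)]
  unfold meanN
  congr 1
  have hpn : ((m * n : ℕ) : L) ≠ 0 := by exact_mod_cast hp.ne'
  have ha' : IsIntegral ℤ (((m * n : ℕ) : L) * a) := by
    have : ((m * n : ℕ) : L) * a = n * (m * a) := by push_cast; ring
    rw [this]; exact isIntegral_natCast_mul n ha
  obtain ⟨l, hl⟩ := exists_el0 ha'
  have : NeZero ((m * n) ^ 2) := ⟨by positivity⟩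
  rw [← boxSum_shift ((h.mul m).per hp) l]
  apply boxSum_congr
  intro k
  rw [el0_add, hl]
  field_simp

/-- locally constant functions (in the sense of finite adeles) -/
def LocC (χ : L → ℂ) : Prop := ∀ n : ℕ, 0 < n → ∃ N : ℕ, 0 < N ∧
  ∀ x y, IsIntegral ℤ ((n : L) * x) → IsIntegral ℤ y → χ (x + N * y) = χ x

theorem SB.mul_locC {Ψ χ : L → ℂ} (h : SB Ψ) (hχ : LocC χ) : SB (fun x => Ψ x * χ x) := by
  obtain ⟨n, hn, h⟩ := h
  obtain ⟨N, hN, hχ⟩ := hχ n hn
  refine ⟨N * n, Nat.mul_pos hN hn, fun x hx => (h.mul N).1 x (left_ne_zero_of_mul hx),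
    fun x y hy => ?_⟩
  show Ψ _ * χ _ = Ψ x * χ x
  rw [(h.mul N).2 x y hy]
  by_cases h0 : Ψ x = 0
  · rw [h0, zero_mul, zero_mul]
  · congr 1
    have := hχ x (n * y) (h.1 x h0) (isIntegral_natCast_mul n hy)
    rw [← this]
    congr 1
    push_cast
    ring

theorem LocC.mul {χ χ' : L → ℂ} (h : LocC χ) (h' : LocC χ') : LocC (fun x => χ x * χ' x) := by
  intro n hn
  obtain ⟨N, hN, h⟩ := h n hn
  obtain ⟨N', hN', h'⟩ := h' n hn
  refine ⟨N * N', Nat.mul_pos hN hN', fun x y hx hy => ?_⟩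
  have h1 := h x (N' * y) hx (isIntegral_natCast_mul N' hy)
  have h2 := h' x (N * y) hx (isIntegral_natCast_mul N hy)
  show χ (x + ((N * N' : ℕ) : L) * y) * χ' (x + ((N * N' : ℕ) : L) * y) = χ x * χ' x
  rw [← h1, ← h2]
  have e1 : ((N * N' : ℕ) : L) * y = N * (N' * y) := by push_cast; ring
  have e2 : ((N * N' : ℕ) : L) * y = N' * (N * y) := by push_cast; ring
  rw [← e1, ← e2]

end mean

end Fermat.Agent.LT.Theta
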