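import Fermat.Agent.LT.Theta.SConv
import Fermat.Agent.LT.Fou.AutForm
import Fermat.Agent.LT.H3.K0

set_option autoImplicit false

/-! # Analytic properties of the theta series -/

namespace Fermat.Agent.LT.Theta

open Complex MeasureTheory NumberField Module Matrix Filter Topology
open Fermat.Agent.LT.Fou
open scoped Real ComplexConjugate ENNReal ContDiff

set_option linter.unusedSectionVars false

section bw

variable {E : Type*} [Field E] [NumberField E]

theorem bw_eq (p : HF E) (ξ : E) :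
    bw p ξ = ∏ v : InfinitePlace E, H3.bes (v.embedding ξ) (p v) := by
  unfold bw
  apply Finset.prod_congr rfl
  intro v _
  unfold H3.bes H3.ex
  congr 1
  · congr 2
    show bK0 _ = bK0 _
    congr 1
    ring
  · congr 1
    rw [mul_comm (v.embedding ξ) (p v).z]
    push_cast
    ring

theorem emb_ne {ξ : E} (hξ : ξ ≠ 0) (v : InfinitePlace E) : v.embedding ξ ≠ 0 := by
  rw [Ne, map_eq_zero]; exact hξ

theorem continuous_bw {ξ : E} (hξ : ξ ≠ 0) : Continuous fun p : HF E => bw p ξ := by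
  simp only [bw_eq]
  exact continuous_finsetProd _ fun v _ =>
    (H3.continuous_bes (emb_ne hξ v)).comp (continuous_apply v)

open Classical in
theorem bw_upd (p : HF E) (w : InfinitePlace E) (q : H3) (ξ : E) :
    bw (upd p w q) ξ = H3.bes (w.embedding ξ) q *
      ∏ v ∈ Finset.univ.erase w, H3.bes (v.embedding ξ) (p v) := by
  rw [bw_eq, ← Finset.mul_prod_erase Finset.univ _ (Finset.mem_univ w), upd_same]
  congr 1
  apply Finset.prod_congr rfl
  intro v hv
  rw [upd_ne p (Finset.ne_of_mem_erase hv)]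

/-- **`bw` is an eigenfunction of the point-pair operators.** -/
theorem bw_eig {k : ℝ → ℝ} (hk : Continuous k) (hks : HasCompactSupport k) {ξ : E} (hξ : ξ ≠ 0)
    (p : HF E) (w : InfinitePlace E) :
    ∫ q : H3, k (H3.cd (p w) q) • bw (upd p w q) ξ = (H3.khat k : ℂ) * bw p ξ := by
  classical
  have h1 : ∀ q, k (H3.cd (p w) q) • bw (upd p w q) ξ =
      (k (H3.cd (p w) q) • H3.bes (w.embedding ξ) q) *
        ∏ v ∈ Finset.univ.erase w, H3.bes (v.embedding ξ) (p v) := by
    intro q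
    rw [bw_upd, smul_mul_assoc]
  simp only [h1]
  rw [integral_mul_const, H3.op_bes hk hks (emb_ne hξ w), mul_assoc, ← bw_upd, upd_self]

theorem bw_tra (v : InfinitePlace E → ℂ) (p : HF E) (ξ : E) :
    bw (tra v p) ξ = ev ξ v * bw p ξ := by
  rw [bw_eq, bw_eq]
  have h1 : ev ξ v = ∏ w : InfinitePlace E, H3.ex (w.embedding ξ) (v w) := by
    unfold ev H3.ex trV
    rw [← Complex.exp_sum]
    congr 1
    rw [Complex.ofReal_sum, Finset.mul_sum]
    apply Finset.sum_congr rfl
    intro w _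
    simp only [Pi.mul_apply, emb_apply]
    push_cast
    ring
  rw [h1, ← Finset.prod_mul_distrib]
  apply Finset.prod_congr rfl
  intro w _
  unfold H3.bes
  rw [tra_z, tra_y, H3.ex_add]
  ring

theorem bw_nMat (b : E) (p : HF E) (ξ : E) :
    bw (nMat b • p) ξ = ev ξ (emb b) * bw p ξ := by
  rw [nMat_smul_HF, bw_tra]

theorem bw_aMat (a : Eˣ) (p : HF E) (ξ : E) :
    bw (Sp.aMat a • p) ξ = (∏ v : InfinitePlace E, (‖v.embedding (a : E)‖ : ℂ)) *
      bw p ((a : E) * ξ) := by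
  rw [bw_eq, bw_eq, ← Finset.prod_mul_distrib]
  apply Finset.prod_congr rfl
  intro v _
  unfold H3.bes H3.ex
  rw [aMat_smul_z, aMat_smul_y, map_mul, norm_mul]
  have e1 : v.embedding ξ * (v.embedding (a : E) * (p v).z) =
      v.embedding (a : E) * v.embedding ξ * (p v).z := by ring
  have e2 : 4 * π * ‖v.embedding ξ‖ * (‖v.embedding (a : E)‖ * (p v).y) =
      4 * π * (‖v.embedding (a : E)‖ * ‖v.embedding ξ‖) * (p v).y := by ring
  rw [e1, e2]
  push_cast
  ring

theorem bwn_nonneg (p : HF E) (ξ : E) : 0 ≤ bwn p ξ :=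
  Finset.prod_nonneg fun v _ => mul_nonneg (p v).pos.le (bK0_nonneg _)

theorem bes_ne_zero {ξ : ℂ} (hξ : ξ ≠ 0) (p : H3) : H3.bes ξ p ≠ 0 := by
  unfold H3.bes H3.ex
  apply mul_ne_zero
  · rw [Complex.ofReal_ne_zero]
    have hp := p.pos
    have hn : 0 < ‖ξ‖ := norm_pos_iff.mpr hξ
    have h := K0_pos (x := 4 * π * ‖ξ‖ * p.y) (by positivity)
    positivity
  · exact Complex.exp_ne_zero _

theorem bw_ne_zero {ξ : E} (hξ : ξ ≠ 0) (p : HF E) : bw p ξ ≠ 0 := by
  rw [bw_eq]
  exact Finset.prod_ne_zero_iff.mpr fun v _ => bes_ne_zero (emb_ne hξ v) _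

end bw

section ser

variable {E L : Type*} [Field E] [NumberField E] [Field L] [NumberField L] [Algebra E L]
  [IsTotallyComplex E] (q : QD E L) {G S : Type*} [Group G] [Countable G] [Countable S]
  [MulAction G S] (i : G →* Lˣ)

/-- the series has majorants on all the domains `y ≥ ε` -/
def Maj (E : Type*) [Field E] [NumberField E] [Algebra E L] (i : G →* Lˣ) (Ψ : S → L → ℂ) : Prop :=
  ∀ ε : ℝ, 0 < ε → ∀ j : ℕ, 2 ≤ j → ∃ u : Orb i S → ℝ, Summable u ∧ (∀ o, 0 ≤ u o) ∧
    ∀ p : HF E, (∀ v, ε ≤ (p v).y) → ∀ o : Orb i S,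
      ‖Ψ (rep o).1 (rep o).2.val‖ * bwn p (Algebra.norm E (rep o).2.val) ≤
        u o * (ht p ^ (2 * j + 1))⁻¹

variable {i}

theorem Maj.mono {Ψ Ψ' : S → L → ℂ} (h : Maj E i Ψ) {C : ℝ}
    (hΨ : ∀ s x, ‖Ψ' s x‖ ≤ C * ‖Ψ s x‖) : Maj E i Ψ' := by
  intro ε hε j hj
  obtain ⟨u, hu, hu0, hb⟩ := h ε hε j hj
  refine ⟨fun o => |C| * u o, hu.mul_left _, fun o => mul_nonneg (abs_nonneg _) (hu0 o), ?_⟩
  intro p hp o
  have h1 := hb p hp o
  have h2 : ‖Ψ' (rep o).1 (rep o).2.val‖ ≤ |C| * ‖Ψ (rep o).1 (rep o).2.val‖ :=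
    (hΨ _ _).trans (mul_le_mul_of_nonneg_right (le_abs_self C) (norm_nonneg _))
  calc ‖Ψ' (rep o).1 (rep o).2.val‖ * bwn p (Algebra.norm E (rep o).2.val)
      ≤ (|C| * ‖Ψ (rep o).1 (rep o).2.val‖) * bwn p (Algebra.norm E (rep o).2.val) :=
        mul_le_mul_of_nonneg_right h2 (bwn_nonneg _ _)
    _ = |C| * (‖Ψ (rep o).1 (rep o).2.val‖ * bwn p (Algebra.norm E (rep o).2.val)) := by ring
    _ ≤ |C| * (u o * (ht p ^ (2 * j + 1))⁻¹) := mul_le_mul_of_nonneg_left h1 (abs_nonneg _)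
    _ = _ := by ring

theorem exists_eps (p : HF E) : ∃ ε : ℝ, 0 < ε ∧ ∀ v, ε ≤ (p v).y :=
  exists_pos_le_all (fun v => (p v).y) fun v => (p v).pos

theorem Maj.serConv {Ψ : S → L → ℂ} (h : Maj E i Ψ) (p : HF E) : SerConv i Ψ p := by
  obtain ⟨ε, hε, hp⟩ := exists_eps p
  obtain ⟨u, hu, hu0, hb⟩ := h ε hε 2 le_rfl
  exact Summable.of_nonneg_of_le (fun o => mul_nonneg (norm_nonneg _) (bwn_nonneg _ _))
    (hb p hp) (hu.mul_right _)

theorem ht_ge {ε : ℝ} (hε : 0 < ε) {p : HF E} (hp : ∀ v, ε ≤ (p v).y) :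
    ε ^ Fintype.card (InfinitePlace E) ≤ ht p := by
  unfold ht
  rw [← Finset.card_univ, ← Finset.prod_const]
  exact Finset.prod_le_prod (fun _ _ => hε.le) (fun v _ => hp v)

/-- the uniform form of the majorant -/
theorem Maj.unif {Ψ : S → L → ℂ} (h : Maj E i Ψ) {ε : ℝ} (hε : 0 < ε) :
    ∃ u : Orb i S → ℝ, Summable u ∧ (∀ o, 0 ≤ u o) ∧
    ∀ p : HF E, (∀ v, ε ≤ (p v).y) → ∀ o : Orb i S,
      ‖Ψ (rep o).1 (rep o).2.val * bw p (Algebra.norm E (rep o).2.val)‖ ≤ u o := by
  obtain ⟨u, hu, hu0, hb⟩ := h ε hε 2 le_rfl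
  set r := Fintype.card (InfinitePlace E) with hr
  refine ⟨fun o => u o * ((ε ^ r) ^ (2 * 2 + 1))⁻¹, hu.mul_right _,
    fun o => mul_nonneg (hu0 o) (by positivity), ?_⟩
  intro p hp o
  rw [norm_mul, norm_bw]
  refine (hb p hp o).trans ?_
  apply mul_le_mul_of_nonneg_left _ (hu0 o)
  have h1 : ε ^ r ≤ ht p := ht_ge hε hp
  have h2 : 0 < ε ^ r := by positivity
  gcongr

/-- **Decay.** -/
theorem Maj.norm_ser_le {Ψ : S → L → ℂ} (h : Maj E i Ψ) {ε : ℝ} (hε : 0 < ε) {j : ℕ}
    (hj : 2 ≤ j) : ∃ C : ℝ, 0 ≤ C ∧ ∀ p : HF E, (∀ v, ε ≤ (p v).y) →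
      ‖ser i Ψ p‖ ≤ C * (ht p ^ (2 * j + 1))⁻¹ := by
  obtain ⟨u, hu, hu0, hb⟩ := h ε hε j hj
  refine ⟨∑' o, u o, tsum_nonneg hu0, fun p hp => ?_⟩
  have h1 : Summable (fun o : Orb i S =>
      ‖Ψ (rep o).1 (rep o).2.val * bw p (Algebra.norm E (rep o).2.val)‖) := by
    simp only [norm_mul, norm_bw]
    exact h.serConv p
  unfold ser
  refine (norm_tsum_le_tsum_norm h1).trans ?_
  rw [← tsum_mul_right]
  apply h1.tsum_le_tsum _ (hu.mul_right _)
  intro o
  rw [norm_mul, norm_bw]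
  exact hb p hp o

/-- **Continuity.** -/
theorem Maj.continuous_ser {Ψ : S → L → ℂ} (hf : FiniteDimensional E L) (h : Maj E i Ψ) :
    Continuous fun p : HF E => ser i Ψ p := by
  rw [continuous_iff_continuousAt]
  intro p0
  obtain ⟨ε, hε, hp0⟩ := exists_eps p0
  obtain ⟨u, hu, hu0, hb⟩ := h.unif (half_pos hε)
  have hopen : IsOpen {p : HF E | ∀ v, ε / 2 < (p v).y} := by
    have : {p : HF E | ∀ v, ε / 2 < (p v).y} = ⋂ v, {p : HF E | ε / 2 < (p v).y} := by
      ext p; simp
    rw [this]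
    apply isOpen_iInter_of_finite
    intro v
    exact isOpen_lt continuous_const (H3.continuous_y.comp (continuous_apply v))
  have hmem : p0 ∈ {p : HF E | ∀ v, ε / 2 < (p v).y} := fun v =>
    lt_of_lt_of_le (half_lt_self hε) (hp0 v)
  apply ContinuousOn.continuousAt (s := {p : HF E | ∀ v, ε / 2 < (p v).y}) _ (hopen.mem_nhds hmem)
  unfold ser
  apply continuousOn_tsum (u := u) _ hu
  · intro o p hp
    exact hb p (fun v => (hp v).le) o
  · intro o
    apply Continuous.continuousOn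
    exact continuous_const.mul (continuous_bw (Algebra.norm_ne_zero_iff.mpr (XL.val_ne i _)))

/-- **Eigenfunction equation.** -/
theorem Maj.eig {Ψ : S → L → ℂ} (hf : FiniteDimensional E L) (h : Maj E i Ψ) {k : ℝ → ℝ}
    (hk : Continuous k) (hks : HasCompactSupport k) (p : HF E) (w : InfinitePlace E) :
    ∫ q : H3, k (H3.cd (p w) q) • ser i Ψ (upd p w q) = (H3.khat k : ℂ) * ser i Ψ p := by
  obtain ⟨R, hR1, hR⟩ := H3.exists_R hks
  obtain ⟨ε0, hε0, hp0⟩ := exists_eps p
  set ε : ℝ := ε0 / (2 * R) with hε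
  have hεpos : 0 < ε := by positivity
  have hεle : ε ≤ ε0 := by
    rw [hε]
    apply div_le_self hε0.le
    linarith
  obtain ⟨u, hu, hu0, hb⟩ := h.unif hεpos
  have hy : ∀ q : H3, H3.cd (p w) q ≤ R → ∀ v, ε ≤ (upd p w q v).y := by
    intro q hq v
    by_cases hv : v = w
    · subst hv
      rw [upd_same]
      have h1 := H3.y_le q (p v)
      rw [H3.cd_symm] at h1
      have h2 := q.pos
      have h3 : (p v).y ≤ 2 * R * q.y := h1.trans (by gcongr)
      rw [hε, div_le_iff₀ (by positivity)]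
      calc ε0 ≤ (p v).y := hp0 v
        _ ≤ _ := by linarith
    · rw [upd_ne p hv]
      exact hεle.trans (hp0 v)
  have hnorm : ∀ o : Orb i S, Algebra.norm E (rep o).2.val ≠ 0 := fun o =>
    Algebra.norm_ne_zero_iff.mpr (XL.val_ne i _)
  have hint : ∀ o : Orb i S, Integrable (fun q : H3 => k (H3.cd (p w) q) •
      (Ψ (rep o).1 (rep o).2.val * bw (upd p w q) (Algebra.norm E (rep o).2.val))) := by
    intro o
    apply H3.integrable_cd hk hks
    exact continuous_const.mul ((continuous_bw (hnorm o)).comp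
      ((continuous_upd w).comp (by fun_prop : Continuous fun q : H3 => (p, q))))
  have hkint : Integrable (fun q : H3 => ‖k (H3.cd (p w) q)‖) := by
    have := H3.integrable_cd hk hks (f := fun _ : H3 => (1 : ℝ)) continuous_const (p w)
    simp only [smul_eq_mul, mul_one] at this
    exact this.norm
  have hbound : ∀ (o : Orb i S) (q : H3), ‖k (H3.cd (p w) q) •
      (Ψ (rep o).1 (rep o).2.val * bw (upd p w q) (Algebra.norm E (rep o).2.val))‖ ≤
      ‖k (H3.cd (p w) q)‖ * u o := by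
    intro o q
    rw [norm_smul]
    by_cases hq : H3.cd (p w) q ≤ R
    · exact mul_le_mul_of_nonneg_left (hb _ (hy q hq) o) (norm_nonneg _)
    · rw [hR _ (not_le.mp hq)]
      simp
  have hsum : Summable fun o : Orb i S => ∫ q : H3, ‖k (H3.cd (p w) q) •
      (Ψ (rep o).1 (rep o).2.val * bw (upd p w q) (Algebra.norm E (rep o).2.val))‖ := by
    refine Summable.of_nonneg_of_le (fun o => integral_nonneg fun q => norm_nonneg _)
      (fun o => ?_) (hu.mul_left (∫ q : H3, ‖k (H3.cd (p w) q)‖))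
    rw [← integral_mul_const]
    exact integral_mono (hint o).norm (hkint.mul_const _) (hbound o)
  have hs := hasSum_integral_of_summable_integral_norm hint hsum
  have e1 : ∀ q : H3, ∑' o : Orb i S, k (H3.cd (p w) q) •
      (Ψ (rep o).1 (rep o).2.val * bw (upd p w q) (Algebra.norm E (rep o).2.val)) =
      k (H3.cd (p w) q) • ser i Ψ (upd p w q) := by
    intro q
    unfold ser
    simp only [Complex.real_smul]
    rw [tsum_mul_left]
  simp only [e1] at hs
  rw [← hs.tsum_eq]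
  unfold ser
  rw [← tsum_mul_left]
  apply tsum_congr
  intro o
  have e2 : ∀ q : H3, k (H3.cd (p w) q) •
      (Ψ (rep o).1 (rep o).2.val * bw (upd p w q) (Algebra.norm E (rep o).2.val)) =
      Ψ (rep o).1 (rep o).2.val *
        (k (H3.cd (p w) q) • bw (upd p w q) (Algebra.norm E (rep o).2.val)) := by
    intro q
    rw [mul_smul_comm]
  simp only [e2]
  rw [integral_const_mul, bw_eig hk hks (hnorm o)]
  ring

/-- the Fourier coefficients of the theta series -/
noncomputable def coe (E : Type*) [Field E] [Algebra E L] (i : G →* Lˣ) (Ψ : S → L → ℂ) (ξ : E) :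
    ℂ := by
  classical
  exact ∑' o : Orb i S, if Algebra.norm E (rep o).2.val = ξ then Ψ (rep o).1 (rep o).2.val else 0

theorem coe_ne_zero {Ψ : S → L → ℂ} {ξ : E} (h : coe E i Ψ ξ ≠ 0) :
    ∃ o : Orb i S, Algebra.norm E (rep o).2.val = ξ ∧ Ψ (rep o).1 (rep o).2.val ≠ 0 := by
  classical
  by_contra hne
  push Not at hne
  apply h
  unfold coe
  have : ∀ o : Orb i S, (if Algebra.norm E (rep o).2.val = ξ then
      Ψ (rep o).1 (rep o).2.val else 0) = 0 := by
    intro o
    split_ifs with h1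
    · exact hne o h1
    · rfl
  simp only [this, tsum_zero]

theorem coe_zero (hf : FiniteDimensional E L) (Ψ : S → L → ℂ) : coe E i Ψ (0 : E) = 0 := by
  by_contra h
  obtain ⟨o, h1, _⟩ := coe_ne_zero h
  exact Algebra.norm_ne_zero_iff.mpr (XL.val_ne i _) h1

/-- **Fourier expansion.** -/
theorem ser_eq_tsum {Ψ : S → L → ℂ} {p : HF E} (h : SerConv i Ψ p) :
    Summable (fun ξ : E => ‖coe E i Ψ ξ * bw p ξ‖) ∧
      ser i Ψ p = ∑' ξ : E, coe E i Ψ ξ * bw p ξ := by
  classical
  set f : Orb i S → ℂ := fun o => Ψ (rep o).1 (rep o).2.val * bw p (Algebra.norm E (rep o).2.val)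
    with hf
  set g : Orb i S → E := fun o => Algebra.norm E (rep o).2.val with hg
  have hs : Summable fun o => ‖f o‖ := by
    simp only [hf, norm_mul, norm_bw]
    exact h
  have hs' : Summable fun z : (Σ y, {x // g x = y}) => ‖f (Equiv.sigmaFiberEquiv g z)‖ :=
    (Equiv.sigmaFiberEquiv g).summable_iff.mpr hs
  have key : ∀ ξ : E, ∑' o : {x // g x = ξ}, f (Equiv.sigmaFiberEquiv g ⟨ξ, o⟩) =
      coe E i Ψ ξ * bw p ξ := by
    intro ξ
    have e1 : ∀ o : {x // g x = ξ}, f (Equiv.sigmaFiberEquiv g ⟨ξ, o⟩) =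
        Ψ (rep o.1).1 (rep o.1).2.val * bw p ξ := by
      intro o
      show Ψ (rep o.1).1 (rep o.1).2.val * bw p (g o.1) = _
      rw [o.2]
    simp only [e1]
    rw [tsum_mul_right]
    congr 1
    unfold coe
    rw [show (fun o : Orb i S => if Algebra.norm E (rep o).2.val = ξ then
      Ψ (rep o).1 (rep o).2.val else 0) =
      Set.indicator {o | g o = ξ} (fun o => Ψ (rep o).1 (rep o).2.val) from by
        funext o
        by_cases h : g o = ξ
        · rw [Set.indicator_of_mem (show o ∈ {o | g o = ξ} from h), if_pos h]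
        · rw [Set.indicator_of_notMem (show o ∉ {o | g o = ξ} from h), if_neg h]]
    rw [← tsum_subtype]
    rfl
  constructor
  · refine Summable.of_nonneg_of_le (fun ξ => norm_nonneg _) (fun ξ => ?_) hs'.sigma
    rw [← key ξ]
    exact norm_tsum_le_tsum_norm (hs'.sigma_factor ξ)
  · have h1 : ∑' o, f o = ∑' z : (Σ y, {x // g x = y}), f (Equiv.sigmaFiberEquiv g z) :=
      ((Equiv.sigmaFiberEquiv g).tsum_eq f).symm
    have h2 : ser i Ψ p = ∑' o, f o := rfl
    rw [h2, h1, Summable.tsum_sigma (Summable.of_norm hs')]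
    exact tsum_congr key

/-- **The Fourier coefficients in the sense of `fc`.** -/
theorem fc_ser {Ψ : S → L → ℂ} {p : HF E} (h : Maj E i Ψ) {N : ℕ} (hN : N ≠ 0)
    (hd : ∀ s x, x ≠ 0 → Ψ s x ≠ 0 → IsDual N (Algebra.norm E x)) (η : E) :
    fc (fun v => ser i Ψ (tra v p)) η = coe E i Ψ η * bw p η := by
  have h1 := ser_eq_tsum (h.serConv p)
  have e1 : (fun v => ser i Ψ (tra v p)) =
      fun v => ∑' ξ : E, (coe E i Ψ ξ * bw p ξ) * ev ξ v := by
    funext v
    rw [(ser_eq_tsum (h.serConv (tra v p))).2]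
    apply tsum_congr
    intro ξ
    rw [bw_tra]
    ring
  rw [e1]
  apply fc_tsum hN _ h1.1
  intro ξ hξ
  have h2 : coe E i Ψ ξ ≠ 0 := left_ne_zero_of_mul hξ
  obtain ⟨o, ho, hne⟩ := coe_ne_zero h2
  rw [← ho]
  exact hd _ _ (XL.val_ne i _) hne

/-- **Translations.** -/
theorem ser_nMat (Ψ : S → L → ℂ) (b : E) (p : HF E) :
    ser i Ψ (nMat b • p) =
      ser i (fun s x => ev (Algebra.norm E x) (emb b) * Ψ s x) p := by
  unfold ser
  apply tsum_congr
  intro o
  rw [bw_nMat]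
  ring

theorem ser_congr {Ψ Ψ' : S → L → ℂ} (h : ∀ s x, x ≠ 0 → Ψ s x = Ψ' s x) (p : HF E) :
    ser i Ψ p = ser i Ψ' p := by
  unfold ser
  apply tsum_congr
  intro o
  rw [h _ _ (XL.val_ne i _)]

theorem ser_const_mul (Ψ : S → L → ℂ) (c : ℂ) (p : HF E) :
    ser i (fun s x => c * Ψ s x) p = c * ser i Ψ p := by
  unfold ser
  rw [← tsum_mul_left]
  exact tsum_congr fun o => mul_assoc _ _ _

theorem ser_add {Ψ Ψ' : S → L → ℂ} {p : HF E} (h : SerConv i Ψ p) (h' : SerConv i Ψ' p) :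
    ser i (fun s x => Ψ s x + Ψ' s x) p = ser i Ψ p + ser i Ψ' p := by
  have h1 : Summable fun o : Orb i S => Ψ (rep o).1 (rep o).2.val *
      bw p (Algebra.norm E (rep o).2.val) := by
    apply Summable.of_norm
    simp only [norm_mul, norm_bw]; exact h
  have h2 : Summable fun o : Orb i S => Ψ' (rep o).1 (rep o).2.val *
      bw p (Algebra.norm E (rep o).2.val) := by
    apply Summable.of_norm
    simp only [norm_mul, norm_bw]; exact h'
  unfold ser
  rw [← h1.tsum_add h2]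
  exact tsum_congr fun o => add_mul _ _ _

end ser

section orb

variable {G Z Z' : Type*} [Group G] [MulAction G Z] [MulAction G Z']

/-- the bijection of orbits induced by an equivariant bijection -/
def orbEquiv (e : Z ≃ Z') (he : ∀ (g : G) z, e (g • z) = g • e z) :
    MulAction.orbitRel.Quotient G Z ≃ MulAction.orbitRel.Quotient G Z' :=
  Quotient.congr e (by
    intro a b
    show a ∈ MulAction.orbit G b ↔ e a ∈ MulAction.orbit G (e b)
    rw [MulAction.mem_orbit_iff, MulAction.mem_orbit_iff]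
    constructor
    · rintro ⟨g, hg⟩
      exact ⟨g, by rw [← he, hg]⟩
    · rintro ⟨g, hg⟩
      refine ⟨g, e.injective ?_⟩
      rw [he, hg])

theorem apply_rep {α : Type*} {F : Z → α} (hF : ∀ (g : G) z, F (g • z) = F z) (z : Z) :
    F (rep (G := G) (Quotient.mk (MulAction.orbitRel G Z) z)) = F z := by
  have h : (MulAction.orbitRel G Z).r (rep (G := G) (Quotient.mk (MulAction.orbitRel G Z) z)) z := by
    apply Quotient.exact
    exact Quotient.out_eq _
  obtain ⟨g, hg⟩ := MulAction.orbitRel_apply.mp h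
  rw [← hg]
  exact hF g z

/-- sums over orbits can be transported by equivariant bijections -/
theorem tsum_orb_equiv (e : Z ≃ Z') (he : ∀ (g : G) z, e (g • z) = g • e z) {F : Z' → ℂ}
    (hF : ∀ (g : G) z, F (g • z) = F z) :
    ∑' o : MulAction.orbitRel.Quotient G Z, F (e (rep o)) =
      ∑' o : MulAction.orbitRel.Quotient G Z', F (rep o) := by
  rw [← (orbEquiv e he).tsum_eq]
  apply tsum_congr
  intro o
  have h1 : orbEquiv e he o = Quotient.mk (MulAction.orbitRel G Z') (e (rep o)) := by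
    have : o = Quotient.mk (MulAction.orbitRel G Z) (rep o) := (Quotient.out_eq _).symm
    conv_lhs => rw [this]
    rfl
  rw [h1, apply_rep hF]

theorem summable_orb_equiv (e : Z ≃ Z') (he : ∀ (g : G) z, e (g • z) = g • e z) {F : Z' → ℝ}
    (hF : ∀ (g : G) z, F (g • z) = F z) :
    Summable (fun o : MulAction.orbitRel.Quotient G Z => F (e (rep o))) ↔
      Summable (fun o : MulAction.orbitRel.Quotient G Z' => F (rep o)) := by
  rw [← (orbEquiv e he).summable_iff]
  apply summable_congr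
  intro o
  have h1 : orbEquiv e he o = Quotient.mk (MulAction.orbitRel G Z') (e (rep o)) := by
    have : o = Quotient.mk (MulAction.orbitRel G Z) (rep o) := (Quotient.out_eq _).symm
    conv_lhs => rw [this]
    rfl
  show _ = F (rep (orbEquiv e he o))
  rw [h1, apply_rep hF]

end orb

end Fermat.Agent.LT.Theta
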