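import Fermat.Agent.LT.Theta.Theta

set_option autoImplicit false

/-! # The Bessel function `K₀` and the integral of the Gaussian over the torus -/

namespace Fermat.Agent.LT.Theta

open Complex MeasureTheory NumberField Module Matrix
open scoped Real ComplexConjugate ENNReal

set_option linter.unusedSectionVars false

/-- `K₀(x) = ∫_0^∞ exp(-x cosh t) dt` -/
noncomputable def bK0 (x : ℝ) : ℝ := ∫ t in Set.Ioi (0 : ℝ), Real.exp (-(x * Real.cosh t))

theorem cosh_lower (t : ℝ) : 1 + t ^ 2 / 2 ≤ Real.cosh t := by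
  have h1 : Real.cosh t = 1 + 2 * Real.sinh (t / 2) ^ 2 := by
    have := Real.cosh_two_mul (t / 2)
    rw [show 2 * (t / 2) = t by ring, Real.cosh_sq] at this
    rw [this]; ring
  rw [h1]
  have h2 : (t / 2) ^ 2 ≤ Real.sinh (t / 2) ^ 2 := by
    apply sq_le_sq.mpr
    rcases le_total 0 (t / 2) with h | h
    · rw [abs_of_nonneg h, abs_of_nonneg (Real.sinh_nonneg_iff.mpr h)]
      exact Real.self_le_sinh_iff.mpr h
    · rw [abs_of_nonpos h, abs_of_nonpos (Real.sinh_nonpos_iff.mpr h)]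
      exact neg_le_neg (Real.sinh_le_self_iff.mpr h)
  nlinarith

theorem exp_sum_eq (s : ℝ) : Real.exp (2 * s) + Real.exp (-(2 * s)) = 2 * Real.cosh (2 * s) := by
  rw [Real.cosh_eq]; ring

theorem integrable_K {Y : ℝ} (hY : 0 < Y) :
    Integrable (fun s : ℝ => Real.exp (-(Y * (Real.exp (2 * s) + Real.exp (-(2 * s)))))) := by
  have h1 : Integrable (fun s : ℝ => Real.exp (-(4 * Y) * s ^ 2)) :=
    integrable_exp_neg_mul_sq (by positivity)
  refine h1.mono' (by fun_prop) (Filter.Eventually.of_forall fun s => ?_)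
  rw [Real.norm_eq_abs, Real.abs_exp]
  apply Real.exp_le_exp.mpr
  rw [exp_sum_eq]
  have := cosh_lower (2 * s)
  nlinarith [mul_le_mul_of_nonneg_left this hY.le]

theorem integral_K (Y : ℝ) :
    ∫ s : ℝ, Real.exp (-(Y * (Real.exp (2 * s) + Real.exp (-(2 * s))))) = bK0 (2 * Y) := by
  have h1 : ∀ s : ℝ, Real.exp (-(Y * (Real.exp (2 * s) + Real.exp (-(2 * s))))) =
      (fun u => Real.exp (-(2 * Y * Real.cosh u))) (2 * s) := by
    intro s
    simp only
    rw [exp_sum_eq]; congr 1; ring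
  simp only [h1]
  rw [Measure.integral_comp_mul_left (fun u => Real.exp (-(2 * Y * Real.cosh u))) 2]
  have h2 : ∀ u : ℝ, Real.exp (-(2 * Y * Real.cosh u)) =
      (fun u => Real.exp (-(2 * Y * Real.cosh u))) |u| := by
    intro u
    simp only [Real.cosh_abs]
  rw [integral_congr_ae (Filter.Eventually.of_forall h2),
    integral_comp_abs (f := fun u => Real.exp (-(2 * Y * Real.cosh u)))]
  unfold bK0
  rw [abs_of_pos (by norm_num : (0 : ℝ) < 2⁻¹), smul_eq_mul]
  ring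

theorem bK0_nonneg (x : ℝ) : 0 ≤ bK0 x :=
  integral_nonneg fun _ => (Real.exp_pos _).le

theorem bK0_le {x : ℝ} (hx : 0 < x) : bK0 x ≤ Real.sqrt (π / x) * Real.exp (-x) := by
  have e : x = 2 * (x / 2) := by ring
  have h0 : bK0 x = ∫ s : ℝ, Real.exp (-(x / 2 * (Real.exp (2 * s) + Real.exp (-(2 * s))))) := by
    rw [integral_K]; congr 1
  rw [h0]
  have h1 : Integrable (fun s : ℝ => Real.exp (-x) * Real.exp (-(2 * x) * s ^ 2)) :=
    (integrable_exp_neg_mul_sq (by positivity)).const_mul _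
  calc ∫ s : ℝ, Real.exp (-(x / 2 * (Real.exp (2 * s) + Real.exp (-(2 * s)))))
      ≤ ∫ s : ℝ, Real.exp (-x) * Real.exp (-(2 * x) * s ^ 2) := by
        apply integral_mono (integrable_K (by positivity)) h1
        intro s
        simp only
        rw [← Real.exp_add]
        apply Real.exp_le_exp.mpr
        rw [exp_sum_eq]
        have := cosh_lower (2 * s)
        nlinarith [mul_le_mul_of_nonneg_left this hx.le]
    _ = Real.exp (-x) * Real.sqrt (π / (2 * x)) := by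
        rw [integral_const_mul, integral_gaussian]
    _ ≤ Real.sqrt (π / x) * Real.exp (-x) := by
        rw [mul_comm]
        apply mul_le_mul_of_nonneg_right _ (Real.exp_pos _).le
        apply Real.sqrt_le_sqrt
        apply div_le_div_of_nonneg_left Real.pi_pos.le hx
        linarith

/-- the shifted exponential -/
theorem exp_shift {a b : ℝ} (ha : 0 < a) (hb : 0 < b) (c s : ℝ) :
    Real.exp (-(c * (a ^ 2 * Real.exp (2 * (s + (Real.log b - Real.log a) / 2)) +
      b ^ 2 * Real.exp (-(2 * (s + (Real.log b - Real.log a) / 2)))))) =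
    Real.exp (-(c * a * b * (Real.exp (2 * s) + Real.exp (-(2 * s))))) := by
  congr 2
  have e1 : Real.exp (2 * (s + (Real.log b - Real.log a) / 2)) = Real.exp (2 * s) * (b / a) := by
    rw [show 2 * (s + (Real.log b - Real.log a) / 2) = 2 * s + (Real.log b - Real.log a) by ring,
      Real.exp_add, Real.exp_sub, Real.exp_log ha, Real.exp_log hb]
  have e2 : Real.exp (-(2 * (s + (Real.log b - Real.log a) / 2))) =
      Real.exp (-(2 * s)) * (a / b) := by
    rw [show -(2 * (s + (Real.log b - Real.log a) / 2)) =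
      -(2 * s) + (Real.log a - Real.log b) by ring,
      Real.exp_add, Real.exp_sub, Real.exp_log ha, Real.exp_log hb]
  rw [e1, e2]
  field_simp

theorem integral_K_ab {a b c : ℝ} (ha : 0 < a) (hb : 0 < b) :
    ∫ s : ℝ, Real.exp (-(c * (a ^ 2 * Real.exp (2 * s) + b ^ 2 * Real.exp (-(2 * s))))) =
      bK0 (2 * (c * a * b)) := by
  rw [← integral_add_right_eq_self _ ((Real.log b - Real.log a) / 2)]
  simp only [exp_shift ha hb]
  exact integral_K _

theorem integrable_K_ab {a b c : ℝ} (ha : 0 < a) (hb : 0 < b) (hc : 0 < c) :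
    Integrable (fun s : ℝ =>
      Real.exp (-(c * (a ^ 2 * Real.exp (2 * s) + b ^ 2 * Real.exp (-(2 * s)))))) := by
  have h := (integrable_K (Y := c * a * b) (by positivity)).comp_add_right
    (-((Real.log b - Real.log a) / 2))
  refine h.congr (Filter.Eventually.of_forall fun s => ?_)
  have := exp_shift ha hb c (s + -((Real.log b - Real.log a) / 2))
  rw [neg_add_cancel_right] at this
  exact this.symm

section

variable {E : Type*} [Field E] [NumberField E]

/-- the factor of `gf` at one place -/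
noncomputable def gfv (z : ℂ) (y : ℝ) (x : ℂ × ℂ) (s : ℝ) : ℂ :=
  gs z (Real.sqrt y * Real.exp s) (Real.sqrt y * Real.exp (-s)) x

theorem gfv_eq (z : ℂ) {y : ℝ} (hy : 0 < y) (x : ℂ × ℂ) (s : ℝ) :
    gfv z y x s = cexp (4 * π * I * ((z * x.1 * x.2).re : ℂ)) *
      (Real.exp (-(2 * π * y * (‖x.1‖ ^ 2 * Real.exp (2 * s) + ‖x.2‖ ^ 2 * Real.exp (-(2 * s))))) : ℝ) := by
  unfold gfv gs
  rw [ofReal_exp, ← Complex.exp_add]
  congr 1
  have h1 : Real.sqrt y ^ 2 = y := Real.sq_sqrt hy.le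
  have h2 : Real.exp (2 * s) = Real.exp s ^ 2 := by
    rw [← Real.exp_nat_mul]; push_cast; ring_nf
  have h3 : Real.exp (-(2 * s)) = Real.exp (-s) ^ 2 := by
    rw [← Real.exp_nat_mul]; push_cast; ring_nf
  have e1 : (((Real.sqrt y * Real.exp s : ℝ)) : ℂ) ^ 2 = ((y * Real.exp (2 * s) : ℝ) : ℂ) := by
    rw [← ofReal_pow, mul_pow, h1, h2]
  have e2 : (((Real.sqrt y * Real.exp (-s) : ℝ)) : ℂ) ^ 2 = ((y * Real.exp (-(2 * s)) : ℝ) : ℂ) := by
    rw [← ofReal_pow, mul_pow, h1, h3]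
  rw [e1, e2]
  push_cast
  ring

theorem norm_gfv (z : ℂ) {y : ℝ} (hy : 0 < y) (x : ℂ × ℂ) (s : ℝ) :
    ‖gfv z y x s‖ =
      Real.exp (-(2 * π * y * (‖x.1‖ ^ 2 * Real.exp (2 * s) + ‖x.2‖ ^ 2 * Real.exp (-(2 * s))))) := by
  rw [gfv_eq z hy, norm_mul, Complex.norm_real, Real.norm_eq_abs, Real.abs_exp]
  have : ‖cexp (4 * π * I * ((z * x.1 * x.2).re : ℂ))‖ = 1 := by
    rw [show 4 * π * I * ((z * x.1 * x.2).re : ℂ) = ((4 * π * (z * x.1 * x.2).re : ℝ) : ℂ) * I by
      push_cast; ring, Complex.norm_exp_ofReal_mul_I]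
  rw [this, one_mul]

theorem integral_gfv (z : ℂ) {y : ℝ} (hy : 0 < y) {x : ℂ × ℂ} (h1 : x.1 ≠ 0) (h2 : x.2 ≠ 0) :
    ∫ s, gfv z y x s = cexp (4 * π * I * ((z * x.1 * x.2).re : ℂ)) *
      (bK0 (4 * π * (y * (‖x.1‖ * ‖x.2‖))) : ℝ) := by
  simp only [gfv_eq z hy]
  rw [integral_const_mul, integral_complex_ofReal, integral_K_ab (norm_pos_iff.mpr h1)
    (norm_pos_iff.mpr h2)]
  congr 3
  ring

theorem continuous_gfv (z : ℂ) {y : ℝ} (hy : 0 < y) (x : ℂ × ℂ) : Continuous (gfv z y x) := by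
  have : gfv z y x = fun s => cexp (4 * π * I * ((z * x.1 * x.2).re : ℂ)) *
      (Real.exp (-(2 * π * y * (‖x.1‖ ^ 2 * Real.exp (2 * s) +
        ‖x.2‖ ^ 2 * Real.exp (-(2 * s))))) : ℝ) := funext fun s => gfv_eq z hy x s
  rw [this]
  fun_prop

theorem integrable_gfv (z : ℂ) {y : ℝ} (hy : 0 < y) {x : ℂ × ℂ} (h1 : x.1 ≠ 0) (h2 : x.2 ≠ 0) :
    Integrable (gfv z y x) := by
  refine (integrable_K_ab (norm_pos_iff.mpr h1) (norm_pos_iff.mpr h2)
    (c := 2 * π * y) (by positivity)).mono' (continuous_gfv z hy x).aestronglyMeasurable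
    (Filter.Eventually.of_forall fun s => ?_)
  rw [norm_gfv z hy]

theorem gf_eq_prod (p : HF E) (τ : InfinitePlace E → ℝ) (u : V E) :
    gf p τ u = ∏ v, gfv (p v).z (p v).y (u v) (τ v) := rfl

theorem integral_gf (p : HF E) {u : V E} (h1 : ∀ v, (u v).1 ≠ 0) (h2 : ∀ v, (u v).2 ≠ 0) :
    ∫ τ, gf p τ u = ∏ v, (cexp (4 * π * I * (((p v).z * (u v).1 * (u v).2).re : ℂ)) *
      (bK0 (4 * π * ((p v).y * (‖(u v).1‖ * ‖(u v).2‖))) : ℝ)) := by
  simp only [gf_eq_prod]
  rw [integral_fintype_prod_volume_eq_prod (fun v s => gfv (p v).z (p v).y (u v) s)]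
  exact Finset.prod_congr rfl fun v _ => integral_gfv _ (p v).pos (h1 v) (h2 v)

theorem integrable_gf (p : HF E) {u : V E} (h1 : ∀ v, (u v).1 ≠ 0) (h2 : ∀ v, (u v).2 ≠ 0) :
    Integrable (fun τ => gf p τ u) := by
  simp only [gf_eq_prod]
  exact Integrable.fintype_prod (f := fun v s => gfv (p v).z (p v).y (u v) s)
    (fun v => integrable_gfv _ (p v).pos (h1 v) (h2 v))

theorem lintegral_gf (p : HF E) {u : V E} (h1 : ∀ v, (u v).1 ≠ 0) (h2 : ∀ v, (u v).2 ≠ 0) :
    ∫⁻ τ, ‖gf p τ u‖ₑ = ENNReal.ofReal (∏ v, bK0 (4 * π * ((p v).y * (‖(u v).1‖ * ‖(u v).2‖)))) := by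
  rw [← ofReal_integral_norm_eq_lintegral_enorm (integrable_gf p h1 h2)]
  congr 1
  simp only [gf_eq_prod, norm_prod]
  rw [integral_fintype_prod_volume_eq_prod (fun v s => ‖gfv (p v).z (p v).y (u v) s‖)]
  apply Finset.prod_congr rfl
  intro v _
  simp only [norm_gfv _ (p v).pos]
  rw [integral_K_ab (norm_pos_iff.mpr (h1 v)) (norm_pos_iff.mpr (h2 v))]
  congr 1
  ring

end

end Fermat.Agent.LT.Theta
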