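import Fermat.Agent.LT.Theta.Series

set_option autoImplicit false

/-! # Absolute convergence of the theta series -/

namespace Fermat.Agent.LT.Theta

open Complex MeasureTheory NumberField Module Matrix Filter Topology
open scoped Real ComplexConjugate ENNReal

set_option linter.unusedSectionVars false

section ideals

variable (K : Type*) [Field K] [NumberField K]

theorem finite_ideals (s : ℝ) : Finite {I : Ideal (𝓞 K) // (Ideal.absNorm I : ℝ) ≤ s} := by
  have h := Ideal.finite_setOfPred_absNorm_le (S := 𝓞 K) ⌊s⌋₊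
  refine (h.subset ?_).to_subtype
  intro I hI
  exact Nat.le_floor hI

/-- the number of ideals of norm at most `s` is `O(s + 1)` -/
theorem exists_card_ideals_le : ∃ C : ℝ, 0 < C ∧ ∀ s : ℝ, 0 ≤ s →
    (Nat.card {I : Ideal (𝓞 K) // (Ideal.absNorm I : ℝ) ≤ s} : ℝ) ≤ C * (s + 1) := by
  have h := NumberField.Ideal.tendsto_norm_le_div_atTop K
  set c := (2 ^ InfinitePlace.nrRealPlaces K * (2 * π) ^ InfinitePlace.nrComplexPlaces K *
    Units.regulator K * classNumber K) / (Units.torsionOrder K * Real.sqrt |discr K|) with hc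
  have h2 : ∀ᶠ s : ℝ in atTop,
      (Nat.card {I : Ideal (𝓞 K) // (Ideal.absNorm I : ℝ) ≤ s} : ℝ) / s < c + 1 :=
    h.eventually (gt_mem_nhds (by linarith))
  obtain ⟨s0, hs0⟩ := (h2.and (eventually_ge_atTop 1)).exists_forall_of_atTop
  have hs1 : 1 ≤ s0 := (hs0 s0 le_rfl).2
  set N0 : ℝ := (Nat.card {I : Ideal (𝓞 K) // (Ideal.absNorm I : ℝ) ≤ s0} : ℝ) with hN0
  refine ⟨|c| + 1 + N0, by positivity, fun s hs => ?_⟩
  rcases le_total s0 s with hss | hss
  · have h3 := (hs0 s hss).1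
    have hs' : 0 < s := by linarith
    rw [div_lt_iff₀ hs'] at h3
    have h4 : (c + 1) * s ≤ (|c| + 1 + N0) * (s + 1) := by
      have := le_abs_self c
      have hN : 0 ≤ N0 := Nat.cast_nonneg _
      nlinarith [abs_nonneg c]
    linarith
  · have hfin := finite_ideals K s0
    have h5 : Nat.card {I : Ideal (𝓞 K) // (Ideal.absNorm I : ℝ) ≤ s} ≤
        Nat.card {I : Ideal (𝓞 K) // (Ideal.absNorm I : ℝ) ≤ s0} :=
      Nat.card_le_card_of_injective
        (fun I => (⟨I.1, I.2.trans hss⟩ : {I : Ideal (𝓞 K) // (Ideal.absNorm I : ℝ) ≤ s0}))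
        (fun I J h => Subtype.ext (congrArg (fun x => x.1) h))
    have h6 : (Nat.card {I : Ideal (𝓞 K) // (Ideal.absNorm I : ℝ) ≤ s} : ℝ) ≤ N0 := by
      rw [hN0]
      exact Nat.cast_le.mpr h5
    have hN : 0 ≤ N0 := Nat.cast_nonneg _
    nlinarith [abs_nonneg c]

end ideals

section bounds

theorem exp_neg_le_factorial {x : ℝ} (hx : 0 < x) (m : ℕ) :
    Real.exp (-x) ≤ (m.factorial : ℝ) * (x ^ m)⁻¹ := by
  have h := Real.pow_div_factorial_le_exp x hx.le m
  rw [Real.exp_neg, ← div_eq_mul_inv]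
  rw [inv_le_comm₀ (Real.exp_pos _) (by positivity), inv_div]
  exact h

/-- `K₀(4πX) ≤ C_m X^{-m} e^{-2πX}` -/
theorem bK0_le_pow {X : ℝ} (hX : 0 < X) {m : ℕ} (hm : 0 < m) :
    bK0 (4 * π * X) ≤ 2 * (m.factorial : ℝ) * (X ^ m)⁻¹ * Real.exp (-(2 * π * X)) := by
  have hpi := Real.pi_pos
  have hpi3 := Real.pi_gt_three
  have h1 := bK0_le (x := 4 * π * X) (by positivity)
  have h2 : Real.sqrt (π / (4 * π * X)) ≤ 1 + X⁻¹ := by
    rw [show π / (4 * π * X) = X⁻¹ / 4 by field_simp]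
    have hXi : 0 < X⁻¹ := by positivity
    apply Real.sqrt_le_iff.mpr
    constructor
    · positivity
    · nlinarith
  have h3 : Real.exp (-(4 * π * X)) = Real.exp (-(2 * π * X)) * Real.exp (-(2 * π * X)) := by
    rw [← Real.exp_add]; congr 1; ring
  have hm1 : ((m - 1 : ℕ).factorial : ℝ) ≤ (m.factorial : ℝ) := by
    exact_mod_cast Nat.factorial_le (Nat.sub_le m 1)
  have h4 : Real.exp (-(2 * π * X)) ≤ (m.factorial : ℝ) * (X ^ m)⁻¹ := by
    refine le_trans (Real.exp_le_exp.mpr ?_) (exp_neg_le_factorial hX m)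
    nlinarith
  have h5 : X⁻¹ * Real.exp (-(2 * π * X)) ≤ (m.factorial : ℝ) * (X ^ m)⁻¹ := by
    have h6 : Real.exp (-(2 * π * X)) ≤ ((m - 1 : ℕ).factorial : ℝ) * (X ^ (m - 1))⁻¹ := by
      refine le_trans (Real.exp_le_exp.mpr ?_) (exp_neg_le_factorial hX (m - 1))
      nlinarith
    have h7 : (X ^ m)⁻¹ = X⁻¹ * (X ^ (m - 1))⁻¹ := by
      rw [← mul_inv, ← pow_succ', Nat.sub_add_cancel hm]
    rw [h7]
    calc X⁻¹ * Real.exp (-(2 * π * X))
        ≤ X⁻¹ * (((m - 1 : ℕ).factorial : ℝ) * (X ^ (m - 1))⁻¹) := by gcongr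
      _ ≤ X⁻¹ * ((m.factorial : ℝ) * (X ^ (m - 1))⁻¹) := by gcongr
      _ = _ := by ring
  calc bK0 (4 * π * X) ≤ Real.sqrt (π / (4 * π * X)) * Real.exp (-(4 * π * X)) := h1
    _ ≤ (1 + X⁻¹) * Real.exp (-(4 * π * X)) := by gcongr
    _ = (Real.exp (-(2 * π * X)) + X⁻¹ * Real.exp (-(2 * π * X))) * Real.exp (-(2 * π * X)) := by
        rw [h3]; ring
    _ ≤ ((m.factorial : ℝ) * (X ^ m)⁻¹ + (m.factorial : ℝ) * (X ^ m)⁻¹) *
        Real.exp (-(2 * π * X)) := by gcongr
    _ = _ := by ring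

variable {E : Type*} [Field E] [NumberField E] [IsTotallyComplex E]

/-- `∏ |ξ_v|² = |N ξ|` -/
theorem prod_sq_eq (ξ : E) : (∏ v : InfinitePlace E, ‖v.embedding ξ‖) ^ 2 =
    |((Algebra.norm ℚ ξ : ℚ) : ℝ)| := by
  have h := InfinitePlace.prod_eq_abs_norm ξ
  rw [← Finset.prod_pow]
  rw [show |((Algebra.norm ℚ ξ : ℚ) : ℝ)| = ((|Algebra.norm ℚ ξ| : ℚ) : ℝ) by push_cast; rfl, ← h]
  apply Finset.prod_congr rfl
  intro v _
  rw [IsTotallyComplex.mult_eq, InfinitePlace.norm_embedding_eq]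

theorem norm_lower {M : ℕ} (hM : 0 < M) {ξ : E} (h0 : ξ ≠ 0) (h : IsIntegral ℤ ((M : E) * ξ)) :
    ((M : ℝ) ^ finrank ℚ E)⁻¹ ≤ |((Algebra.norm ℚ ξ : ℚ) : ℝ)| := by
  have hM' : (M : E) ≠ 0 := by exact_mod_cast hM.ne'
  have h1 : IsIntegral ℤ (Algebra.norm ℚ ((M : E) * ξ)) := Algebra.isIntegral_norm ℚ h
  obtain ⟨n, hn⟩ := isIntegral_rat h1
  have h2 : Algebra.norm ℚ ((M : E) * ξ) = (M : ℚ) ^ finrank ℚ E * Algebra.norm ℚ ξ := by
    rw [map_mul]
    congr 1
    have := Algebra.norm_algebraMap (S := E) (M : ℚ)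
    rw [← this]
    simp
  have h3 : n ≠ 0 := by
    rintro rfl
    rw [Int.cast_zero] at hn
    have := Algebra.norm_eq_zero_iff.mp hn
    exact (mul_ne_zero hM' h0) this
  have h4 : (1 : ℝ) ≤ |(n : ℝ)| := by
    have : (1 : ℤ) ≤ |n| := Int.one_le_abs h3
    exact_mod_cast this
  rw [h2] at hn
  have h5 : (M : ℝ) ^ finrank ℚ E * ((Algebra.norm ℚ ξ : ℚ) : ℝ) = n := by exact_mod_cast hn
  rw [← h5, abs_mul, abs_of_pos (by positivity)] at h4
  rw [inv_le_iff_one_le_mul₀ (by positivity), mul_comm]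
  exact h4

/-- bound for one term -/
theorem bwn_le (j : ℕ) {ε : ℝ} (p : HF E) (hp : ∀ v, ε ≤ (p v).y)
    {ξ : E} (h0 : ξ ≠ 0) :
    bwn p ξ ≤ (2 * ((2 * (j + 1)).factorial : ℝ)) ^ Fintype.card (InfinitePlace E) *
      (ht p ^ (2 * j + 1))⁻¹ * (|((Algebra.norm ℚ ξ : ℚ) : ℝ)| ^ (j + 1))⁻¹ *
      Real.exp (-(2 * π * ε * ∑ v : InfinitePlace E, ‖v.embedding ξ‖)) := by
  have hx : ∀ v : InfinitePlace E, 0 < ‖v.embedding ξ‖ := fun v => by
    rw [norm_pos_iff, map_ne_zero]; exact h0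
  have hy : ∀ v, 0 < (p v).y := fun v => (p v).pos
  have step1 : bwn p ξ ≤ ∏ v : InfinitePlace E, ((p v).y * (2 * ((2 * (j + 1)).factorial : ℝ) *
      (((p v).y * ‖v.embedding ξ‖) ^ (2 * (j + 1)))⁻¹ *
        Real.exp (-(2 * π * ε * ‖v.embedding ξ‖)))) := by
    unfold bwn
    apply Finset.prod_le_prod
    · intro v _
      exact mul_nonneg (hy v).le (bK0_nonneg _)
    · intro v _
      apply mul_le_mul_of_nonneg_left _ (hy v).le
      have hX : 0 < (p v).y * ‖v.embedding ξ‖ := mul_pos (hy v) (hx v)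
      refine (bK0_le_pow hX (m := 2 * (j + 1)) (by omega)).trans ?_
      apply mul_le_mul_of_nonneg_left _ (by positivity)
      apply Real.exp_le_exp.mpr
      rw [neg_le_neg_iff, mul_assoc (2 * π)]
      have := hp v
      have hpi := Real.pi_pos
      gcongr
  refine step1.trans (le_of_eq ?_)
  rw [Finset.prod_mul_distrib, Finset.prod_mul_distrib, Finset.prod_mul_distrib,
    Finset.prod_const, Finset.card_univ, Finset.prod_inv_distrib, Finset.prod_pow,
    Finset.prod_mul_distrib, ← Real.exp_sum, Finset.sum_neg_distrib, ← Finset.mul_sum,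
    ← prod_sq_eq]
  have hht : (∏ v, (p v).y) = ht p := rfl
  rw [hht]
  have hhtpos := ht_pos p
  have hP : 0 < ∏ v : InfinitePlace E, ‖v.embedding ξ‖ := Finset.prod_pos fun v _ => hx v
  have e1 : (ht p * ∏ v : InfinitePlace E, ‖v.embedding ξ‖) ^ (2 * (j + 1)) =
      ht p ^ (2 * j + 1) * ht p * ((∏ v : InfinitePlace E, ‖v.embedding ξ‖) ^ 2) ^ (j + 1) := by
    rw [← pow_mul]; ring
  rw [e1]
  field_simp

end bounds

section sum

variable {E : Type*} [Field E] [NumberField E] [IsTotallyComplex E]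

/-- exponential sums over the integers converge -/
theorem summable_exp_int {a : ℝ} (ha : 0 < a) :
    Summable (fun η : 𝓞 E => Real.exp (-(a * ∑ v : InfinitePlace E, ‖v.embedding (η : E)‖))) := by
  classical
  set d : ℕ := finrank ℤ (mixedEmbedding.integerLattice E) with hd
  have h1 := ZLattice.summable_norm_rpow (mixedEmbedding.integerLattice E) (-((d : ℝ) + 1))
    (by rw [← hd]; linarith)
  -- transfer to 𝓞 E
  let f : 𝓞 E → mixedEmbedding.integerLattice E := fun η =>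
    ⟨mixedEmbedding E η, by
      show _ ∈ LinearMap.range _
      exact ⟨η, rfl⟩⟩
  have hf : Function.Injective f := by
    intro η η' h
    have := congrArg Subtype.val h
    exact RingOfIntegers.ext (mixedEmbedding_injective E this)
  have h2 := h1.comp_injective hf
  have hnorm : ∀ η : 𝓞 E, ‖f η‖ ≤ ∑ v : InfinitePlace E, ‖v.embedding (η : E)‖ := by
    intro η
    have h3 : ‖f η‖ = ‖mixedEmbedding E (η : E)‖ := rfl
    rw [h3, mixedEmbedding.norm_eq_sup'_normAtPlace]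
    apply Finset.sup'_le
    intro v _
    rw [mixedEmbedding.normAtPlace_apply, ← InfinitePlace.norm_embedding_eq]
    exact Finset.single_le_sum (f := fun v : InfinitePlace E => ‖v.embedding (η : E)‖)
      (fun v _ => norm_nonneg _) (Finset.mem_univ v)
  have h4 : Summable (fun η : 𝓞 E => (if η = 0 then (1 : ℝ) else 0) +
      ((d + 1).factorial : ℝ) * (a ^ (d + 1))⁻¹ * ‖f η‖ ^ (-((d : ℝ) + 1))) := by
    apply Summable.add
    · exact summable_of_ne_finset_zero (s := {0}) (fun b hb => by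
        rw [if_neg (by simpa using hb)])
    · exact h2.mul_left _
  refine Summable.of_nonneg_of_le (fun η => (Real.exp_pos _).le) (fun η => ?_) h4
  by_cases h0 : η = 0
  · rw [if_pos h0]
    have : Real.exp (-(a * ∑ v : InfinitePlace E, ‖v.embedding (η : E)‖)) ≤ 1 := by
      apply Real.exp_le_one_iff.mpr
      have : 0 ≤ ∑ v : InfinitePlace E, ‖v.embedding (η : E)‖ :=
        Finset.sum_nonneg fun _ _ => norm_nonneg _
      nlinarith
    have h5 : 0 ≤ ((d + 1).factorial : ℝ) * (a ^ (d + 1))⁻¹ * ‖f η‖ ^ (-((d : ℝ) + 1)) := by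
      positivity
    linarith
  · rw [if_neg h0, zero_add]
    have hfpos : 0 < ‖f η‖ := by
      rw [norm_pos_iff]
      intro h
      apply h0
      have : f η = f 0 := by
        rw [h]
        apply Subtype.ext
        show (0 : mixedEmbedding.mixedSpace E) = mixedEmbedding E ((0 : 𝓞 E) : E)
        simp
      exact hf this
    calc Real.exp (-(a * ∑ v : InfinitePlace E, ‖v.embedding (η : E)‖))
        ≤ Real.exp (-(a * ‖f η‖)) := by
          apply Real.exp_le_exp.mpr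
          rw [neg_le_neg_iff]
          exact mul_le_mul_of_nonneg_left (hnorm η) ha.le
      _ ≤ ((d + 1).factorial : ℝ) * ((a * ‖f η‖) ^ (d + 1))⁻¹ :=
          exp_neg_le_factorial (by positivity) _
      _ = _ := by
          rw [mul_pow, mul_inv, Real.rpow_neg hfpos.le]
          have : ‖f η‖ ^ ((d : ℝ) + 1) = ‖f η‖ ^ (d + 1) := by
            rw [← Real.rpow_natCast]; push_cast; rfl
          rw [this]
          ring

variable {L : Type*} [Field L] [NumberField L]

/-- **Absolute convergence**: terms indexed by pairs (element `ξ` of `M⁻¹𝓞_E`, ideal of `𝓞_L` of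
norm `≤ C |N ξ| ^ m`). -/
theorem conv_main {O : Type*} {ξ : O → E} {𝔞 : O → Ideal (𝓞 L)} {A : O → ℝ}
    (hinj : ∀ o o', A o ≠ 0 → A o' ≠ 0 → ξ o = ξ o' → 𝔞 o = 𝔞 o' → o = o')
    {M : ℕ} (hM : 0 < M) (hint : ∀ o, A o ≠ 0 → IsIntegral ℤ ((M : E) * ξ o))
    (h0 : ∀ o, A o ≠ 0 → ξ o ≠ 0)
    {C1 : ℝ} (hC1 : 0 ≤ C1) {m : ℕ}
    (h𝔞 : ∀ o, A o ≠ 0 →
      (Ideal.absNorm (𝔞 o) : ℝ) ≤ C1 * |((Algebra.norm ℚ (ξ o) : ℚ) : ℝ)| ^ m)
    {C2 : ℝ} (hC2 : 0 ≤ C2) (hA : ∀ o, A o ≤ C2) {ε : ℝ} (hε : 0 < ε) {j : ℕ} (hj : m ≤ j) :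
    ∃ u : O → ℝ, Summable u ∧ (∀ o, 0 ≤ u o) ∧ ∀ p : HF E, (∀ v, ε ≤ (p v).y) →
      ∀ o, A o * bwn p (ξ o) ≤ u o * (ht p ^ (2 * j + 1))⁻¹ := by
  classical
  obtain ⟨Cc, hCc, hcard⟩ := exists_card_ideals_le L
  set n := finrank ℚ E with hn
  have hMr : (0 : ℝ) < M := by exact_mod_cast hM
  have hME : (M : E) ≠ 0 := by exact_mod_cast hM.ne'
  -- the real norm of η / M
  let nr : 𝓞 E → ℝ := fun η => |((Algebra.norm ℚ ((η : E) / M) : ℚ) : ℝ)|
  have hnr0 : ∀ η, 0 ≤ nr η := fun η => abs_nonneg _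
  let T : Type _ := Σ η : 𝓞 E, {I : Ideal (𝓞 L) // (Ideal.absNorm I : ℝ) ≤ C1 * nr η ^ m}
  set a : ℝ := 2 * π * ε / M with ha
  have hapos : 0 < a := by have := Real.pi_pos; positivity
  let R : 𝓞 E → ℝ := fun η => (nr η ^ (j + 1))⁻¹ *
    Real.exp (-(a * ∑ v : InfinitePlace E, ‖v.embedding (η : E)‖))
  have hR0 : ∀ η, 0 ≤ R η := fun η => by
    show 0 ≤ (nr η ^ (j + 1))⁻¹ * _
    have := hnr0 η
    positivity
  have hF : Summable (fun x : T => R x.1) := by
    rw [summable_sigma_of_nonneg (fun x => hR0 x.1)]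
    constructor
    · intro η
      have := finite_ideals L (C1 * nr η ^ m)
      exact Summable.of_finite
    · simp only [tsum_const, nsmul_eq_mul]
      have hs := (summable_exp_int (E := E) hapos).mul_left
        (Cc * (C1 * ((M : ℝ) ^ n) ^ (j + 1 - m) + ((M : ℝ) ^ n) ^ (j + 1)))
      refine Summable.of_nonneg_of_le (fun η => mul_nonneg (Nat.cast_nonneg _) (hR0 η))
        (fun η => ?_) hs
      by_cases hη : η = 0
      · have : R η = 0 := by
          show (nr η ^ (j + 1))⁻¹ * _ = 0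
          have : nr η = 0 := by
            show |((Algebra.norm ℚ ((η : E) / M) : ℚ) : ℝ)| = 0
            rw [hη]; simp
          rw [this]; simp
        rw [this, mul_zero]
        positivity
      · have hη' : (η : E) / M ≠ 0 := div_ne_zero (by
          intro h; exact hη (RingOfIntegers.ext h)) hME
        have hlow : ((M : ℝ) ^ n)⁻¹ ≤ nr η := norm_lower hM hη' (by
          rw [mul_div_cancel₀ _ hME]; exact η.isIntegral_coe)
        have hpos : 0 < nr η := lt_of_lt_of_le (by positivity) hlow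
        have hinv : (nr η)⁻¹ ≤ (M : ℝ) ^ n := by
          rw [inv_le_comm₀ hpos (by positivity)]; exact hlow
        have h1 := hcard (C1 * nr η ^ m) (mul_nonneg hC1 (pow_nonneg hpos.le m))
        have h2 : (C1 * nr η ^ m + 1) * (nr η ^ (j + 1))⁻¹ ≤
            C1 * ((M : ℝ) ^ n) ^ (j + 1 - m) + ((M : ℝ) ^ n) ^ (j + 1) := by
          have e1 : (C1 * nr η ^ m + 1) * (nr η ^ (j + 1))⁻¹ =
              C1 * ((nr η)⁻¹) ^ (j + 1 - m) + ((nr η)⁻¹) ^ (j + 1) := by
            obtain ⟨d, rfl⟩ := Nat.exists_eq_add_of_le hj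
            rw [show m + d + 1 - m = d + 1 by omega, inv_pow, inv_pow,
              show m + d + 1 = m + (d + 1) by ring, pow_add (nr η) m (d + 1)]
            field_simp
          rw [e1]
          have h0' : 0 ≤ (nr η)⁻¹ := by positivity
          gcongr
        have hexp := (Real.exp_pos (-(a * ∑ v : InfinitePlace E, ‖v.embedding (η : E)‖))).le
        calc (Nat.card {I : Ideal (𝓞 L) // (Ideal.absNorm I : ℝ) ≤ C1 * nr η ^ m} : ℝ) * R η
            ≤ (Cc * (C1 * nr η ^ m + 1)) * R η := mul_le_mul_of_nonneg_right h1 (hR0 η)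
          _ = Cc * ((C1 * nr η ^ m + 1) * (nr η ^ (j + 1))⁻¹) *
              Real.exp (-(a * ∑ v : InfinitePlace E, ‖v.embedding (η : E)‖)) := by
              show _ * ((nr η ^ (j + 1))⁻¹ * _) = _
              ring
          _ ≤ _ := by
              apply mul_le_mul_of_nonneg_right _ hexp
              exact mul_le_mul_of_nonneg_left h2 hCc.le
  -- the embedding of the support
  let P := {o : O // A o ≠ 0}
  let η : P → 𝓞 E := fun o => ⟨(M : E) * ξ o.1, hint o.1 o.2⟩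
  have hη : ∀ o : P, ((η o : 𝓞 E) : E) / M = ξ o.1 := fun o => by
    show ((M : E) * ξ o.1) / M = _
    rw [mul_div_cancel_left₀ _ hME]
  have hnr : ∀ o : P, nr (η o) = |((Algebra.norm ℚ (ξ o.1) : ℚ) : ℝ)| := fun o => by
    show |((Algebra.norm ℚ (((η o : 𝓞 E) : E) / M) : ℚ) : ℝ)| = _
    rw [hη]
  let g : P → T := fun o => ⟨η o, 𝔞 o.1, by rw [hnr]; exact h𝔞 o.1 o.2⟩
  have hg : Function.Injective g := by
    intro o o' h
    have h1 : η o = η o' := congrArg Sigma.fst h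
    have h2 : 𝔞 o.1 = 𝔞 o'.1 := by
      have := congrArg (fun x : T => x.2.1) h
      exact this
    apply Subtype.ext
    apply hinj _ _ o.2 o'.2 _ h2
    rw [← hη, ← hη, h1]
  have hPsum := hF.comp_injective hg
  set K1 : ℝ := (2 * ((2 * (j + 1)).factorial : ℝ)) ^ Fintype.card (InfinitePlace E) with hK1
  have hK1pos : 0 ≤ K1 := by positivity
  let u : O → ℝ := fun o => if h : A o ≠ 0 then C2 * K1 * R (η ⟨o, h⟩) else 0
  refine ⟨u, ?_, ?_, ?_⟩
  · have h1 : Summable (fun o : P => u o.1) := by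
      have : (fun o : P => u o.1) = fun o : P => C2 * K1 * R (g o).1 := by
        funext o
        show (if h : A o.1 ≠ 0 then C2 * K1 * R (η ⟨o.1, h⟩) else 0) = _
        rw [dif_pos o.2]
      rw [this]
      exact hPsum.mul_left _
    have h2 := (summable_subtype_iff_indicator (f := u) (s := {o | A o ≠ 0})).mp h1
    refine h2.congr fun o => ?_
    by_cases h : A o ≠ 0
    · rw [Set.indicator_of_mem (show o ∈ {o | A o ≠ 0} from h)]
    · rw [Set.indicator_of_notMem (show o ∉ {o | A o ≠ 0} from h)]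
      have : u o = 0 := dif_neg h
      exact this.symm
  · intro o
    show 0 ≤ (if h : A o ≠ 0 then C2 * K1 * R (η ⟨o, h⟩) else 0)
    split_ifs with h
    · exact mul_nonneg (mul_nonneg hC2 hK1pos) (hR0 _)
    · exact le_refl _
  · intro p hp o
    have hht := ht_pos p
    by_cases h : A o ≠ 0
    · have e1 : u o = C2 * K1 * R (η ⟨o, h⟩) := dif_pos h
      have h1 := bwn_le j p hp (h0 o h)
      have h2 : 0 ≤ bwn p (ξ o) := by
        rw [← norm_bw]; exact norm_nonneg _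
      have e2 : R (η ⟨o, h⟩) = (|((Algebra.norm ℚ (ξ o) : ℚ) : ℝ)| ^ (j + 1))⁻¹ *
          Real.exp (-(2 * π * ε * ∑ v : InfinitePlace E, ‖v.embedding (ξ o)‖)) := by
        show (nr (η ⟨o, h⟩) ^ (j + 1))⁻¹ * _ = _
        rw [hnr]
        congr 3
        rw [ha]
        have e3 : ∀ v : InfinitePlace E, ‖v.embedding ((η ⟨o, h⟩ : 𝓞 E) : E)‖ =
            M * ‖v.embedding (ξ o)‖ := by
          intro v
          show ‖v.embedding ((M : E) * ξ o)‖ = _
          rw [map_mul, norm_mul, map_natCast, Complex.norm_natCast]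
        simp only [e3]
        rw [← Finset.mul_sum]
        field_simp
      calc A o * bwn p (ξ o) ≤ C2 * bwn p (ξ o) := mul_le_mul_of_nonneg_right (hA o) h2
        _ ≤ C2 * _ := mul_le_mul_of_nonneg_left h1 hC2
        _ = _ := by rw [e1, e2, hK1]; ring
    · have e1 : u o = 0 := dif_neg h
      rw [e1, not_not.mp h, zero_mul, zero_mul]

end sum

end Fermat.Agent.LT.Theta
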