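import Mathlib

set_option autoImplicit false

/-! # The Gaussian `e(2 Re (z x₁ x₂)) exp(-2π(|x₁|² h₁² + |x₂|² h₂²))` and its Fourier transform -/

namespace Fermat.Agent.LT.Theta

open Complex MeasureTheory
open scoped Real ComplexConjugate

/-- the two dimensional complex Gaussian integral -/
theorem integral_gauss_two {a : ℝ} (ha : 0 < a) (α β : ℂ) :
    ∫ x : ℂ, cexp (-a * (‖x‖ : ℂ) ^ 2 + (α * x + β * conj x)) = π / a * cexp (α * β / a) := by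
  have hb : 0 < ((a : ℂ)).re := by simpa using ha
  have h := GaussianFourier.integral_cexp_neg_mul_sum_add (ι := Fin 2) hb
    ![α + β, I * (α - β)]
  rw [← (Complex.volume_preserving_equiv_pi.integral_comp
    Complex.measurableEquivPi.measurableEmbedding)] at h
  have e1 : ∀ x : ℂ, (-(a : ℂ) * ∑ i, ((Complex.measurableEquivPi x i : ℝ) : ℂ) ^ 2 +
      ∑ i, (![α + β, I * (α - β)] : Fin 2 → ℂ) i * ((Complex.measurableEquivPi x i : ℝ) : ℂ)) =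
      -a * (‖x‖ : ℂ) ^ 2 + (α * x + β * conj x) := by
    intro x
    rw [Complex.measurableEquivPi_apply]
    simp only [Fin.sum_univ_two, Matrix.cons_val_zero, Matrix.cons_val_one]
    have hx : ((‖x‖ : ℂ)) ^ 2 = (x.re : ℂ) ^ 2 + (x.im : ℂ) ^ 2 := by
      rw [← ofReal_pow, Complex.sq_norm, Complex.normSq_apply]; push_cast; ring
    rw [hx]
    have h1 : x = x.re + x.im * I := (Complex.re_add_im x).symm
    have h2 : conj x = x.re - x.im * I := by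
      apply Complex.ext <;> simp
    rw [h2]
    conv_rhs => rw [h1]
    simp only [add_re, ofReal_re, mul_re, I_re, mul_zero, ofReal_im, I_im, mul_one, sub_self,
      add_zero, add_im, mul_im, zero_add]
    ring
  simp only [e1] at h
  rw [h]
  congr 1
  · simp
  · congr 1
    simp only [Fin.sum_univ_two, Matrix.cons_val_zero, Matrix.cons_val_one]
    have : (a : ℂ) ≠ 0 := by exact_mod_cast ha.ne'
    field_simp
    ring_nf
    rw [Complex.I_sq]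
    ring

theorem integrable_gauss_two {a : ℝ} (ha : 0 < a) (α β : ℂ) :
    Integrable (fun x : ℂ => cexp (-a * (‖x‖ : ℂ) ^ 2 + (α * x + β * conj x))) := by
  have hb : 0 < ((a : ℂ)).re := by simpa using ha
  have h := GaussianFourier.integrable_cexp_neg_mul_sum_add (ι := Fin 2) hb
    ![α + β, I * (α - β)]
  rw [← (Complex.volume_preserving_equiv_pi.integrable_comp_emb
    Complex.measurableEquivPi.measurableEmbedding)] at h
  refine h.congr (Filter.Eventually.of_forall fun x => ?_)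
  simp only [Function.comp_apply]
  rw [Complex.measurableEquivPi_apply]
  simp only [Fin.sum_univ_two, Matrix.cons_val_zero, Matrix.cons_val_one]
  have hx : ((‖x‖ : ℂ)) ^ 2 = (x.re : ℂ) ^ 2 + (x.im : ℂ) ^ 2 := by
    rw [← ofReal_pow, Complex.sq_norm, Complex.normSq_apply]; push_cast; ring
  rw [hx]
  have h1 : x = x.re + x.im * I := (Complex.re_add_im x).symm
  have h2 : conj x = x.re - x.im * I := by
    apply Complex.ext <;> simp
  rw [h2]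
  congr 1
  conv_rhs => rw [h1]
  simp only [add_re, ofReal_re, mul_re, I_re, mul_zero, ofReal_im, I_im, mul_one, sub_self,
    add_zero, add_im, mul_im, zero_add]
  ring

/-- the Gaussian at one place -/
noncomputable def gs (z : ℂ) (h₁ h₂ : ℝ) (x : ℂ × ℂ) : ℂ :=
  cexp (4 * π * I * ((z * x.1 * x.2).re : ℂ) -
    2 * π * ((‖x.1‖ : ℂ) ^ 2 * (h₁ : ℂ) ^ 2 + (‖x.2‖ : ℂ) ^ 2 * (h₂ : ℂ) ^ 2))

theorem norm_gs (z : ℂ) (h₁ h₂ : ℝ) (x : ℂ × ℂ) :
    ‖gs z h₁ h₂ x‖ = Real.exp (-(2 * π * (‖x.1‖ ^ 2 * h₁ ^ 2 + ‖x.2‖ ^ 2 * h₂ ^ 2))) := by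
  rw [gs, Complex.norm_exp]
  congr 1
  have : (4 * π * I * ((z * x.1 * x.2).re : ℂ) -
    2 * π * ((‖x.1‖ : ℂ) ^ 2 * (h₁ : ℂ) ^ 2 + (‖x.2‖ : ℂ) ^ 2 * (h₂ : ℂ) ^ 2)) =
    ((4 * π * (z * x.1 * x.2).re : ℝ) : ℂ) * I +
      ((-(2 * π * (‖x.1‖ ^ 2 * h₁ ^ 2 + ‖x.2‖ ^ 2 * h₂ ^ 2)) : ℝ) : ℂ) := by
    push_cast; ring
  rw [this, add_re, re_ofReal_mul, I_re, mul_zero, zero_add, ofReal_re]

theorem continuous_gs (z : ℂ) (h₁ h₂ : ℝ) : Continuous (gs z h₁ h₂) := by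
  unfold gs
  fun_prop

/-- the duality pairing at one place -/
noncomputable def pr (x η : ℂ × ℂ) : ℂ := cexp (-(4 * π * I * ((x.1 * η.2 + x.2 * η.1).re : ℂ)))

theorem norm_pr (x η : ℂ × ℂ) : ‖pr x η‖ = 1 := by
  rw [pr, Complex.norm_exp]
  have : (-(4 * π * I * ((x.1 * η.2 + x.2 * η.1).re : ℂ))) =
    ((-(4 * π * (x.1 * η.2 + x.2 * η.1).re) : ℝ) : ℂ) * I := by push_cast; ring
  rw [this, re_ofReal_mul, I_re, mul_zero, Real.exp_zero]

theorem continuous_pr (η : ℂ × ℂ) : Continuous (fun x => pr x η) := by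
  unfold pr
  fun_prop

theorem integrable_gs (z : ℂ) {h₁ h₂ : ℝ} (p₁ : h₁ ≠ 0) (p₂ : h₂ ≠ 0) :
    Integrable (gs z h₁ h₂) := by
  have i1 := integrable_gauss_two (a := 2 * π * h₁ ^ 2) (by positivity) 0 0
  have i2 := integrable_gauss_two (a := 2 * π * h₂ ^ 2) (by positivity) 0 0
  have i3 := i1.mul_prod i2
  refine (i3.norm).mono' (continuous_gs z h₁ h₂).aestronglyMeasurable
    (Filter.Eventually.of_forall fun x => ?_)
  rw [norm_gs, norm_mul, Complex.norm_exp, Complex.norm_exp, ← Real.exp_add]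
  apply le_of_eq
  congr 1
  have e : ∀ (h : ℝ) (w : ℂ), (-((2 * π * h ^ 2 : ℝ) : ℂ) * (‖w‖ : ℂ) ^ 2 + (0 * w + 0 * conj w)) =
    ((-(2 * π * h ^ 2) * ‖w‖ ^ 2 : ℝ) : ℂ) := by
    intro h w; push_cast; ring
  rw [e, e, ofReal_re, ofReal_re]
  ring

/-- **Fourier transform of the Gaussian at one place.** -/
theorem integral_gs (z : ℂ) {h₁ h₂ : ℝ} (p₁ : 0 < h₁) (p₂ : 0 < h₂) (η : ℂ × ℂ) :
    ∫ x, gs z h₁ h₂ x * pr x η =
      (1 / (4 * (‖z‖ ^ 2 + (h₁ * h₂) ^ 2)) : ℝ) *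
        gs (-(conj z) / ((‖z‖ ^ 2 + (h₁ * h₂) ^ 2 : ℝ) : ℂ))
          (h₁ / Real.sqrt (‖z‖ ^ 2 + (h₁ * h₂) ^ 2))
          (h₂ / Real.sqrt (‖z‖ ^ 2 + (h₁ * h₂) ^ 2)) η := by
  set D : ℝ := ‖z‖ ^ 2 + (h₁ * h₂) ^ 2 with hD
  have hDpos : 0 < D := by positivity
  have hint : Integrable (fun x : ℂ × ℂ => gs z h₁ h₂ x * pr x η) := by
    refine (integrable_gs z p₁.ne' p₂.ne').mul_bdd (c := 1)
      (continuous_pr η).aestronglyMeasurable (Filter.Eventually.of_forall fun x => ?_)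
    rw [norm_pr]
  rw [Measure.volume_eq_prod, integral_prod_symm _ (by rwa [← Measure.volume_eq_prod])]
  have ha : 0 < 2 * π * h₁ ^ 2 := by positivity
  have hz2 : ((‖z‖ : ℂ)) ^ 2 = z * conj z := by
    rw [Complex.mul_conj, ← ofReal_pow, Complex.sq_norm]
  have step1 : ∀ x₂ : ℂ, ∫ x₁ : ℂ, gs z h₁ h₂ (x₁, x₂) * pr (x₁, x₂) η =
      (1 / (2 * h₁ ^ 2) : ℝ) * (cexp (-((2 * π * D / h₁ ^ 2 : ℝ) : ℂ) * (‖x₂‖ : ℂ) ^ 2 +
        ((2 * π * (z * conj η.2 / h₁ ^ 2 - I * η.1)) * x₂ +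
          (2 * π * (conj z * η.2 / h₁ ^ 2 - I * conj η.1)) * conj x₂)) *
        cexp (-(2 * π * (‖η.2‖ : ℂ) ^ 2 / h₁ ^ 2))) := by
    intro x₂
    have key : ∀ x₁ : ℂ, gs z h₁ h₂ (x₁, x₂) * pr (x₁, x₂) η =
        cexp (-(2 * π * (‖x₂‖ : ℂ) ^ 2 * h₂ ^ 2 + 4 * π * I * ((x₂ * η.1).re : ℂ))) *
        cexp (-((2 * π * h₁ ^ 2 : ℝ) : ℂ) * (‖x₁‖ : ℂ) ^ 2 +
          ((2 * π * I * (z * x₂ - η.2)) * x₁ + (2 * π * I * conj (z * x₂ - η.2)) * conj x₁)) := by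
      intro x₁
      rw [gs, pr, ← Complex.exp_add, ← Complex.exp_add]
      congr 1
      have r1 : ((z * x₁ * x₂).re : ℂ) = (z * x₁ * x₂ + conj (z * x₁ * x₂)) / 2 := by
        rw [Complex.add_conj]; push_cast; ring
      have r2 : ((x₁ * η.2 + x₂ * η.1).re : ℂ) =
          (x₁ * η.2 + conj (x₁ * η.2)) / 2 + ((x₂ * η.1).re : ℂ) := by
        rw [Complex.add_re, Complex.add_conj]; push_cast; ring
      simp only [r1, r2, map_mul, map_sub]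
      push_cast
      ring
    simp only [key]
    rw [integral_const_mul, integral_gauss_two ha, ← mul_assoc]
    have n1 : ((z * x₂ - η.2) * conj (z * x₂ - η.2)) =
        (‖z‖ : ℂ) ^ 2 * (‖x₂‖ : ℂ) ^ 2 - z * conj η.2 * x₂ - conj z * η.2 * conj x₂ +
          (‖η.2‖ : ℂ) ^ 2 := by
      have e1 : ((‖x₂‖ : ℂ)) ^ 2 = x₂ * conj x₂ := by
        rw [Complex.mul_conj, ← ofReal_pow, Complex.sq_norm]
      have e2 : ((‖η.2‖ : ℂ)) ^ 2 = η.2 * conj η.2 := by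
        rw [Complex.mul_conj, ← ofReal_pow, Complex.sq_norm]
      rw [hz2, e1, e2, map_sub, map_mul]
      ring
    have hh : (h₁ : ℂ) ≠ 0 := by exact_mod_cast p₁.ne'
    have hpi : (π : ℂ) ≠ 0 := by exact_mod_cast Real.pi_ne_zero
    have c1 : (π : ℂ) / ((2 * π * h₁ ^ 2 : ℝ) : ℂ) = ((1 / (2 * h₁ ^ 2) : ℝ) : ℂ) := by
      push_cast; field_simp
    rw [c1, mul_comm (cexp _) (((1 / (2 * h₁ ^ 2) : ℝ) : ℂ)), mul_assoc]
    congr 1
    rw [← Complex.exp_add, ← Complex.exp_add]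
    congr 1
    have r2 : ((x₂ * η.1).re : ℂ) = (x₂ * η.1 + conj x₂ * conj η.1) / 2 := by
      rw [← map_mul, Complex.add_conj]; push_cast; ring
    have e3 : (2 * ↑π * I * (z * x₂ - η.2)) * (2 * ↑π * I * conj (z * x₂ - η.2)) =
      -(4 * π ^ 2 * ((z * x₂ - η.2) * conj (z * x₂ - η.2))) := by
      have : (I : ℂ) * I = -1 := Complex.I_mul_I
      linear_combination (4 * π ^ 2 * (z * x₂ - η.2) * conj (z * x₂ - η.2)) * this
    rw [e3, n1, r2, hD]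
    push_cast
    field_simp
    ring
  have hDh : 0 < 2 * π * D / h₁ ^ 2 := by positivity
  simp only [step1]
  rw [integral_const_mul, integral_mul_const, integral_gauss_two hDh]
  have hh : (h₁ : ℂ) ≠ 0 := by exact_mod_cast p₁.ne'
  have hpi : (π : ℂ) ≠ 0 := by exact_mod_cast Real.pi_ne_zero
  have hDc : (D : ℂ) ≠ 0 := by exact_mod_cast hDpos.ne'
  have c2 : ((1 / (2 * h₁ ^ 2) : ℝ) : ℂ) * ((π : ℂ) / ((2 * π * D / h₁ ^ 2 : ℝ) : ℂ)) =
      ((1 / (4 * D) : ℝ) : ℂ) := by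
    push_cast; field_simp; ring
  rw [mul_assoc ((π : ℂ) / _), ← mul_assoc, c2]
  congr 1
  rw [gs, ← Complex.exp_add]
  congr 1
  have hs : ((Real.sqrt D : ℝ) : ℂ) ^ 2 = D := by
    rw [← ofReal_pow, Real.sq_sqrt hDpos.le]
  have q1 : (((h₁ / Real.sqrt D : ℝ)) : ℂ) ^ 2 = (h₁ : ℂ) ^ 2 / D := by
    push_cast; rw [div_pow, hs]
  have q2 : (((h₂ / Real.sqrt D : ℝ)) : ℂ) ^ 2 = (h₂ : ℂ) ^ 2 / D := by
    push_cast; rw [div_pow, hs]
  have q3 : ((-(conj z) / (D : ℂ) * η.1 * η.2).re : ℂ) =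
      -(conj z * η.1 * η.2 + z * conj η.1 * conj η.2) / (2 * D) := by
    have : ((-(conj z) / (D : ℂ) * η.1 * η.2).re : ℂ) =
      ((-(conj z) / (D : ℂ) * η.1 * η.2) + conj (-(conj z) / (D : ℂ) * η.1 * η.2)) / 2 := by
      rw [Complex.add_conj]; push_cast; ring
    rw [this]
    simp only [map_mul, map_div₀, map_neg, Complex.conj_conj, Complex.conj_ofReal]
    field_simp
    ring
  rw [q1, q2, q3]
  have e1 : ((‖η.1‖ : ℂ)) ^ 2 = η.1 * conj η.1 := by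
    rw [Complex.mul_conj, ← ofReal_pow, Complex.sq_norm]
  have e2 : ((‖η.2‖ : ℂ)) ^ 2 = η.2 * conj η.2 := by
    rw [Complex.mul_conj, ← ofReal_pow, Complex.sq_norm]
  rw [e1, e2]
  have e4 : (2 * ↑π * (z * conj η.2 / ↑h₁ ^ 2 - I * η.1)) *
      (2 * ↑π * (conj z * η.2 / ↑h₁ ^ 2 - I * conj η.1)) =
      4 * π ^ 2 * (z * conj z * (η.2 * conj η.2) / h₁ ^ 4 - η.1 * conj η.1 -
        I * (z * conj η.1 * conj η.2 + conj z * η.1 * η.2) / h₁ ^ 2) := by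
    have : (I : ℂ) * I = -1 := Complex.I_mul_I
    field_simp
    linear_combination (4 * h₁ ^ 4 * η.1 * conj η.1) * this
  rw [e4, ← hz2]
  have hDe : (D : ℂ) = (‖z‖ : ℂ) ^ 2 + (h₁ : ℂ) ^ 2 * (h₂ : ℂ) ^ 2 := by
    rw [hD]; push_cast; ring
  have hz3 : (‖z‖ : ℂ) ^ 2 = D - (h₁ : ℂ) ^ 2 * (h₂ : ℂ) ^ 2 := by
    rw [hDe]; ring
  push_cast
  rw [hz3]
  field_simp
  ring

end Fermat.Agent.LT.Theta
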