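import Fermat.Agent.LT.Theta.Trace
import Fermat.Agent.LT.Poisson

set_option autoImplicit false

/-! # Lattices in `L` and Poisson summation over them -/

namespace Fermat.Agent.LT.Theta

open Complex MeasureTheory NumberField
open scoped Real ComplexConjugate

/-- the archimedean completion of `L` for a quadratic extension `L` of the totally complex field `E` -/
abbrev V (E : Type*) [Field E] := InfinitePlace E → ℂ × ℂ

section

variable {E : Type*} [Field E] [NumberField E]

/-- the real pairing on `V` -/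
noncomputable def pair (u w : V E) : ℝ := ∑ v, 2 * ((u v).1 * (w v).2 + (u v).2 * (w v).1).re

theorem pair_add_left (u u' w : V E) : pair (u + u') w = pair u w + pair u' w := by
  unfold pair
  rw [← Finset.sum_add_distrib]
  apply Finset.sum_congr rfl
  intro v _
  simp only [Pi.add_apply, Prod.fst_add, Prod.snd_add, add_re, mul_re, add_im]
  ring

theorem pair_smul_left (c : ℝ) (u w : V E) : pair (c • u) w = c * pair u w := by
  unfold pair
  rw [Finset.mul_sum]
  apply Finset.sum_congr rfl
  intro v _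
  simp only [Pi.smul_apply, Prod.smul_fst, Prod.smul_snd, add_re, mul_re, Complex.real_smul,
    ofReal_re, ofReal_im, zero_mul, sub_zero, mul_im, add_zero]
  ring

theorem pair_comm (u w : V E) : pair u w = pair w u := by
  unfold pair
  apply Finset.sum_congr rfl
  intro v _
  rw [add_comm, mul_comm (u v).2, mul_comm (u v).1]

theorem pair_add_right (u w w' : V E) : pair u (w + w') = pair u w + pair u w' := by
  rw [pair_comm, pair_add_left, pair_comm w, pair_comm w']

theorem pair_smul_right (c : ℝ) (u w : V E) : pair u (c • w) = c * pair u w := by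
  rw [pair_comm, pair_smul_left, pair_comm w]

theorem pair_sum_left {κ : Type*} (s : Finset κ) (u : κ → V E) (w : V E) :
    pair (∑ i ∈ s, u i) w = ∑ i ∈ s, pair (u i) w := by
  classical
  induction s using Finset.induction_on with
  | empty => simp [pair]
  | insert i s hi ih => rw [Finset.sum_insert hi, Finset.sum_insert hi, pair_add_left, ih]

theorem pair_sum_right {κ : Type*} (s : Finset κ) (u : κ → V E) (w : V E) :
    pair w (∑ i ∈ s, u i) = ∑ i ∈ s, pair w (u i) := by
  rw [pair_comm, pair_sum_left]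
  exact Finset.sum_congr rfl fun i _ => pair_comm _ _

theorem continuous_pair (w : V E) : Continuous (fun u => pair u w) := by
  unfold pair
  fun_prop

/-- the additive character attached to `w` -/
noncomputable def chr (u w : V E) : ℂ := cexp (-(2 * π * I * (pair u w : ℂ)))

theorem chr_eq_prod (u w : V E) : chr u w = ∏ v, pr (u v) (w v) := by
  unfold chr pr pair
  rw [← Complex.exp_sum]
  congr 1
  push_cast
  rw [Finset.mul_sum, ← Finset.sum_neg_distrib]
  apply Finset.sum_congr rfl
  intro v _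
  ring

theorem norm_chr (u w : V E) : ‖chr u w‖ = 1 := by
  rw [chr_eq_prod, norm_prod]
  exact Finset.prod_eq_one fun v _ => norm_pr _ _

theorem continuous_chr (w : V E) : Continuous (fun u => chr u w) := by
  unfold chr
  have := continuous_pair w
  fun_prop

/-- the Fourier transform on `V` -/
noncomputable def ft (f : V E → ℂ) (w : V E) : ℂ := ∫ u, f u * chr u w

theorem finrank_V [IsTotallyComplex E] : Module.finrank ℝ (V E) = 2 * Module.finrank ℚ E := by
  have h1 : Module.finrank ℝ (ℂ × ℂ) = 4 := by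
    rw [Module.finrank_prod, Complex.finrank_real_complex]
  rw [Module.finrank_pi_fintype]
  simp only [h1, Finset.sum_const, Finset.card_univ, smul_eq_mul]
  have h2 := InfinitePlace.sum_mult_eq (K := E)
  have h3 : ∀ w : InfinitePlace E, InfinitePlace.mult w = 2 := fun w =>
    IsTotallyComplex.mult_eq w
  simp only [h3, Finset.sum_const, Finset.card_univ, smul_eq_mul] at h2
  omega

end

/-- Gaussian decay -/
def GaussBdd {W : Type*} [NormedAddCommGroup W] (f : W → ℂ) : Prop :=
  ∃ C a : ℝ, 0 < a ∧ 0 ≤ C ∧ ∀ v, ‖f v‖ ≤ C * Real.exp (-(a * ‖v‖ ^ 2))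

theorem exp_neg_sq_le {s : ℝ} (hs : 0 < s) : ∃ C : ℝ, 0 < C ∧ ∀ t : ℝ,
    Real.exp (-(s * t ^ 2)) ≤ C * (1 + t ^ 2)⁻¹ := by
  refine ⟨1 + s⁻¹, by positivity, fun t => ?_⟩
  rw [← div_eq_mul_inv, le_div_iff₀ (by positivity), Real.exp_neg]
  have h1 : 1 + s * t ^ 2 ≤ Real.exp (s * t ^ 2) := by
    have := Real.add_one_le_exp (s * t ^ 2); linarith
  have h2 : 0 < 1 + s * t ^ 2 := by positivity
  calc (Real.exp (s * t ^ 2))⁻¹ * (1 + t ^ 2) ≤ (1 + s * t ^ 2)⁻¹ * (1 + t ^ 2) := by
        gcongr
    _ ≤ 1 + s⁻¹ := by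
        rw [inv_mul_le_iff₀ h2]
        have : (1 + s * t ^ 2) * (1 + s⁻¹) = 1 + s⁻¹ + s * t ^ 2 + t ^ 2 := by
          field_simp
          ring
        rw [this]
        have h3 : 0 < s⁻¹ := by positivity
        nlinarith [mul_nonneg hs.le (sq_nonneg t)]

theorem GaussBdd.exists_pwt {W : Type*} [NormedAddCommGroup W] [NormedSpace ℝ W] {d : Type*}
    [Fintype d] {f : W → ℂ} (hf : GaussBdd f) (A : (d → ℝ) ≃L[ℝ] W) :
    ∃ C : ℝ, ∀ t, ‖f (A t)‖ ≤ C * pwt t := by
  obtain ⟨C, a, ha, hC0, hC⟩ := hf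
  have hA : ∃ c : ℝ, 0 < c ∧ ∀ t, c * ‖t‖ ≤ ‖A t‖ := by
    refine ⟨(‖(A.symm : W →L[ℝ] (d → ℝ))‖ + 1)⁻¹, by positivity, fun t => ?_⟩
    rw [inv_mul_le_iff₀ (by positivity)]
    have h1 := (A.symm : W →L[ℝ] (d → ℝ)).le_opNorm (A t)
    simp only [ContinuousLinearEquiv.coe_coe, ContinuousLinearEquiv.symm_apply_apply] at h1
    refine h1.trans ?_
    have := norm_nonneg (A t)
    nlinarith
  obtain ⟨c, hc, hA⟩ := hA
  set s : ℝ := a * c ^ 2 / (Fintype.card d + 1) with hs
  have hspos : 0 < s := by positivity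
  obtain ⟨C1, hC1, hexp⟩ := exp_neg_sq_le hspos
  refine ⟨C * C1 ^ Fintype.card d, fun t => (hC (A t)).trans ?_⟩
  rw [mul_assoc]
  apply mul_le_mul_of_nonneg_left _ hC0
  have h1 : s * ∑ i, t i ^ 2 ≤ a * ‖A t‖ ^ 2 := by
    have h2 : ∑ i, t i ^ 2 ≤ (Fintype.card d + 1) * ‖t‖ ^ 2 := by
      calc ∑ i, t i ^ 2 ≤ ∑ _i : d, ‖t‖ ^ 2 := by
            apply Finset.sum_le_sum
            intro i _
            have := norm_le_pi_norm t i
            rw [Real.norm_eq_abs] at this
            rw [← sq_abs]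
            gcongr
        _ = (Fintype.card d : ℝ) * ‖t‖ ^ 2 := by simp
        _ ≤ _ := by nlinarith [sq_nonneg ‖t‖]
    have h3 : (c * ‖t‖) ^ 2 ≤ ‖A t‖ ^ 2 := by
      have := hA t
      gcongr
    calc s * ∑ i, t i ^ 2 ≤ s * ((Fintype.card d + 1) * ‖t‖ ^ 2) := by gcongr
      _ = a * (c * ‖t‖) ^ 2 := by rw [hs]; field_simp
      _ ≤ _ := by gcongr
  calc Real.exp (-(a * ‖A t‖ ^ 2)) ≤ Real.exp (-(s * ∑ i, t i ^ 2)) := by
        apply Real.exp_le_exp.mpr; linarith
    _ = ∏ i, Real.exp (-(s * t i ^ 2)) := by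
        rw [← Real.exp_sum, Finset.mul_sum, Finset.sum_neg_distrib]
    _ ≤ ∏ i, (C1 * (1 + (t i) ^ 2)⁻¹) := by
        apply Finset.prod_le_prod
        · intro i _; positivity
        · intro i _; exact hexp _
    _ = C1 ^ Fintype.card d * pwt t := by
        rw [Finset.prod_mul_distrib]
        simp [pwt]

section

variable {W : Type*} [NormedAddCommGroup W] [NormedSpace ℝ W] [MeasurableSpace W] [BorelSpace W]
  [FiniteDimensional ℝ W] {d : Type*} [Fintype d]

/-- change of variables with an unspecified constant -/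
theorem exists_covol (μ : Measure W) [μ.IsAddHaarMeasure] (A : (d → ℝ) ≃L[ℝ] W) :
    ∃ κ : ℝ, 0 < κ ∧ ∀ f : W → ℂ, ∫ t : d → ℝ, f (A t) = κ * ∫ v, f v ∂μ := by
  have h0 : ProperSpace W := FiniteDimensional.proper ℝ W
  have h1 : (Measure.map A (volume : Measure (d → ℝ))).IsAddHaarMeasure :=
    A.isAddHaarMeasure_map volume
  have h2 := Measure.isAddLeftInvariant_eq_smul (Measure.map A (volume : Measure (d → ℝ))) μ
  refine ⟨(Measure.addHaarScalarFactor (Measure.map A (volume : Measure (d → ℝ))) μ : ℝ), ?_,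
    fun f => ?_⟩
  · exact_mod_cast Measure.addHaarScalarFactor_pos_of_isAddHaarMeasure _ _
  · have h3 : ∫ t : d → ℝ, f (A t) = ∫ v, f v ∂(Measure.map A (volume : Measure (d → ℝ))) := by
      exact (A.toHomeomorph.toMeasurableEquiv.measurableEmbedding.integral_map f).symm
    rw [h3]
    conv_lhs => rw [h2]
    rw [integral_smul_nnreal_measure, NNReal.smul_def, Complex.real_smul]

end

/-! ### bases of `L` and real coordinates on `V` -/

section

set_option linter.unusedSectionVars false

variable {E L : Type*} [Field E] [NumberField E] [Field L] [NumberField L] [Algebra E L]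
  [IsTotallyComplex E] (q : QD E L) {d : Type*} [Fintype d] [DecidableEq d]

theorem QD.bil_eq_pair (x η : L) : ((q.bil x η : ℚ) : ℝ) = pair (q.ι x) (q.ι η) := by
  have h := q.bil_eq x η
  have : ((((q.bil x η : ℚ) : ℝ)) : ℂ) = ((pair (q.ι x) (q.ι η) : ℝ) : ℂ) := by
    rw [pair]
    push_cast at h ⊢
    exact h
  exact_mod_cast this

theorem QD.ι_add (x y : L) : q.ι (x + y) = q.ι x + q.ι y := by
  funext v
  apply Prod.ext <;> simp [QD.ι]

theorem QD.ι_zero : q.ι (0 : L) = 0 := by
  funext v
  apply Prod.ext <;> simp [QD.ι]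

theorem QD.ι_neg (x : L) : q.ι (-x) = - q.ι x := by
  funext v
  apply Prod.ext <;> simp [QD.ι]

theorem QD.ι_sum {κ : Type*} (s : Finset κ) (x : κ → L) : q.ι (∑ i ∈ s, x i) = ∑ i ∈ s, q.ι (x i) := by
  classical
  induction s using Finset.induction_on with
  | empty => simp [q.ι_zero]
  | insert i s hi ih => rw [Finset.sum_insert hi, Finset.sum_insert hi, q.ι_add, ih]

theorem QD.ι_rat_smul (r : ℚ) (x : L) : q.ι (r • x) = (r : ℝ) • q.ι x := by
  funext v
  apply Prod.ext <;> simp [QD.ι, Algebra.smul_def]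

theorem QD.ι_int_smul (r : ℤ) (x : L) : q.ι (r • x) = (r : ℝ) • q.ι x := by
  funext v
  apply Prod.ext <;> simp [QD.ι]

theorem QD.ι_injective : Function.Injective q.ι := by
  intro x y h
  obtain ⟨v⟩ := (inferInstance : Nonempty (InfinitePlace E))
  have := congrArg Prod.fst (congrFun h v)
  exact (q.τ v).injective this

include q in
theorem QD.finrank_eq : Module.finrank ℝ (V E) = Module.finrank ℚ L := by
  have := q.finDim
  rw [finrank_V, ← Module.finrank_mul_finrank ℚ E L, q.two, mul_comm]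

/-- a pair of dual bases -/
structure DB (q : QD E L) (d : Type*) [Fintype d] [DecidableEq d] where
  b : Module.Basis d ℚ L
  b' : Module.Basis d ℚ L
  dual : ∀ i j, q.bil (b i) (b' j) = if i = j then 1 else 0

namespace DB

variable {q} (B : DB q d)

/-- the real coordinates -/
noncomputable def lin : (d → ℝ) →ₗ[ℝ] V E where
  toFun t := ∑ i, t i • q.ι (B.b i)
  map_add' s t := by
    rw [← Finset.sum_add_distrib]
    exact Finset.sum_congr rfl fun i _ => by rw [Pi.add_apply, add_smul]
  map_smul' c t := by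
    rw [RingHom.id_apply, Finset.smul_sum]
    exact Finset.sum_congr rfl fun i _ => by rw [Pi.smul_apply, smul_eq_mul, mul_smul]

theorem pair_lin (t : d → ℝ) (j : d) : pair (B.lin t) (q.ι (B.b' j)) = t j := by
  show pair (∑ i, t i • q.ι (B.b i)) _ = _
  rw [pair_sum_left]
  have h : ∀ i, pair (t i • q.ι (B.b i)) (q.ι (B.b' j)) = if i = j then t i else 0 := by
    intro i
    rw [pair_smul_left, ← q.bil_eq_pair, B.dual]
    split_ifs <;> simp
  rw [Finset.sum_congr rfl fun i _ => h i]
  simp

theorem lin_injective : Function.Injective B.lin := by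
  intro s t h
  funext j
  rw [← B.pair_lin s j, h, B.pair_lin]

/-- the linear isomorphism `ℝ^d ≃ V` -/
noncomputable def equ : (d → ℝ) ≃L[ℝ] V E :=
  (LinearEquiv.ofInjectiveOfFinrankEq B.lin B.lin_injective (by
    rw [q.finrank_eq, Module.finrank_fintype_fun_eq_card,
      Module.finrank_eq_card_basis B.b])).toContinuousLinearEquiv

theorem equ_apply (t : d → ℝ) : B.equ t = ∑ i, t i • q.ι (B.b i) := rfl

theorem pair_equ (t : d → ℝ) (j : d) : pair (B.equ t) (q.ι (B.b' j)) = t j := B.pair_lin t j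

/-- the element with integral coordinates -/
noncomputable def el (k : d → ℤ) : L := ∑ i, (k i) • B.b i

/-- the element with integral coordinates in the dual lattice -/
noncomputable def el' (k : d → ℤ) : L := ∑ i, (k i) • B.b' i

theorem ι_el (k : d → ℤ) : q.ι (B.el k) = B.equ (zc k) := by
  unfold el
  rw [q.ι_sum, B.equ_apply]
  exact Finset.sum_congr rfl fun i _ => q.ι_int_smul _ _

theorem bil_el' (x : L) (m : d → ℤ) : (q.bil x (B.el' m) : ℚ) = ∑ i, (m i) * q.bil x (B.b' i) := by
  have : ((q.bil x (B.el' m) : ℚ) : ℝ) = ((∑ i, (m i) * q.bil x (B.b' i) : ℚ) : ℝ) := by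
    rw [q.bil_eq_pair, el', q.ι_sum, pair_sum_right]
    push_cast
    apply Finset.sum_congr rfl
    intro i _
    rw [q.ι_int_smul, pair_smul_right, q.bil_eq_pair]
  exact_mod_cast this

/-- the real coordinates of `x ∈ L` -/
noncomputable def crd (x : L) : d → ℝ := fun i => (q.bil x (B.b' i) : ℝ)

theorem equ_crd (x : L) : B.equ (B.crd x) = q.ι x := by
  have h : ∀ t, B.equ t = q.ι x → B.crd x = t := by
    intro t ht
    funext j
    rw [← B.pair_equ t j, ht, crd, q.bil_eq_pair]
  obtain ⟨t, ht⟩ := B.equ.surjective (q.ι x)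
  rw [h t ht, ht]

theorem ι_add_el (x : L) (k : d → ℤ) : q.ι (x + B.el k) = B.equ (B.crd x + zc k) := by
  rw [q.ι_add, B.ι_el, map_add, B.equ_crd]

omit [NumberField L] [IsTotallyComplex E] in
theorem haar_V : (volume : Measure (V E)).IsAddHaarMeasure := by
  have h1 : (volume : Measure (ℂ × ℂ)).IsAddHaarMeasure := by
    rw [Measure.volume_eq_prod]; infer_instance
  rw [volume_pi]
  have h2 : ∀ i : InfinitePlace E,
      ((fun _ : InfinitePlace E => (volume : Measure (ℂ × ℂ))) i).IsAddHaarMeasure := fun _ => h1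
  exact Measure.pi.isAddHaarMeasure _

/-- the covolume constant: `∫_{ℝ^d} f(equ t) dt = κ ∫_V f` -/
noncomputable def κ : ℝ :=
  have := haar_V (E := E)
  (exists_covol (volume : Measure (V E)) B.equ).choose

theorem κ_pos : 0 < B.κ :=
  have := haar_V (E := E)
  (exists_covol (volume : Measure (V E)) B.equ).choose_spec.1

theorem κ_spec (f : V E → ℂ) : ∫ t : d → ℝ, f (B.equ t) = B.κ * ∫ v, f v :=
  have := haar_V (E := E)
  (exists_covol (volume : Measure (V E)) B.equ).choose_spec.2 f

theorem FT_comp (f : V E → ℂ) (m : d → ℤ) :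
    FT (fun t => f (B.equ t)) m = B.κ * ft f (q.ι (B.el' m)) := by
  unfold FT ft
  rw [← B.κ_spec (fun u => f u * chr u (q.ι (B.el' m)))]
  apply integral_congr_ae
  refine Filter.Eventually.of_forall fun t => ?_
  simp only
  rw [mul_comm]
  congr 1
  unfold ee chr
  congr 1
  have h1 : pair (B.equ t) (q.ι (B.el' m)) = ∑ i, (m i : ℝ) * t i := by
    rw [el', q.ι_sum, pair_sum_right]
    apply Finset.sum_congr rfl
    intro i _
    rw [q.ι_int_smul, pair_smul_right, B.pair_equ]
  rw [h1]
  push_cast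
  rw [Finset.mul_sum, Finset.mul_sum, ← Finset.sum_neg_distrib]
  apply Finset.sum_congr rfl
  intro i _
  simp only [Pi.neg_apply, Int.cast_neg]
  ring

/-- **Poisson summation** over the coset `x + ⊕ ℤ b i`. -/
theorem poisson_coset {f : V E → ℂ} (hf : Continuous f) (hg : GaussBdd f) (hg' : GaussBdd (ft f))
    (B' : DB q d) (hB' : B'.b = B.b') (x : L) :
    ∑' k : d → ℤ, f (q.ι (x + B.el k)) =
      B.κ * ∑' m : d → ℤ, cexp (2 * π * I * (q.bil x (B.el' m) : ℚ)) * ft f (q.ι (B.el' m)) := by
  obtain ⟨C, hC⟩ := hg.exists_pwt B.equ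
  have hs : Summable (fun m : d → ℤ => FT (fun t => f (B.equ t)) m) := by
    simp only [B.FT_comp]
    apply Summable.mul_left
    obtain ⟨C', hC'⟩ := hg'.exists_pwt B'.equ
    have h1 := summable_trans hC' 0
    refine h1.congr fun m => ?_
    rw [zero_add, ← B'.ι_el]
    unfold el el'
    rw [hB']
  have h := poisson (f := fun t => f (B.equ t)) (hf.comp B.equ.continuous) hC hs (B.crd x)
  simp only [← B.ι_add_el, B.FT_comp] at h
  rw [h, ← tsum_mul_left]
  apply tsum_congr
  intro m
  have : ee m (B.crd x) = cexp (2 * π * I * (q.bil x (B.el' m) : ℚ)) := by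
    unfold ee crd
    rw [B.bil_el']
    congr 2
    push_cast
    rfl
  rw [this]
  ring

end DB

end

end Fermat.Agent.LT.Theta
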