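import Fermat.Agent.LT.Theta.SB

set_option autoImplicit false

/-! # Poisson summation for Schwartz–Bruhat functions on `L` -/

namespace Fermat.Agent.LT.Theta

open Complex MeasureTheory NumberField Module
open scoped Real ComplexConjugate

set_option linter.unusedSectionVars false

variable {E L : Type*} [Field E] [NumberField E] [Field L] [NumberField L] [Algebra E L]
  [IsTotallyComplex E] (q : QD E L)

/-- `c` as a `ℚ`-linear equivalence -/
noncomputable def QD.cQ : L ≃ₗ[ℚ] L :=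
  (AlgEquiv.ofRingEquiv (f := q.c.toRingEquiv) (fun r => by simp) : L ≃ₐ[ℚ] L).toLinearEquiv

theorem QD.cQ_apply (x : L) : q.cQ x = q.c x := rfl

/-- the dual bases attached to the integral basis -/
noncomputable def QD.B0 : DB q (IB L) where
  b := integralBasis L
  b' := (integralBasis L).traceDual.map q.cQ
  dual i j := by
    unfold QD.bil
    rw [Basis.map_apply, q.cQ_apply, q.c_c, Basis.trace_mul_traceDual]

/-- exchanging the two bases -/
noncomputable def DB.flip {d : Type*} [Fintype d] [DecidableEq d] {q : QD E L} (B : DB q d) :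
    DB q d where
  b := B.b'
  b' := B.b
  dual i j := by
    rw [q.bil_comm, B.dual]
    by_cases h : i = j
    · subst h; simp
    · rw [if_neg h, if_neg (Ne.symm h)]

theorem QD.B0_el (k : IB L → ℤ) : q.B0.el k = el0 k := rfl

theorem QD.bil_sub_left (x x' η : L) : q.bil (x - x') η = q.bil x η - q.bil x' η := by
  unfold bil; rw [sub_mul, map_sub]

theorem QD.bil_natCast_mul (n : ℕ) (x η : L) : q.bil (n * x) η = n * q.bil x η := by
  unfold bil
  rw [mul_assoc, ← nsmul_eq_mul, map_nsmul, nsmul_eq_mul]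

theorem QD.bil_natCast_mul' (n : ℕ) (x η : L) : q.bil x (n * η) = n * q.bil x η := by
  rw [q.bil_comm, q.bil_natCast_mul, q.bil_comm]

theorem QD.bil_intCast_mul (n : ℤ) (x η : L) : q.bil (n * x) η = n * q.bil x η := by
  unfold bil
  rw [mul_assoc, ← zsmul_eq_mul, map_zsmul, zsmul_eq_mul]

theorem QD.bil_zero (η : L) : q.bil 0 η = 0 := by
  unfold bil; rw [zero_mul, map_zero]

theorem QD.bil_zero' (x : L) : q.bil x 0 = 0 := by
  rw [q.bil_comm, q.bil_zero]

/-- the finite part of the additive character: `e(Tr(x c(η)))` -/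
noncomputable def QD.ef (x η : L) : ℂ := cexp (2 * π * I * (q.bil x η : ℚ))

theorem QD.ef_comm (x η : L) : q.ef x η = q.ef η x := by
  unfold QD.ef; rw [q.bil_comm]

theorem QD.ef_add (x x' η : L) : q.ef (x + x') η = q.ef x η * q.ef x' η := by
  unfold QD.ef
  rw [← Complex.exp_add, q.bil_add_left]
  congr 1
  push_cast
  ring

theorem QD.ef_add_right (x η η' : L) : q.ef x (η + η') = q.ef x η * q.ef x η' := by
  rw [q.ef_comm, q.ef_add, q.ef_comm η, q.ef_comm η']

theorem QD.ef_ne_zero (x η : L) : q.ef x η ≠ 0 := Complex.exp_ne_zero _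

theorem QD.norm_ef (x η : L) : ‖q.ef x η‖ = 1 := by
  unfold QD.ef
  have : (2 * π * I * ((q.bil x η : ℚ) : ℂ)) = ((2 * π * ((q.bil x η : ℚ) : ℝ) : ℝ) : ℂ) * I := by
    push_cast; ring
  rw [this, Complex.norm_exp_ofReal_mul_I]

theorem exp_eq_one_iff_rat (r : ℚ) : cexp (2 * π * I * (r : ℂ)) = 1 ↔ ∃ n : ℤ, r = n := by
  rw [Complex.exp_eq_one_iff]
  have hpi : (2 * π * I : ℂ) ≠ 0 := Complex.two_pi_I_ne_zero
  constructor
  · rintro ⟨n, hn⟩
    refine ⟨n, ?_⟩
    have : (r : ℂ) = n := by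
      apply mul_left_cancel₀ hpi
      rw [hn]; ring
    exact_mod_cast this
  · rintro ⟨n, hn⟩
    refine ⟨n, ?_⟩
    rw [hn]
    push_cast
    ring

theorem QD.ef_eq_one_iff (x η : L) : q.ef x η = 1 ↔ ∃ n : ℤ, q.bil x η = n :=
  exp_eq_one_iff_rat _

theorem isIntegral_rat {r : ℚ} (h : IsIntegral ℤ r) : ∃ n : ℤ, r = n := by
  obtain ⟨n, hn⟩ := IsIntegrallyClosed.isIntegral_iff.mp h
  exact ⟨n, by simpa using hn.symm⟩

theorem QD.bil_int {x η : L} (hx : IsIntegral ℤ x) (hη : IsIntegral ℤ η) :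
    ∃ n : ℤ, q.bil x η = n := by
  apply isIntegral_rat
  unfold QD.bil
  apply Algebra.isIntegral_trace
  apply hx.mul
  exact hη.map (q.c.toAlgHom.restrictScalars ℤ)

theorem QD.ef_locC (η : L) : LocC (fun x => q.ef x η) := by
  intro n hn
  obtain ⟨m, hm, hη⟩ := exists_nat_mul_isIntegral η
  refine ⟨m, hm, fun x y _ hy => ?_⟩
  show q.ef (x + m * y) η = q.ef x η
  rw [q.ef_add]
  have : q.ef (m * y) η = 1 := by
    rw [q.ef_eq_one_iff, q.bil_natCast_mul, ← q.bil_natCast_mul']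
    exact q.bil_int hy hη
  rw [this, mul_one]

/-- the Fourier transform of a Schwartz–Bruhat function -/
noncomputable def QD.ff (Ψ : L → ℂ) (η : L) : ℂ := mean (fun x => Ψ x * q.ef x η)

theorem QD.ff_eq_zero {n : ℕ} (hn : 0 < n) {Ψ : L → ℂ} (h : SBn n Ψ) {η : L}
    (hη : q.ff Ψ η ≠ 0) : ∃ m : IB L → ℤ, η = q.B0.el' m / n := by
  have hn' : (n : L) ≠ 0 := by exact_mod_cast hn.ne'
  have hnq : (n : ℚ) ≠ 0 := by exact_mod_cast hn.ne'
  have hsb : SB (fun x => Ψ x * q.ef x η) := SB.mul_locC ⟨n, hn, h⟩ (q.ef_locC η)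
  have key : ∀ y, IsIntegral ℤ y → q.ef (n * y) η = 1 := by
    intro y hy
    have h1 := mean_comp_add hsb (n * y)
    have h2 : (fun x => Ψ (x + n * y) * q.ef (x + n * y) η) =
        fun x => q.ef (n * y) η * (Ψ x * q.ef x η) := by
      funext x
      rw [h.2 x y hy, q.ef_add]
      ring
    rw [h2, mean_const_mul hsb] at h1
    have h3 : (q.ef (n * y) η - 1) * q.ff Ψ η = 0 := by
      unfold QD.ff
      rw [sub_mul, h1]; ring
    rcases mul_eq_zero.mp h3 with h4 | h4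
    · exact sub_eq_zero.mp h4
    · exact absurd h4 hη
  have h5 : ∀ i, ∃ k : ℤ, q.bil (integralBasis L i) (n * η) = k := by
    intro i
    have h6 := key (integralBasis L i) (by
      rw [integralBasis_apply]; exact RingOfIntegers.isIntegral_coe _)
    rw [q.ef_eq_one_iff, q.bil_natCast_mul, ← q.bil_natCast_mul'] at h6
    exact h6
  choose m hm using h5
  refine ⟨m, ?_⟩
  have h7 : (n : L) * η = q.B0.el' m := by
    rw [← sub_eq_zero]
    apply q.bil_nondeg
    intro x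
    rw [q.bil_comm]
    have hx : x = ∑ i, (integralBasis L).repr x i • integralBasis L i :=
      ((integralBasis L).sum_repr x).symm
    have h8 : ∀ i, q.bil (integralBasis L i) (n * η - q.B0.el' m) = 0 := by
      intro i
      rw [q.bil_comm, q.bil_sub_left, q.bil_comm, hm i, q.bil_comm, q.B0.bil_el']
      have : ∀ j, q.bil (integralBasis L i) (q.B0.b' j) = if i = j then 1 else 0 := q.B0.dual i
      simp only [this, mul_ite, mul_one, mul_zero, Finset.sum_ite_eq, Finset.mem_univ, if_true,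
        sub_self]
    rw [hx]
    unfold QD.bil at h8 ⊢
    rw [Finset.sum_mul, map_sum]
    apply Finset.sum_eq_zero
    intro i _
    rw [smul_mul_assoc, map_smul, h8 i, smul_zero]
  rw [eq_div_iff hn', ← h7, mul_comm]

theorem exists_basis_denominator {d : Type*} [Fintype d] (b : d → L) :
    ∃ M : ℕ, 0 < M ∧ ∀ i, IsIntegral ℤ ((M : L) * b i) := by
  classical
  choose m hm h using fun i => exists_nat_mul_isIntegral (b i)
  refine ⟨∏ i, m i, Finset.prod_pos fun i _ => hm i, fun i => ?_⟩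
  rw [← Finset.mul_prod_erase _ _ (Finset.mem_univ i)]
  have : ((m i * ∏ x ∈ Finset.univ.erase i, m x : ℕ) : L) * b i =
      ((∏ x ∈ Finset.univ.erase i, m x : ℕ) : L) * (m i * b i) := by
    push_cast; ring
  rw [this]
  exact isIntegral_natCast_mul _ (h i)

theorem QD.ff_SB {Ψ : L → ℂ} (h : SB Ψ) : SB (q.ff Ψ) := by
  obtain ⟨n, hn, h⟩ := h
  obtain ⟨M, hM, hb⟩ := exists_basis_denominator (fun i => q.B0.b' i)
  have hn' : (n : L) ≠ 0 := by exact_mod_cast hn.ne'
  refine ⟨M * n, Nat.mul_pos hM hn, fun η hη => ?_, fun η y hy => ?_⟩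
  · obtain ⟨m, hm⟩ := q.ff_eq_zero hn h hη
    have : ((M * n : ℕ) : L) * η = ∑ i, (m i : L) * (M * q.B0.b' i) := by
      rw [hm, DB.el']
      push_cast
      rw [mul_assoc, mul_div_cancel₀ _ hn', Finset.mul_sum]
      apply Finset.sum_congr rfl
      intro i _
      rw [zsmul_eq_mul]; ring
    rw [this]
    apply IsIntegral.sum
    intro i _
    exact (isIntegral_algebraMap (R := ℤ) (x := m i)).mul (hb i)
  · unfold QD.ff
    congr 1
    funext x
    by_cases h0 : Ψ x = 0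
    · rw [h0, zero_mul, zero_mul]
    · congr 1
      rw [q.ef_add_right]
      have : q.ef x (((M * n : ℕ) : L) * y) = 1 := by
        rw [q.ef_eq_one_iff]
        have e : q.bil x (((M * n : ℕ) : L) * y) = q.bil (n * x) (M * y) := by
          rw [q.bil_natCast_mul', q.bil_natCast_mul, q.bil_natCast_mul']
          push_cast; ring
        rw [e]
        exact q.bil_int (h.1 x h0) (isIntegral_natCast_mul M hy)
      rw [this, mul_one]

/-- scaling of the Fourier transform on `V` -/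
theorem ft_scale (f : V E → ℂ) {n : ℝ} (hn : 0 < n) (w : V E) :
    ft (fun v => f (n • v)) w = ((n : ℂ) ^ finrank ℝ (V E))⁻¹ * ft f (n⁻¹ • w) := by
  have := DB.haar_V (E := E)
  unfold ft
  have h := Measure.integral_comp_smul (volume : Measure (V E)) (fun u => f u * chr u (n⁻¹ • w)) n
  have e : ∀ u : V E, chr (n • u) (n⁻¹ • w) = chr u w := by
    intro u
    unfold chr
    rw [pair_smul_left, pair_smul_right]
    congr 3
    field_simp
  simp only [e] at h
  rw [h, abs_of_pos (by positivity), Complex.real_smul]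
  push_cast
  rfl

theorem GaussBdd.scale {W : Type*} [NormedAddCommGroup W] [NormedSpace ℝ W] {f : W → ℂ}
    (hf : GaussBdd f) {n : ℝ} (hn : 0 < n) : GaussBdd (fun v => f (n • v)) := by
  obtain ⟨C, a, ha, hC0, hC⟩ := hf
  refine ⟨C, a * n ^ 2, by positivity, hC0, fun v => ?_⟩
  refine (hC _).trans (le_of_eq ?_)
  rw [norm_smul, Real.norm_eq_abs, abs_of_pos hn]
  congr 2
  ring

theorem GaussBdd.const_mul {W : Type*} [NormedAddCommGroup W] {f : W → ℂ}
    (hf : GaussBdd f) (c : ℂ) : GaussBdd (fun v => c * f v) := by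
  obtain ⟨C, a, ha, hC0, hC⟩ := hf
  refine ⟨‖c‖ * C, a, ha, by positivity, fun v => ?_⟩
  rw [norm_mul, mul_assoc]
  gcongr
  exact hC v

/-- reindexing sums of Schwartz–Bruhat functions -/
theorem SBn.tsum_eq {n : ℕ} (hn : 0 < n) {Ψ : L → ℂ} (h : SBn n Ψ) (g : L → ℂ) :
    ∑' x, Ψ x * g x = ∑' k : IB L → ℤ, Ψ (el0 k / n) * g (el0 k / n) := by
  have hn' : (n : L) ≠ 0 := by exact_mod_cast hn.ne'
  have hinj : Function.Injective (fun k : IB L → ℤ => (el0 k : L) / n) := by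
    intro k l hkl
    apply el0_injective
    have := congrArg (fun x => x * (n : L)) hkl
    simpa [div_mul_cancel₀ _ hn'] using this
  refine (hinj.tsum_eq (f := fun x => Ψ x * g x) ?_).symm
  intro x hx
  have h1 : Ψ x ≠ 0 := left_ne_zero_of_mul hx
  obtain ⟨k, hk⟩ := exists_el0 (h.1 x h1)
  refine ⟨k, ?_⟩
  show el0 k / (n : L) = x
  rw [hk]
  field_simp

theorem SBn.bounded {n : ℕ} (hn : 0 < n) {Ψ : L → ℂ} (h : SBn n Ψ) : ∃ C : ℝ, 0 ≤ C ∧ ∀ x, ‖Ψ x‖ ≤ C := by
  classical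
  have hn' : (n : L) ≠ 0 := by exact_mod_cast hn.ne'
  have hN : NeZero (n ^ 2) := ⟨by positivity⟩
  refine ⟨∑ r : IB L → Fin (n ^ 2), ‖Ψ (el0 (fun i => ((r i : ℕ) : ℤ)) / n)‖,
    Finset.sum_nonneg fun _ _ => norm_nonneg _, fun x => ?_⟩
  by_cases h0 : Ψ x = 0
  · rw [h0, norm_zero]; exact Finset.sum_nonneg fun _ _ => norm_nonneg _
  obtain ⟨k, hk⟩ := exists_el0 (h.1 x h0)
  have hx : x = el0 k / n := by rw [hk]; field_simp
  set p := splitEquiv (n ^ 2) k with hp
  have h1 : k = ((n ^ 2 : ℕ) : ℤ) • p.1 + (fun i => ((p.2 i : ℕ) : ℤ)) := by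
    rw [← splitEquiv_symm_apply, hp, Equiv.symm_apply_apply]
  have h2 : Ψ x = Ψ (el0 (fun i => ((p.2 i : ℕ) : ℤ)) / n) := by
    rw [hx, h1, add_comm]
    exact h.per hn _ _
  rw [h2]
  exact Finset.single_le_sum (f := fun r : IB L → Fin (n ^ 2) =>
    ‖Ψ (el0 (fun i => ((r i : ℕ) : ℤ)) / n)‖) (fun _ _ => norm_nonneg _) (Finset.mem_univ p.2)

theorem summable_SBn {n : ℕ} (hn : 0 < n) {Ψ : L → ℂ} (h : SBn n Ψ) {f : V E → ℂ}
    (hg : GaussBdd f) : Summable (fun k : IB L → ℤ => Ψ (el0 k / n) * f (q.ι (el0 k / n))) := by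
  obtain ⟨C, hC0, hC⟩ := h.bounded hn
  have hnr : (0 : ℝ) < n := by exact_mod_cast hn
  obtain ⟨C', hC'⟩ := ((hg.scale (inv_pos.mpr hnr)).exists_pwt q.B0.equ)
  have h1 := summable_trans (f := fun t => f ((n : ℝ)⁻¹ • q.B0.equ t)) hC' 0
  refine Summable.of_norm_bounded (g := fun k => C * ‖f ((n : ℝ)⁻¹ • q.B0.equ (0 + zc k))‖)
    (h1.norm.mul_left C) (fun k => ?_)
  rw [norm_mul, zero_add, ← q.B0.ι_el, q.B0_el]
  have e : q.ι (el0 k / n) = (n : ℝ)⁻¹ • q.ι (el0 k) := by
    have : (el0 k : L) / n = ((n : ℚ)⁻¹) • el0 k := by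
      rw [Rat.smul_def]; push_cast; ring
    rw [this, q.ι_rat_smul]
    push_cast; rfl
  rw [e]
  gcongr
  exact hC _

theorem summable_SB {Ψ : L → ℂ} (h : SB Ψ) {f : V E → ℂ}
    (hg : GaussBdd f) : Summable (fun x : L => Ψ x * f (q.ι x)) := by
  obtain ⟨n, hn, h⟩ := h
  have hn' : (n : L) ≠ 0 := by exact_mod_cast hn.ne'
  have hinj : Function.Injective (fun k : IB L → ℤ => (el0 k : L) / n) := by
    intro k l hkl
    apply el0_injective
    have := congrArg (fun x => x * (n : L)) hkl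
    simpa [div_mul_cancel₀ _ hn'] using this
  refine (hinj.summable_iff (f := fun x => Ψ x * f (q.ι x)) ?_).mp (summable_SBn q hn h hg)
  intro x hx
  by_contra h0
  have h1 : Ψ x ≠ 0 := left_ne_zero_of_mul h0
  obtain ⟨k, hk⟩ := exists_el0 (h.1 x h1)
  apply hx
  refine ⟨k, ?_⟩
  show el0 k / (n : L) = x
  rw [hk]
  field_simp

/-- the constant of Poisson summation -/
noncomputable def QD.κ : ℝ := q.B0.κ

theorem QD.κ_pos : 0 < q.κ := q.B0.κ_pos

/-- **Poisson summation** for Schwartz–Bruhat functions. -/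
theorem poisson_SB {Ψ : L → ℂ} (h : SB Ψ) {f : V E → ℂ} (hf : Continuous f) (hg : GaussBdd f)
    (hg' : GaussBdd (ft f)) :
    ∑' x, Ψ x * f (q.ι x) = q.κ * ∑' η, q.ff Ψ η * ft f (q.ι η) := by
  have hSB := h
  obtain ⟨n, hn, h⟩ := h
  have hn' : (n : L) ≠ 0 := by exact_mod_cast hn.ne'
  have hnr : (0 : ℝ) < n := by exact_mod_cast hn
  have hnc : (n : ℂ) ≠ 0 := by exact_mod_cast hn.ne'
  have hN : NeZero (n ^ 2) := ⟨by positivity⟩
  have ιdiv : ∀ x : L, q.ι (x / n) = (n : ℝ)⁻¹ • q.ι x := by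
    intro x
    have : x / n = ((n : ℚ)⁻¹) • x := by
      rw [Rat.smul_def]; push_cast; ring
    rw [this, q.ι_rat_smul]
    push_cast; rfl
  rw [h.tsum_eq hn (fun x => f (q.ι x)), tsum_split (N := n ^ 2) (summable_SBn q hn h hg)]
  -- the inner sums
  have hfs : Continuous (fun v : V E => f ((n : ℝ) • v)) := hf.comp (continuous_const_smul _)
  have hft : ft (fun v : V E => f ((n : ℝ) • v)) =
      fun w => (((n : ℝ) : ℂ) ^ finrank ℝ (V E))⁻¹ * ft f ((n : ℝ)⁻¹ • w) := by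
    funext w; exact ft_scale f hnr w
  have hgs' : GaussBdd (ft (fun v : V E => f ((n : ℝ) • v))) := by
    rw [hft]
    exact (hg'.scale (inv_pos.mpr hnr)).const_mul _
  have step1 : ∀ r : IB L → ℤ,
      (∑' k : IB L → ℤ, Ψ (el0 (r + ((n ^ 2 : ℕ) : ℤ) • k) / n) *
        f (q.ι (el0 (r + ((n ^ 2 : ℕ) : ℤ) • k) / n))) =
      Ψ (el0 r / n) * (q.κ * ∑' m : IB L → ℤ, q.ef (el0 r / n) (q.B0.el' m / n) *
        (((n : ℂ) ^ finrank ℚ L)⁻¹ * ft f (q.ι (q.B0.el' m / n)))) := by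
    intro r
    have e1 : ∀ k : IB L → ℤ, (el0 (r + ((n ^ 2 : ℕ) : ℤ) • k) : L) / n =
        n * (el0 r / n ^ 2 + q.B0.el k) := by
      intro k
      rw [el0_add, el0_smul, q.B0_el]
      push_cast
      field_simp
    have e2 : ∀ k : IB L → ℤ, Ψ (el0 (r + ((n ^ 2 : ℕ) : ℤ) • k) / n) = Ψ (el0 r / n) :=
      fun k => h.per hn r k
    have e3 : ∀ k : IB L → ℤ, f (q.ι (el0 (r + ((n ^ 2 : ℕ) : ℤ) • k) / n)) =
        (fun v : V E => f ((n : ℝ) • v)) (q.ι (el0 r / n ^ 2 + q.B0.el k)) := by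
      intro k
      rw [e1]
      show _ = f ((n : ℝ) • _)
      congr 1
      have : (n : L) * (el0 r / n ^ 2 + q.B0.el k) = ((n : ℚ)) • (el0 r / n ^ 2 + q.B0.el k) := by
        rw [Rat.smul_def]; push_cast; ring
      rw [this, q.ι_rat_smul]
      push_cast; rfl
    simp only [e2, e3]
    rw [tsum_mul_left]
    congr 1
    rw [q.B0.poisson_coset hfs (hg.scale hnr) hgs' q.B0.flip rfl]
    show (q.κ : ℂ) * _ = _
    congr 1
    apply tsum_congr
    intro m
    rw [hft]
    simp only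
    rw [q.finrank_eq, ← ιdiv]
    congr 1
    unfold QD.ef
    congr 2
    have : q.bil (el0 r / n) (q.B0.el' m / n) = q.bil (el0 r / n ^ 2) (q.B0.el' m) := by
      have e4 : (el0 r : L) / n = n * (el0 r / n ^ 2) := by field_simp
      rw [e4, q.bil_natCast_mul, ← q.bil_natCast_mul']
      congr 1
      field_simp
    rw [this]
  rw [boxSum_congr _ step1]
  -- exchange
  have hsum : ∀ r : IB L → ℤ, Summable (fun m : IB L → ℤ => q.ef (el0 r / n) (q.B0.el' m / n) *
        (((n : ℂ) ^ finrank ℚ L)⁻¹ * ft f (q.ι (q.B0.el' m / n)))) := by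
    intro r
    obtain ⟨C', hC'⟩ := ((hg'.scale (inv_pos.mpr hnr)).exists_pwt q.B0.flip.equ)
    have h1 := summable_trans (f := fun t => ft f ((n : ℝ)⁻¹ • q.B0.flip.equ t)) hC' 0
    refine Summable.of_norm_bounded
      (g := fun k => ‖((n : ℂ) ^ finrank ℚ L)⁻¹‖ * ‖ft f ((n : ℝ)⁻¹ • q.B0.flip.equ (0 + zc k))‖)
      (h1.norm.mul_left _) (fun k => ?_)
    rw [norm_mul, q.norm_ef, one_mul, norm_mul, zero_add, ← q.B0.flip.ι_el, ιdiv]
    rfl
  unfold boxSum
  have h2 : ∀ r : IB L → Fin (n ^ 2), Ψ (el0 (fun i => ((r i : ℕ) : ℤ)) / n) *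
      (q.κ * ∑' m : IB L → ℤ, q.ef (el0 (fun i => ((r i : ℕ) : ℤ)) / n) (q.B0.el' m / n) *
        (((n : ℂ) ^ finrank ℚ L)⁻¹ * ft f (q.ι (q.B0.el' m / n)))) =
      q.κ * ∑' m : IB L → ℤ, Ψ (el0 (fun i => ((r i : ℕ) : ℤ)) / n) *
        (q.ef (el0 (fun i => ((r i : ℕ) : ℤ)) / n) (q.B0.el' m / n) *
        (((n : ℂ) ^ finrank ℚ L)⁻¹ * ft f (q.ι (q.B0.el' m / n)))) := by
    intro r
    rw [tsum_mul_left]; ring
  rw [Finset.sum_congr rfl fun r _ => h2 r, ← Finset.mul_sum,
    ← Summable.tsum_finsetSum fun r _ => (hsum _).mul_left _]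
  congr 1
  -- identify the coefficients
  have h3 : ∀ m : IB L → ℤ, (∑ r : IB L → Fin (n ^ 2), Ψ (el0 (fun i => ((r i : ℕ) : ℤ)) / n) *
        (q.ef (el0 (fun i => ((r i : ℕ) : ℤ)) / n) (q.B0.el' m / n) *
        (((n : ℂ) ^ finrank ℚ L)⁻¹ * ft f (q.ι (q.B0.el' m / n))))) =
      q.ff Ψ (q.B0.el' m / n) * ft f (q.ι (q.B0.el' m / n)) := by
    intro m
    have h4 : SBn n (fun x => Ψ x * q.ef x (q.B0.el' m / n)) := by
      refine ⟨fun x hx => h.1 x (left_ne_zero_of_mul hx), fun x y hy => ?_⟩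
      show Ψ (x + n * y) * q.ef (x + n * y) _ = _
      rw [h.2 x y hy, q.ef_add]
      have : q.ef (n * y) (q.B0.el' m / n) = 1 := by
        rw [q.ef_eq_one_iff, q.bil_natCast_mul, ← q.bil_natCast_mul', mul_div_cancel₀ _ hn']
        obtain ⟨k, hk⟩ := exists_el0 hy
        rw [← hk, q.B0.bil_el']
        have h5 : ∀ i, ∃ z : ℤ, q.bil (el0 k) (q.B0.b' i) = z := by
          intro i
          refine ⟨k i, ?_⟩
          rw [q.bil_comm]
          have := q.B0.flip.bil_el' (q.B0.b' i) k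
          have e5 : q.B0.flip.el' k = el0 k := rfl
          rw [e5] at this
          rw [this]
          have h6 : ∀ j, q.bil (q.B0.b' i) (q.B0.flip.b' j) = if i = j then 1 else 0 :=
            q.B0.flip.dual i
          simp [h6]
        choose z hz using h5
        refine ⟨∑ i, m i * z i, ?_⟩
        push_cast
        exact Finset.sum_congr rfl fun i _ => by rw [hz i]
      rw [this, mul_one]
    unfold QD.ff
    rw [mean_eq hn h4]
    unfold meanN boxSum
    rw [Finset.mul_sum, Finset.sum_mul]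
    apply Finset.sum_congr rfl
    intro r _
    ring
  simp only [h3]
  -- reindex
  have hinj : Function.Injective (fun m : IB L → ℤ => q.B0.el' m / (n : L)) := by
    intro k l hkl
    have h1 : q.B0.el' k = q.B0.el' l := by
      have := congrArg (fun x => x * (n : L)) hkl
      simpa [div_mul_cancel₀ _ hn'] using this
    have h2 : q.B0.equ.symm = q.B0.equ.symm := rfl
    have h3 := congrArg q.ι h1
    have e6 : ∀ k, q.B0.el' k = q.B0.flip.el k := fun _ => rfl
    rw [e6, e6, q.B0.flip.ι_el, q.B0.flip.ι_el] at h3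
    have h4 := q.B0.flip.equ.injective h3
    funext i
    have := congrFun h4 i
    unfold zc at this
    exact_mod_cast this
  refine hinj.tsum_eq (f := fun η => q.ff Ψ η * ft f (q.ι η)) ?_
  intro η hη
  obtain ⟨m, hm⟩ := q.ff_eq_zero hn h (left_ne_zero_of_mul hη)
  exact ⟨m, hm.symm⟩

end Fermat.Agent.LT.Theta
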