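import Fermat.Agent.LT.Theta.Conv
import Fermat.Agent.LT.T4.Char

set_option autoImplicit false

/-! # Convergence of theta series attached to `S`-ideals -/

namespace Fermat.Agent.LT.Theta

open Complex MeasureTheory NumberField Module Matrix Filter Topology
open Fermat.Agent.LT.T4
open scoped Real ComplexConjugate ENNReal

set_option linter.unusedSectionVars false

section mix

variable {N : ℕ} {L : Type*} [Field L] [NumberField L]

/-- the ideal of `𝓞_L` with component `a` away from `N` and `b` at `N` -/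
def mixId (N : ℕ) (a b : L) : Ideal (𝓞 L) where
  carrier := {t | (t : L) / a ∈ SI N L ∧ (t : L) / b ∈ LI N L}
  add_mem' := by
    rintro s t ⟨h1, h2⟩ ⟨h3, h4⟩
    constructor
    · show ((s : L) + t) / a ∈ _
      rw [add_div]
      exact (SI N L).add_mem h1 h3
    · show ((s : L) + t) / b ∈ _
      rw [add_div]
      exact (LI N L).add_mem h2 h4
  zero_mem' := by
    constructor
    · show (0 : L) / a ∈ _
      rw [zero_div]
      exact (SI N L).zero_mem
    · show (0 : L) / b ∈ _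
      rw [zero_div]
      exact (LI N L).zero_mem
  smul_mem' := by
    rintro c t ⟨h1, h2⟩
    constructor
    · show ((c : L) * t) / a ∈ _
      rw [mul_div_assoc]
      exact (SI N L).mul_mem (SI_of_isIntegral c.isIntegral_coe) h1
    · show ((c : L) * t) / b ∈ _
      rw [mul_div_assoc]
      exact (LI N L).mul_mem (LI_of_isIntegral c.isIntegral_coe) h2

theorem mem_mixId {a b : L} {t : 𝓞 L} :
    t ∈ mixId N a b ↔ (t : L) / a ∈ SI N L ∧ (t : L) / b ∈ LI N L := Iff.rfl

theorem exists_coprime_mul_mem_SI (hN : 0 < N) (t : L) :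
    ∃ m : ℕ, m ≠ 0 ∧ m.Coprime N ∧ (m : L) * t ∈ SI N L := by
  obtain ⟨m, hm, hx⟩ := exists_nat_integral t
  obtain ⟨m₁, m₂, k, h1, h2, c, h3⟩ := exists_coprime_part hN m hm
  have hm₁ : m₁ ≠ 0 := by rintro rfl; simp at h1; exact hm h1
  refine ⟨m₁, hm₁, h2, k, ?_⟩
  have e' : (N : L) ^ k = m₂ * c := by exact_mod_cast congrArg (fun z : ℕ => (z : L)) h3
  have : (N : L) ^ k * ((m₁ : L) * t) = c * ((m : L) * t) := by
    rw [e', h1]; push_cast; ring
  rw [this]
  exact (isIntegral_natCast' c).mul hx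

theorem mixId_SI (hN : 0 < N) {a b a' b' : L} (ha : a ≠ 0) (haS : a ∈ SI N L)
    (h : mixId N a b ≤ mixId N a' b') : a / a' ∈ SI N L := by
  have hN' : (N : L) ≠ 0 := by exact_mod_cast hN.ne'
  obtain ⟨k, hk⟩ := pow_mul_mem_LI hN (a / b)
  obtain ⟨j, hj⟩ := haS
  -- t = N ^ (k + j) a
  let t : 𝓞 L := ⟨(N : L) ^ (k + j) * a, by
    rw [pow_add, mul_assoc]
    exact ((isIntegral_natCast' N).pow k).mul hj⟩
  have ht : t ∈ mixId N a b := by
    constructor
    · show (N : L) ^ (k + j) * a / a ∈ _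
      rw [mul_div_cancel_right₀ _ ha]
      exact SI_of_isIntegral ((isIntegral_natCast' N).pow _)
    · show (N : L) ^ (k + j) * a / b ∈ _
      have : (N : L) ^ (k + j) * a / b = (N : L) ^ j * ((N : L) ^ k * (a / b)) := by
        rw [pow_add]; ring
      rw [this]
      exact (LI N L).mul_mem (LI_of_isIntegral ((isIntegral_natCast' N).pow _)) hk
  have h1 : (N : L) ^ (k + j) * a / a' ∈ SI N L := (h ht).1
  have : a / a' = ((N : L)⁻¹) ^ (k + j) * ((N : L) ^ (k + j) * a / a') := by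
    rw [inv_pow]; field_simp
  rw [this]
  exact (SI N L).mul_mem ((SI N L).pow_mem (inv_mem_SI hN) _) h1

theorem mixId_LI (hN : 0 < N) {a b a' b' : L} (ha : a ≠ 0) (hb : b ≠ 0) (haS : a ∈ SI N L)
    (hbL : b ∈ LI N L) (h : mixId N a b ≤ mixId N a' b') : b / b' ∈ LI N L := by
  obtain ⟨m, hm0, hm, hmS⟩ := exists_coprime_mul_mem_SI hN (b / a)
  have hm' : (m : L) ≠ 0 := by exact_mod_cast hm0
  have hS : (m : L) * b ∈ SI N L := by
    have : (m : L) * b = (m : L) * (b / a) * a := by field_simp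
    rw [this]
    exact (SI N L).mul_mem hmS haS
  have hL : (m : L) * b ∈ LI N L :=
    (LI N L).mul_mem (LI_of_isIntegral (isIntegral_natCast' m)) hbL
  let t : 𝓞 L := ⟨(m : L) * b, isIntegral_of_SI_LI hS hL⟩
  have ht : t ∈ mixId N a b := by
    constructor
    · show (m : L) * b / a ∈ _
      rw [mul_div_assoc]; exact hmS
    · show (m : L) * b / b ∈ _
      rw [mul_div_cancel_right₀ _ hb]
      exact LI_of_isIntegral (isIntegral_natCast' m)
  have h1 : (m : L) * b / b' ∈ LI N L := (h ht).2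
  have : b / b' = (m : L)⁻¹ * ((m : L) * b / b') := by field_simp
  rw [this]
  exact (LI N L).mul_mem (inv_mem_LI hm0 hm) h1

theorem absNorm_mixId_le {a b : L} {t : 𝓞 L} (ht : t ∈ mixId N a b) (h0 : t ≠ 0) :
    (Ideal.absNorm (mixId N a b) : ℝ) ≤ |((Algebra.norm ℚ (t : L) : ℚ) : ℝ)| := by
  have h1 := Ideal.absNorm_dvd_norm_of_mem ht
  have h2 : Algebra.norm ℤ t ≠ 0 := Algebra.norm_ne_zero_iff.mpr h0
  have h3 : (Ideal.absNorm (mixId N a b) : ℤ) ≤ |Algebra.norm ℤ t| :=
    Int.le_of_dvd (abs_pos.mpr h2) ((dvd_abs _ _).mpr h1)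
  have h4 : (Algebra.norm ℚ (t : L) : ℚ) = (Algebra.norm ℤ t : ℤ) :=
    (Algebra.coe_norm_int t).symm
  rw [h4]
  exact_mod_cast h3

end mix

section

variable {N : ℕ} {E L : Type*} [Field E] [NumberField E] [Field L] [NumberField L] [Algebra E L]

theorem SI_algebraMap {x : E} (h : x ∈ SI N E) : algebraMap E L x ∈ SI N L := by
  obtain ⟨k, hk⟩ := h
  refine ⟨k, ?_⟩
  have := hk.map (algebraMap E L).toIntAlgHom
  simpa using this

theorem LI_algebraMap {x : E} (h : x ∈ LI N E) : algebraMap E L x ∈ LI N L := by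
  obtain ⟨k, hk, hx⟩ := h
  refine ⟨k, hk, ?_⟩
  have := hx.map (algebraMap E L).toIntAlgHom
  simpa using this

variable (q : QD E L)

theorem SI_c {x : L} (h : x ∈ SI N L) : q.c x ∈ SI N L := by
  obtain ⟨k, hk⟩ := h
  refine ⟨k, ?_⟩
  have := hk.map (q.c : L ≃ₐ[E] L).toRingEquiv.toRingHom.toIntAlgHom
  simpa using this

theorem LI_c {x : L} (h : x ∈ LI N L) : q.c x ∈ LI N L := by
  obtain ⟨k, hk, hx⟩ := h
  refine ⟨k, hk, ?_⟩
  have := hx.map (q.c : L ≃ₐ[E] L).toRingEquiv.toRingHom.toIntAlgHom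
  simpa using this

end

section main

variable {N : ℕ} {E L : Type*} [Field E] [NumberField E] [Field L] [NumberField L] [Algebra E L]
  [IsTotallyComplex E] (q : QD E L) {G S : Type*} [Group G] [Countable G] [Countable S]
  [MulAction G S] (i : G →* Lˣ)

theorem rep_eq (o : Orb i S) : (Quotient.mk (MulAction.orbitRel G (S × XL i)) (rep o)) = o :=
  Quotient.out_eq o

include q in
/-- **Orbits and ideals**, for theta series attached to `S`-ideals: `b s` is a generator
of the `𝓞_L[1/N]`-ideal `s`, of norm `c` up to units; `G` contains all elements of norm one which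
are units at `N`. -/
theorem exists_ideal_data (hN : 0 < N)
    (hi : ∀ u : Lˣ, Algebra.norm E (u : L) = 1 → (u : L) ∈ LI N L → ((u : L)⁻¹) ∈ LI N L →
      ∃ g, i g = u)
    {b : S → L} (hb0 : ∀ s, b s ≠ 0)
    (hb : ∀ s s', b s / b s' ∈ SI N L → b s' / b s ∈ SI N L → s = s')
    (hbg : ∀ (g : G) s, b (g • s) / ((i g : Lˣ) * b s) ∈ SI N L ∧
      ((i g : Lˣ) * b s) / b (g • s) ∈ SI N L)
    {c : E} (hc : c ≠ 0) (hbc : ∀ s, c / Algebra.norm E (b s) ∈ SI N E)
    {Ψ : S → L → ℂ} (k : ℕ) (hΨ1 : ∀ s x, Ψ s x ≠ 0 → b s * x ∈ SI N L)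
    (hΨ2 : ∀ s x, Ψ s x ≠ 0 → (N : L) ^ k * x ∈ LI N L) :
    ∃ (a : Orb i S → Ideal (𝓞 L)) (M : ℕ) (C1 : ℝ), 0 < M ∧ 0 ≤ C1 ∧
      (∀ o o' : Orb i S, Ψ (rep o).1 (rep o).2.val ≠ 0 → Ψ (rep o').1 (rep o').2.val ≠ 0 →
        Algebra.norm E (rep o).2.val = Algebra.norm E (rep o').2.val → a o = a o' → o = o') ∧
      (∀ o : Orb i S, Ψ (rep o).1 (rep o).2.val ≠ 0 →
        IsIntegral ℤ ((M : E) * Algebra.norm E (rep o).2.val)) ∧
      (∀ o : Orb i S, Ψ (rep o).1 (rep o).2.val ≠ 0 → (Ideal.absNorm (a o) : ℝ) ≤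
        C1 * |((Algebra.norm ℚ (Algebra.norm E (rep o).2.val) : ℚ) : ℝ)| ^ 2) := by
  classical
  have hfin := q.finDim
  have hN' : (N : L) ≠ 0 := by exact_mod_cast hN.ne'
  have hNE : (N : E) ≠ 0 := by exact_mod_cast hN.ne'
  -- constants
  obtain ⟨m0, hm0, hm0i⟩ := exists_nat_integral (c⁻¹)
  have hm0' : (m0 : E) ≠ 0 := by exact_mod_cast hm0
  -- the basic facts on the support
  have hnx : ∀ x : L, x ≠ 0 → Algebra.norm E x ≠ 0 := fun x hx => Algebra.norm_ne_zero_iff.mpr hx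
  -- `m0 N^(2k) ξ / (b s x) ∈ SI`
  have g1 : ∀ s (x : L), x ≠ 0 → Ψ s x ≠ 0 →
      (algebraMap E L ((m0 : E) * (N : E) ^ (2 * k) * Algebra.norm E x)) / (b s * x) ∈
        SI N L := by
    intro s x hx h
    have h1 := hΨ1 s x h
    have h2 := SI_c q h1
    have h3 : algebraMap E L (Algebra.norm E (b s * x)) = (b s * x) * q.c (b s * x) :=
      q.norm_eq _
    have hbx : b s * x ≠ 0 := mul_ne_zero (hb0 s) hx
    have h4 : (algebraMap E L ((m0 : E) * (N : E) ^ (2 * k) * Algebra.norm E x)) / (b s * x) =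
        algebraMap E L ((m0 : E) * c⁻¹) * (N : L) ^ (2 * k) *
          algebraMap E L (c / Algebra.norm E (b s)) * q.c (b s * x) := by
      have h5 : algebraMap E L (Algebra.norm E x) = (b s * x) * q.c (b s * x) /
          algebraMap E L (Algebra.norm E (b s)) := by
        rw [← h3, map_mul (Algebra.norm E), map_mul, mul_div_cancel_left₀]
        rw [Ne, map_eq_zero]
        exact hnx _ (hb0 s)
      have hc' : algebraMap E L c ≠ 0 := by rw [Ne, map_eq_zero]; exact hc
      have hn' : algebraMap E L (Algebra.norm E (b s)) ≠ 0 := by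
        rw [Ne, map_eq_zero]; exact hnx _ (hb0 s)
      have e1 : algebraMap E L ((m0 : E) * (N : E) ^ (2 * k) * Algebra.norm E x) =
          (m0 : L) * (N : L) ^ (2 * k) * ((b s * x) * q.c (b s * x) /
          algebraMap E L (Algebra.norm E (b s))) := by
        rw [← h5]; simp
      have e2 : algebraMap E L ((m0 : E) * c⁻¹) = (m0 : L) * (algebraMap E L c)⁻¹ := by simp
      have hbs := hb0 s
      rw [e1, e2, map_div₀]
      field_simp
    rw [h4]
    refine (SI N L).mul_mem ((SI N L).mul_mem ((SI N L).mul_mem ?_ ?_) ?_) h2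
    · exact SI_algebraMap (SI_of_isIntegral hm0i)
    · exact SI_of_isIntegral ((isIntegral_natCast' N).pow _)
    · exact SI_algebraMap (hbc s)
  have g2 : ∀ s (x : L), x ≠ 0 → Ψ s x ≠ 0 →
      (algebraMap E L ((m0 : E) * (N : E) ^ (2 * k) * Algebra.norm E x)) / ((N : L) ^ k * x) ∈
        LI N L := by
    intro s x hx h
    have h1 := LI_c q (hΨ2 s x h)
    have h4 : (algebraMap E L ((m0 : E) * (N : E) ^ (2 * k) * Algebra.norm E x)) /
        ((N : L) ^ k * x) = (m0 : L) * q.c ((N : L) ^ k * x) := by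
      rw [map_mul, map_mul, q.norm_eq, map_natCast, map_pow, map_natCast, map_mul, map_pow,
        map_natCast, two_mul, pow_add]
      field_simp
    rw [h4]
    exact (LI N L).mul_mem (LI_of_isIntegral (isIntegral_natCast' m0)) h1
  -- integrality of `m0 m1 N^(2k) ξ`
  have g3 : ∀ s (x : L), x ≠ 0 → Ψ s x ≠ 0 →
      IsIntegral ℤ (algebraMap E L ((m0 : E) * (N : E) ^ (2 * k) * Algebra.norm E x)) := by
    intro s x hx h
    apply isIntegral_of_SI_LI (N := N)
    · have := (SI N L).mul_mem (g1 s x hx h) (hΨ1 s x h)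
      rwa [div_mul_cancel₀] at this
      exact mul_ne_zero (hb0 s) hx
    · have := (LI N L).mul_mem (g2 s x hx h) (hΨ2 s x h)
      rwa [div_mul_cancel₀] at this
      exact mul_ne_zero (pow_ne_zero _ hN') hx
  have g3' : ∀ s (x : L), x ≠ 0 → Ψ s x ≠ 0 →
      IsIntegral ℤ (((m0 * N ^ (2 * k) : ℕ) : E) * Algebra.norm E x) := by
    intro s x hx h
    have := g3 s x hx h
    rw [isIntegral_algebraMap_iff (FaithfulSMul.algebraMap_injective E L)] at this
    push_cast
    exact this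
  let a : Orb i S → Ideal (𝓞 L) := fun o =>
    mixId N (b (rep o).1 * (rep o).2.val) ((N : L) ^ k * (rep o).2.val)
  let M : ℕ := m0 * N ^ (2 * k)
  have hM : 0 < M := Nat.mul_pos (Nat.pos_of_ne_zero hm0) (pow_pos hN _)
  have hv : ∀ o : Orb i S, (rep o).2.val ≠ 0 := fun o => XL.val_ne i _
  refine ⟨a, M, (M : ℝ) ^ finrank ℚ L, hM, by positivity, ?_, ?_, ?_⟩
  · -- injectivity
    intro o o' h1 h1' hξ ha
    set s := (rep o).1 with hs
    set s' := (rep o').1 with hs'
    set x := (rep o).2.val with hx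
    set x' := (rep o').2.val with hx'
    have hx0 : x ≠ 0 := hv o
    have hx0' : x' ≠ 0 := hv o'
    have ha' : mixId N (b s * x) ((N : L) ^ k * x) = mixId N (b s' * x') ((N : L) ^ k * x') := ha
    have n1 : b s * x ≠ 0 := mul_ne_zero (hb0 _) hx0
    have n1' : b s' * x' ≠ 0 := mul_ne_zero (hb0 _) hx0'
    have n2 : (N : L) ^ k * x ≠ 0 := mul_ne_zero (pow_ne_zero _ hN') hx0
    have n2' : (N : L) ^ k * x' ≠ 0 := mul_ne_zero (pow_ne_zero _ hN') hx0'
    have e1 := mixId_SI hN n1 (hΨ1 _ _ h1) ha'.le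
    have e2 := mixId_SI hN n1' (hΨ1 _ _ h1') ha'.ge
    have e3 := mixId_LI hN n1 n2 (hΨ1 _ _ h1) (hΨ2 _ _ h1) ha'.le
    have e4 := mixId_LI hN n1' n2' (hΨ1 _ _ h1') (hΨ2 _ _ h1') ha'.ge
    have e5 : (N : L) ^ k * x / ((N : L) ^ k * x') = x / x' := by field_simp
    have e6 : (N : L) ^ k * x' / ((N : L) ^ k * x) = x' / x := by field_simp
    rw [e5] at e3
    rw [e6] at e4
    let u : Lˣ := Units.mk0 (x / x') (div_ne_zero hx0 hx0')
    obtain ⟨g, hg⟩ := hi u (by
      show Algebra.norm E (x / x') = 1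
      have e8 : Algebra.norm E (x / x') * Algebra.norm E x' = Algebra.norm E x := by
        rw [← map_mul, div_mul_cancel₀ _ hx0']
      have e9 : Algebra.norm E x = Algebra.norm E x' := hξ
      rw [e9] at e8
      exact (mul_eq_right₀ (hnx _ hx0')).mp e8) e3
      (by
        show (x / x')⁻¹ ∈ LI N L
        rw [inv_div]; exact e4)
    have hgu : ((i g : Lˣ) : L) = x / x' := congrArg Units.val hg
    obtain ⟨k1, k2⟩ := hbg g s
    rw [hgu] at k1 k2
    have hss : g • s = s' := by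
      apply hb
      · have : b (g • s) / b s' = (b (g • s) / (x / x' * b s)) * (b s * x / (b s' * x')) := by
          have := hb0 s
          have := hb0 s'
          field_simp
        rw [this]
        exact (SI N L).mul_mem k1 e1
      · have : b s' / b (g • s) = ((x / x' * b s) / b (g • s)) * (b s' * x' / (b s * x)) := by
          have := hb0 s
          have := hb0 (g • s)
          field_simp
        rw [this]
        exact (SI N L).mul_mem k2 e2
    rw [← rep_eq i o, ← rep_eq i o']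
    symm
    apply Quotient.sound
    refine MulAction.orbitRel_apply.mpr ⟨g, ?_⟩
    show g • rep o = rep o'
    apply Prod.ext
    · exact hss
    · apply Units.ext
      show ((g • (rep o).2 : XL i)).val = (rep o').2.val
      rw [XL.smul_val, hgu]
      show (x / x')⁻¹ * x = x'
      field_simp
  · -- integrality
    intro o h
    exact g3' _ _ (hv o) h
  · -- norm bound
    intro o h1
    have hint := g3 _ _ (hv o) h1
    let t : 𝓞 L := ⟨_, hint⟩
    have ht : t ∈ a o := ⟨g1 _ _ (hv o) h1, g2 _ _ (hv o) h1⟩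
    have hne : (m0 : E) * (N : E) ^ (2 * k) * Algebra.norm E (rep o).2.val ≠ 0 :=
      mul_ne_zero (mul_ne_zero hm0' (pow_ne_zero _ hNE)) (hnx _ (hv o))
    have ht0 : t ≠ 0 := by
      intro h
      have h2 : (t : L) = 0 := by rw [h]; rfl
      have h3 : algebraMap E L ((m0 : E) * (N : E) ^ (2 * k) *
        Algebra.norm E (rep o).2.val) = 0 := h2
      rw [map_eq_zero] at h3
      exact hne h3
    have h2 := absNorm_mixId_le ht ht0
    refine h2.trans (le_of_eq ?_)
    have e0 : (t : L) = algebraMap E L (((M : ℚ) : E) * Algebra.norm E (rep o).2.val) := by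
      show algebraMap E L ((m0 : E) * (N : E) ^ (2 * k) * Algebra.norm E (rep o).2.val) = _
      congr 2
      show _ = (((m0 * N ^ (2 * k) : ℕ) : ℚ) : E)
      push_cast
      ring
    rw [e0, ← Algebra.norm_norm (S := E), Algebra.norm_algebraMap, q.two, mul_pow, map_mul]
    have e7 : Algebra.norm ℚ ((((M : ℚ) : E)) ^ 2) = ((M : ℚ) ^ finrank ℚ L) := by
      rw [map_pow]
      have : Algebra.norm ℚ (((M : ℚ) : E)) = (M : ℚ) ^ finrank ℚ E := by
        have := Algebra.norm_algebraMap (S := E) (M : ℚ)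
        rw [← this]
        simp
      rw [this, ← pow_mul]
      congr 1
      rw [← q.two, Module.finrank_mul_finrank]
    rw [e7, map_pow]
    push_cast
    rw [abs_mul, abs_pow, abs_pow, Nat.abs_cast]

include q in
/-- **Convergence with majorant**, for theta series attached to `S`-ideals. -/
theorem exists_majorant (hN : 0 < N)
    (hi : ∀ u : Lˣ, Algebra.norm E (u : L) = 1 → (u : L) ∈ LI N L → ((u : L)⁻¹) ∈ LI N L →
      ∃ g, i g = u)
    {b : S → L} (hb0 : ∀ s, b s ≠ 0)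
    (hb : ∀ s s', b s / b s' ∈ SI N L → b s' / b s ∈ SI N L → s = s')
    (hbg : ∀ (g : G) s, b (g • s) / ((i g : Lˣ) * b s) ∈ SI N L ∧
      ((i g : Lˣ) * b s) / b (g • s) ∈ SI N L)
    {c : E} (hc : c ≠ 0) (hbc : ∀ s, c / Algebra.norm E (b s) ∈ SI N E)
    {Ψ : S → L → ℂ} (k : ℕ) (hΨ1 : ∀ s x, Ψ s x ≠ 0 → b s * x ∈ SI N L)
    (hΨ2 : ∀ s x, Ψ s x ≠ 0 → (N : L) ^ k * x ∈ LI N L)
    {C2 : ℝ} (hC2 : ∀ s x, ‖Ψ s x‖ ≤ C2) {ε : ℝ} (hε : 0 < ε) {j : ℕ} (hj : 2 ≤ j) :
    ∃ u : Orb i S → ℝ, Summable u ∧ (∀ o, 0 ≤ u o) ∧ ∀ p : HF E, (∀ v, ε ≤ (p v).y) →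
      ∀ o : Orb i S, ‖Ψ (rep o).1 (rep o).2.val‖ * bwn p (Algebra.norm E (rep o).2.val) ≤
        u o * (ht p ^ (2 * j + 1))⁻¹ := by
  have hfin := q.finDim
  obtain ⟨a, M, C1, hM, hC1, h1, h2, h3⟩ :=
    exists_ideal_data q i hN hi hb0 hb hbg hc hbc k hΨ1 hΨ2
  refine conv_main (ξ := fun o : Orb i S => Algebra.norm E (rep o).2.val) (𝔞 := a)
    (A := fun o => ‖Ψ (rep o).1 (rep o).2.val‖) ?_ hM ?_ ?_
    (C1 := C1) hC1 (m := 2) ?_ (le_max_right C2 0) ?_ hε hj
  · intro o o' h h' hξ ha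
    exact h1 o o' (norm_ne_zero_iff.mp h) (norm_ne_zero_iff.mp h') hξ ha
  · intro o h
    exact h2 o (norm_ne_zero_iff.mp h)
  · intro o _
    exact Algebra.norm_ne_zero_iff.mpr (XL.val_ne i _)
  · intro o h
    exact h3 o (norm_ne_zero_iff.mp h)
  · intro o
    exact (hC2 _ _).trans (le_max_left _ _)

end main

end Fermat.Agent.LT.Theta
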