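import Fermat.Agent.LT.Theta.Poi
import Fermat.Agent.LT.Sp.Def

set_option autoImplicit false

/-! # The theta kernel attached to a quadratic extension of a totally complex field -/

namespace Fermat.Agent.LT.Theta

open Complex MeasureTheory NumberField Module Matrix
open scoped Real ComplexConjugate

set_option linter.unusedSectionVars false

/-- the Weyl element -/
noncomputable def wMat (E : Type*) [Field E] : GL (Fin 2) E :=
  GeneralLinearGroup.mkOfDetNeZero !![0, -1; 1, 0] (by simp [Matrix.det_fin_two])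

theorem wMat_coe (E : Type*) [Field E] : ((wMat E : GL (Fin 2) E) : Matrix (Fin 2) (Fin 2) E) =
    !![0, -1; 1, 0] := rfl

section

variable {E : Type*} [Field E]

theorem wMat_smul_z (p : HF E) (v : InfinitePlace E) :
    ((wMat E • p) v).z = -(conj (p v).z) / ((‖(p v).z‖ ^ 2 + (p v).y ^ 2 : ℝ) : ℂ) := by
  rw [smul_HF_apply, H3.smul_z]
  have e1 : (embGL v (wMat E)) 0 0 = 0 := by rw [embGL_apply, wMat_coe]; simp
  have e2 : (embGL v (wMat E)) 0 1 = -1 := by rw [embGL_apply, wMat_coe]; simp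
  have e3 : (embGL v (wMat E)) 1 0 = 1 := by rw [embGL_apply, wMat_coe]; simp
  have e4 : (embGL v (wMat E)) 1 1 = 0 := by rw [embGL_apply, wMat_coe]; simp
  rw [e1, e2, e3, e4]
  simp [H3.num, H3.den]

theorem wMat_smul_y (p : HF E) (v : InfinitePlace E) :
    ((wMat E • p) v).y = (p v).y / (‖(p v).z‖ ^ 2 + (p v).y ^ 2) := by
  rw [smul_HF_apply, H3.smul_y, det_embGL]
  have e3 : (embGL v (wMat E)) 1 0 = 1 := by rw [embGL_apply, wMat_coe]; simp
  have e4 : (embGL v (wMat E)) 1 1 = 0 := by rw [embGL_apply, wMat_coe]; simp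
  rw [e3, e4, wMat_coe]
  simp [H3.den, Matrix.det_fin_two]

theorem aMat_smul_z [NumberField E] (a : Eˣ) (p : HF E) (v : InfinitePlace E) :
    ((Sp.aMat a • p) v).z = v.embedding a * (p v).z := by
  rw [smul_HF_apply, H3.smul_z]
  have e1 : (embGL v (Sp.aMat a)) 0 0 = v.embedding a := by rw [embGL_apply, Sp.aMat_coe]; simp
  have e2 : (embGL v (Sp.aMat a)) 0 1 = 0 := by rw [embGL_apply, Sp.aMat_coe]; simp
  have e3 : (embGL v (Sp.aMat a)) 1 0 = 0 := by rw [embGL_apply, Sp.aMat_coe]; simp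
  have e4 : (embGL v (Sp.aMat a)) 1 1 = 1 := by rw [embGL_apply, Sp.aMat_coe]; simp
  rw [e1, e2, e3, e4]
  simp [H3.num, H3.den]

theorem aMat_smul_y [NumberField E] (a : Eˣ) (p : HF E) (v : InfinitePlace E) :
    ((Sp.aMat a • p) v).y = ‖v.embedding (a : E)‖ * (p v).y := by
  rw [smul_HF_apply, H3.smul_y, det_embGL]
  have e3 : (embGL v (Sp.aMat a)) 1 0 = 0 := by rw [embGL_apply, Sp.aMat_coe]; simp
  have e4 : (embGL v (Sp.aMat a)) 1 1 = 1 := by rw [embGL_apply, Sp.aMat_coe]; simp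
  rw [e3, e4, Sp.aMat_coe]
  simp [H3.den]

end

section

variable {E L : Type*} [Field E] [NumberField E] [Field L] [NumberField L] [Algebra E L]
  [IsTotallyComplex E] (q : QD E L)

/-- the Gaussian on `V` attached to `p ∈ ∏ H³` and `τ ∈ ℝ^r` -/
noncomputable def gf (p : HF E) (τ : InfinitePlace E → ℝ) (u : V E) : ℂ :=
  ∏ v, gs (p v).z (Real.sqrt (p v).y * Real.exp (τ v)) (Real.sqrt (p v).y * Real.exp (-τ v)) (u v)

theorem continuous_gf (p : HF E) (τ : InfinitePlace E → ℝ) : Continuous (gf p τ) := by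
  unfold gf
  exact continuous_finsetProd _ fun v _ => (continuous_gs _ _ _).comp (continuous_apply v)

theorem norm_gf (p : HF E) (τ : InfinitePlace E → ℝ) (u : V E) :
    ‖gf p τ u‖ = Real.exp (-(2 * π * ∑ v, (p v).y *
      (‖(u v).1‖ ^ 2 * Real.exp (2 * τ v) + ‖(u v).2‖ ^ 2 * Real.exp (-(2 * τ v))))) := by
  unfold gf
  rw [norm_prod, Finset.mul_sum, ← Finset.sum_neg_distrib, Real.exp_sum]
  apply Finset.prod_congr rfl
  intro v _
  rw [norm_gs]
  congr 1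
  have h1 : Real.sqrt (p v).y ^ 2 = (p v).y := Real.sq_sqrt (p v).pos.le
  have h2 : Real.exp (2 * τ v) = Real.exp (τ v) ^ 2 := by
    rw [← Real.exp_nat_mul]; push_cast; ring_nf
  have h3 : Real.exp (-(2 * τ v)) = Real.exp (-τ v) ^ 2 := by
    rw [← Real.exp_nat_mul]; push_cast; ring_nf
  rw [mul_pow, mul_pow, h1, h2, h3]
  ring

theorem gaussBdd_of_norm_le {f : V E → ℂ} {m : ℝ} (hm : 0 < m)
    (h : ∀ u, ‖f u‖ ≤ Real.exp (-(m * ∑ v, (‖(u v).1‖ ^ 2 + ‖(u v).2‖ ^ 2)))) : GaussBdd f := by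
  refine ⟨1, m, hm, zero_le_one, fun u => ?_⟩
  rw [one_mul]
  refine (h u).trans (Real.exp_le_exp.mpr ?_)
  rw [neg_le_neg_iff]
  apply mul_le_mul_of_nonneg_left _ hm.le
  have hs0 : 0 ≤ ∑ v, (‖(u v).1‖ ^ 2 + ‖(u v).2‖ ^ 2) :=
    Finset.sum_nonneg fun v _ => by positivity
  have h1 : ‖u‖ ≤ Real.sqrt (∑ v, (‖(u v).1‖ ^ 2 + ‖(u v).2‖ ^ 2)) := by
    apply (pi_norm_le_iff_of_nonneg (Real.sqrt_nonneg _)).mpr
    intro v
    apply Real.le_sqrt_of_sq_le
    have h2 : ‖u v‖ ^ 2 ≤ ‖(u v).1‖ ^ 2 + ‖(u v).2‖ ^ 2 := by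
      rw [Prod.norm_def]
      rcases le_total ‖(u v).1‖ ‖(u v).2‖ with h | h
      · rw [max_eq_right h]; nlinarith [sq_nonneg ‖(u v).1‖]
      · rw [max_eq_left h]; nlinarith [sq_nonneg ‖(u v).2‖]
    refine h2.trans ?_
    exact Finset.single_le_sum (f := fun v => ‖(u v).1‖ ^ 2 + ‖(u v).2‖ ^ 2)
      (fun v _ => by positivity) (Finset.mem_univ v)
  calc ‖u‖ ^ 2 ≤ (Real.sqrt (∑ v, (‖(u v).1‖ ^ 2 + ‖(u v).2‖ ^ 2))) ^ 2 := by gcongr
    _ = _ := Real.sq_sqrt hs0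

theorem exists_pos_le_all {ι : Type*} [Finite ι] (f : ι → ℝ) (hf : ∀ i, 0 < f i) :
    ∃ m : ℝ, 0 < m ∧ ∀ i, m ≤ f i := by
  classical
  rcases isEmpty_or_nonempty ι with h | h
  · exact ⟨1, one_pos, fun i => (h.false i).elim⟩
  · obtain ⟨i, hi⟩ := Finite.exists_min f
    exact ⟨f i, hf i, hi⟩

theorem gaussBdd_gf (p : HF E) (τ : InfinitePlace E → ℝ) : GaussBdd (gf p τ) := by
  obtain ⟨m1, hm1, h1⟩ := exists_pos_le_all (fun v => 2 * π * (p v).y * Real.exp (2 * τ v))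
    (fun v => by have := (p v).pos; positivity)
  obtain ⟨m2, hm2, h2⟩ := exists_pos_le_all (fun v => 2 * π * (p v).y * Real.exp (-(2 * τ v)))
    (fun v => by have := (p v).pos; positivity)
  refine gaussBdd_of_norm_le (m := min m1 m2) (lt_min hm1 hm2) (fun u => ?_)
  rw [norm_gf]
  apply Real.exp_le_exp.mpr
  rw [neg_le_neg_iff, Finset.mul_sum, Finset.mul_sum]
  apply Finset.sum_le_sum
  intro v _
  have e1 : min m1 m2 ≤ 2 * π * (p v).y * Real.exp (2 * τ v) := (min_le_left _ _).trans (h1 v)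
  have e2 : min m1 m2 ≤ 2 * π * (p v).y * Real.exp (-(2 * τ v)) := (min_le_right _ _).trans (h2 v)
  have e3 := mul_le_mul_of_nonneg_right e1 (sq_nonneg ‖(u v).1‖)
  have e4 := mul_le_mul_of_nonneg_right e2 (sq_nonneg ‖(u v).2‖)
  nlinarith

/-- **Fourier transform of the Gaussian.** -/
theorem ft_gf (p : HF E) (τ : InfinitePlace E → ℝ) (w : V E) :
    ft (gf p τ) w = (∏ v, ((1 / (4 * (‖(p v).z‖ ^ 2 + (p v).y ^ 2)) : ℝ) : ℂ)) *
      gf (wMat E • p) τ w := by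
  unfold ft gf
  simp only [chr_eq_prod]
  simp only [← Finset.prod_mul_distrib]
  rw [integral_fintype_prod_volume_eq_prod (fun v (x : ℂ × ℂ) => gs (p v).z
    (Real.sqrt (p v).y * Real.exp (τ v)) (Real.sqrt (p v).y * Real.exp (-τ v)) x * pr x (w v))]
  apply Finset.prod_congr rfl
  intro v _
  have hy := (p v).pos
  have h1 : 0 < Real.sqrt (p v).y * Real.exp (τ v) := by positivity
  have h2 : 0 < Real.sqrt (p v).y * Real.exp (-τ v) := by positivity
  rw [integral_gs _ h1 h2]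
  have e1 : Real.sqrt (p v).y * Real.exp (τ v) * (Real.sqrt (p v).y * Real.exp (-τ v)) = (p v).y := by
    rw [mul_mul_mul_comm, ← Real.exp_add, add_neg_cancel, Real.exp_zero, mul_one,
      Real.mul_self_sqrt hy.le]
  rw [e1, wMat_smul_z, wMat_smul_y]
  have hD : 0 < ‖(p v).z‖ ^ 2 + (p v).y ^ 2 := by positivity
  have e2 : Real.sqrt ((p v).y / (‖(p v).z‖ ^ 2 + (p v).y ^ 2)) =
      Real.sqrt (p v).y / Real.sqrt (‖(p v).z‖ ^ 2 + (p v).y ^ 2) := Real.sqrt_div hy.le _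
  rw [e2]
  congr 2 <;> ring

/-- the product of the heights -/
noncomputable def ht (p : HF E) : ℝ := ∏ v, (p v).y

theorem ht_pos (p : HF E) : 0 < ht p := Finset.prod_pos fun v _ => (p v).pos

theorem ht_wMat (p : HF E) : ht (wMat E • p) =
    ht p * ∏ v, (1 / (‖(p v).z‖ ^ 2 + (p v).y ^ 2)) := by
  unfold ht
  rw [← Finset.prod_mul_distrib]
  apply Finset.prod_congr rfl
  intro v _
  rw [wMat_smul_y]; ring

/-- **the theta kernel** -/
noncomputable def th (Ψ : L → ℂ) (p : HF E) (τ : InfinitePlace E → ℝ) : ℂ :=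
  ht p * ∑' x : L, Ψ x * gf p τ (q.ι x)

/-- the constant in the transformation law -/
noncomputable def QD.cst : ℝ := q.κ * ∏ _v : InfinitePlace E, (1 / 4 : ℝ)

theorem QD.cst_pos : 0 < q.cst := by
  have := q.κ_pos
  unfold QD.cst
  positivity

/-- **Transformation law under the Weyl element.** -/
theorem th_wMat {Ψ : L → ℂ} (h : SB Ψ) (p : HF E) (τ : InfinitePlace E → ℝ) :
    th q Ψ p τ = q.cst * th q (q.ff Ψ) (wMat E • p) τ := by
  have hft : ft (gf p τ) = fun w => (∏ v, ((1 / (4 * (‖(p v).z‖ ^ 2 + (p v).y ^ 2)) : ℝ) : ℂ)) *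
      gf (wMat E • p) τ w := funext fun w => ft_gf p τ w
  unfold th
  rw [poisson_SB q h (continuous_gf p τ) (gaussBdd_gf p τ) (by
    rw [hft]; exact (gaussBdd_gf _ _).const_mul _), hft]
  have e1 : (∑' η, q.ff Ψ η * ((∏ v, ((1 / (4 * (‖(p v).z‖ ^ 2 + (p v).y ^ 2)) : ℝ) : ℂ)) *
      gf (wMat E • p) τ (q.ι η))) =
      (∏ v, ((1 / (4 * (‖(p v).z‖ ^ 2 + (p v).y ^ 2)) : ℝ) : ℂ)) *
        ∑' η, q.ff Ψ η * gf (wMat E • p) τ (q.ι η) := by
    rw [← tsum_mul_left]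
    exact tsum_congr fun η => by ring
  rw [e1, ht_wMat]
  unfold QD.cst
  have e2 : (∏ v : InfinitePlace E, ((1 / (4 * (‖(p v).z‖ ^ 2 + (p v).y ^ 2)) : ℝ) : ℂ)) =
      (∏ _v : InfinitePlace E, (((1 / 4 : ℝ)) : ℂ)) *
        ∏ v : InfinitePlace E, ((1 / (‖(p v).z‖ ^ 2 + (p v).y ^ 2) : ℝ) : ℂ) := by
    rw [← Finset.prod_mul_distrib]
    apply Finset.prod_congr rfl
    intro v _
    have hD : (‖(p v).z‖ ^ 2 + (p v).y ^ 2 : ℝ) ≠ 0 := by
      have := (p v).pos; positivity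
    rw [← ofReal_mul]
    congr 1
    field_simp
  rw [e2]
  push_cast
  ring

/-- the quadratic character `e(Tr(b N(x)))` -/
noncomputable def eN (b : E) (x : L) : ℂ :=
  cexp (2 * π * I * ((Algebra.trace ℚ E (b * Algebra.norm E x) : ℚ) : ℂ))

theorem eN_eq_prod (b : E) (x : L) :
    eN b x = ∏ v : InfinitePlace E,
      cexp (4 * π * I * ((v.embedding b * q.τ v x * q.τ v (q.c x)).re : ℂ)) := by
  unfold eN
  rw [trace_eq_sum_places, ← Complex.exp_sum, Finset.mul_sum]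
  congr 1
  apply Finset.sum_congr rfl
  intro v _
  rw [map_mul, ← q.τ_norm, mul_assoc (v.embedding b)]
  push_cast
  ring

theorem eN_add (b b' : E) (x : L) : eN (b + b') x = eN b x * eN b' x := by
  unfold eN
  rw [← Complex.exp_add, add_mul, map_add]
  congr 1
  push_cast
  ring

theorem norm_eN (b : E) (x : L) : ‖eN b x‖ = 1 := by
  unfold eN
  have : (2 * π * I * (((Algebra.trace ℚ E (b * Algebra.norm E x)) : ℚ) : ℂ)) =
    ((2 * π * ((Algebra.trace ℚ E (b * Algebra.norm E x) : ℚ) : ℝ) : ℝ) : ℂ) * I := by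
    push_cast; ring
  rw [this, Complex.norm_exp_ofReal_mul_I]

theorem gf_nMat (b : E) (p : HF E) (τ : InfinitePlace E → ℝ) (x : L) :
    gf (nMat b • p) τ (q.ι x) = eN b x * gf p τ (q.ι x) := by
  rw [eN_eq_prod q]
  unfold gf
  rw [← Finset.prod_mul_distrib]
  apply Finset.prod_congr rfl
  intro v _
  rw [nMat_smul_z, nMat_smul_y]
  unfold gs
  rw [← Complex.exp_add]
  congr 1
  simp only [QD.ι_fst, QD.ι_snd]
  have : (((p v).z + v.embedding b) * q.τ v x * q.τ v (q.c x)).re =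
      ((p v).z * q.τ v x * q.τ v (q.c x)).re + (v.embedding b * q.τ v x * q.τ v (q.c x)).re := by
    rw [← add_re]; congr 1; ring
  rw [this]
  push_cast
  ring

/-- **Translations.** -/
theorem th_nMat (Ψ : L → ℂ) (b : E) (p : HF E) (τ : InfinitePlace E → ℝ) :
    th q Ψ (nMat b • p) τ = th q (fun x => Ψ x * eN b x) p τ := by
  unfold th
  have : ht (nMat b • p) = ht p := Finset.prod_congr rfl fun v _ => nMat_smul_y b p v
  rw [this]
  congr 1
  apply tsum_congr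
  intro x
  rw [gf_nMat]; ring

/-- the logarithmic coordinate of `u ∈ L^*` -/
noncomputable def QD.ell (u : L) (v : InfinitePlace E) : ℝ :=
  (Real.log ‖q.τ v u‖ - Real.log ‖q.τ v (q.c u)‖) / 2

include q in
theorem QD.norm_ne_zero' {u : L} (hu : u ≠ 0) : Algebra.norm E u ≠ 0 := by
  have := q.finDim
  exact Algebra.norm_ne_zero_iff.mpr hu

/-- the norm as a unit -/
noncomputable def QD.nu (u : Lˣ) : Eˣ := Units.mk0 (Algebra.norm E (u : L)) (q.norm_ne_zero' u.ne_zero)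

theorem gf_mul (u : Lˣ) (p : HF E) (τ : InfinitePlace E → ℝ) (x : L) :
    gf p τ (q.ι ((u : L) * x)) = gf (Sp.aMat (q.nu u) • p) (τ + q.ell u) (q.ι x) := by
  unfold gf
  apply Finset.prod_congr rfl
  intro v _
  have hu1 : 0 < ‖q.τ v u‖ := norm_pos_iff.mpr (by
    rw [map_ne_zero]; exact u.ne_zero)
  have hu2 : 0 < ‖q.τ v (q.c u)‖ := norm_pos_iff.mpr (by
    rw [map_ne_zero, map_ne_zero_iff _ q.c.injective]; exact u.ne_zero)
  rw [aMat_smul_z, aMat_smul_y]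
  have hn : v.embedding ((q.nu u : Eˣ) : E) = q.τ v u * q.τ v (q.c u) := (q.τ_norm v u).symm
  rw [hn, norm_mul]
  unfold gs
  simp only [QD.ι_fst, QD.ι_snd, map_mul, norm_mul]
  congr 1
  have e1 : (p v).z * (q.τ v u * q.τ v x) * (q.τ v (q.c u) * q.τ v (q.c x)) =
      q.τ v u * q.τ v (q.c u) * (p v).z * q.τ v x * q.τ v (q.c x) := by ring
  rw [e1]
  have hy := (p v).pos
  have hs : Real.sqrt (‖q.τ v u‖ * ‖q.τ v (q.c u)‖ * (p v).y) =
      Real.sqrt (‖q.τ v u‖ * ‖q.τ v (q.c u)‖) * Real.sqrt (p v).y := Real.sqrt_mul (by positivity) _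
  have ex1 : Real.exp ((τ + q.ell u) v) ^ 2 = Real.exp (τ v) ^ 2 * (‖q.τ v u‖ / ‖q.τ v (q.c u)‖) := by
    rw [← Real.exp_nat_mul, ← Real.exp_nat_mul, Pi.add_apply]
    unfold QD.ell
    rw [show ((2 : ℕ) : ℝ) * (τ v + (Real.log ‖q.τ v u‖ - Real.log ‖q.τ v (q.c u)‖) / 2) =
      ((2 : ℕ) : ℝ) * τ v + (Real.log ‖q.τ v u‖ - Real.log ‖q.τ v (q.c u)‖) by push_cast; ring,
      Real.exp_add, Real.exp_sub, Real.exp_log hu1, Real.exp_log hu2]
  have ex2 : Real.exp (-((τ + q.ell u) v)) ^ 2 =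
      Real.exp (-τ v) ^ 2 * (‖q.τ v (q.c u)‖ / ‖q.τ v u‖) := by
    rw [← Real.exp_nat_mul, ← Real.exp_nat_mul, Pi.add_apply]
    unfold QD.ell
    rw [show ((2 : ℕ) : ℝ) * -(τ v + (Real.log ‖q.τ v u‖ - Real.log ‖q.τ v (q.c u)‖) / 2) =
      ((2 : ℕ) : ℝ) * -τ v + (Real.log ‖q.τ v (q.c u)‖ - Real.log ‖q.τ v u‖) by push_cast; ring,
      Real.exp_add, Real.exp_sub, Real.exp_log hu1, Real.exp_log hu2]
  have q0 : Real.sqrt (‖q.τ v u‖ * ‖q.τ v (q.c u)‖) ^ 2 = ‖q.τ v u‖ * ‖q.τ v (q.c u)‖ :=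
    Real.sq_sqrt (by positivity)
  have q1 : (Real.sqrt (‖q.τ v u‖ * ‖q.τ v (q.c u)‖ * (p v).y) * Real.exp ((τ + q.ell u) v)) ^ 2 =
      (Real.sqrt (p v).y * Real.exp (τ v)) ^ 2 * ‖q.τ v u‖ ^ 2 := by
    rw [hs, mul_pow, mul_pow, ex1, q0, mul_pow]
    field_simp
  have q2 : (Real.sqrt (‖q.τ v u‖ * ‖q.τ v (q.c u)‖ * (p v).y) *
      Real.exp (-((τ + q.ell u) v))) ^ 2 =
      (Real.sqrt (p v).y * Real.exp (-τ v)) ^ 2 * ‖q.τ v (q.c u)‖ ^ 2 := by
    rw [hs, mul_pow, mul_pow, ex2, q0, mul_pow]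
    field_simp
  rw [← ofReal_pow (Real.sqrt (‖q.τ v u‖ * ‖q.τ v (q.c u)‖ * (p v).y) * Real.exp ((τ + q.ell u) v)),
    q1, ← ofReal_pow (Real.sqrt (‖q.τ v u‖ * ‖q.τ v (q.c u)‖ * (p v).y) *
      Real.exp (-((τ + q.ell u) v))), q2]
  push_cast
  ring

theorem aMat_one_smul (p : HF E) : Sp.aMat (1 : Eˣ) • p = p := by
  have : Sp.aMat (1 : Eˣ) = 1 := by
    apply Units.ext
    rw [Sp.aMat_coe]
    ext i j
    fin_cases i <;> fin_cases j <;> simp
  rw [this, one_smul]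

theorem ht_aMat (a : Eˣ) (p : HF E) :
    ht (Sp.aMat a • p) = (∏ v : InfinitePlace E, ‖v.embedding (a : E)‖) * ht p := by
  unfold ht
  rw [← Finset.prod_mul_distrib]
  exact Finset.prod_congr rfl fun v _ => aMat_smul_y a p v

/-- **Scaling.** -/
theorem th_aMat (Ψ : L → ℂ) (u : Lˣ) (p : HF E) (τ : InfinitePlace E → ℝ) :
    th q (fun x => Ψ (u * x)) (Sp.aMat (q.nu u) • p) (τ + q.ell u) =
      (∏ v : InfinitePlace E, (‖v.embedding ((q.nu u : Eˣ) : E)‖ : ℂ)) * th q Ψ p τ := by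
  unfold th
  rw [ht_aMat]
  simp only [← gf_mul]
  have e : ∑' x : L, Ψ (u * x) * gf p τ (q.ι (u * x)) = ∑' x : L, Ψ x * gf p τ (q.ι x) :=
    (Equiv.mulLeft₀ (u : L) u.ne_zero).tsum_eq (fun x => Ψ x * gf p τ (q.ι x))
  rw [e]
  push_cast
  ring

/-- **Norm one elements.** -/
theorem th_normOne (Ψ : L → ℂ) (u : Lˣ) (hu : Algebra.norm E (u : L) = 1) (p : HF E)
    (τ : InfinitePlace E → ℝ) :
    th q (fun x => Ψ (u * x)) p (τ + q.ell u) = th q Ψ p τ := by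
  have h1 : q.nu u = 1 := Units.ext hu
  have := th_aMat q Ψ u p τ
  rw [h1, aMat_one_smul] at this
  rw [this]
  simp

end

end Fermat.Agent.LT.Theta
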